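import Fermat.Agent.M59.TTwin.UnitQ
import Fermat.Agent.S44.Res.Defs2
import Fermat.Agent.S44.Res.Defs
import Fermat.Prelude.Def_ModularCurve_ModularUnit

/-!
M59 / TTwin / Defs2 (helper11, ruling #48): class (T) twin for Sink A.
Generated from `Fermat/Agent/S44/Res/Defs2.lean` on main: the weight-12 unit `Δ(z)/Δ(pz)` is replaced by the
weight-4 level-2 unit `u_F = F(z)/F(pz)`, `F = E₄(z) - E₄(2z)`; the constant `12` becomes `4`;
`5 ≤ p` becomes `p ≠ 2` together with `2 ∣ M`.  Prefix `m59y…_`.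
-/

/-!
# S44 cells [E2]/[E3]/[H2]: THE WEIGHTS `k`, version 2 (helper29, architect ruling R5)

`Sg = s44e_Sg` and `ν = s44e_nu` are those of `Res/Defs.lean` (helper20).  The weights are
re-defined through the modular unit `u = Δ(q)/Δ(q^p)` (helper21's proposal #3991):

* `m59ye_IsUbar A M p fb` : `fb ∈ FF_M` is the `w_∞`-reduction of an element of `F̄_{Mp}` whose
  `q`-expansion is `coeffEmb ℚ̄ (m59yuf_unitSeries p)` (the series of `mza_UB p`);
* `m59ye_ubar A M p`      : the chosen such `fb` (`1` if there is none) — `ū`;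
* `m59ye_k2 A M p hp hpM i := (ord_{Q_i} ū mod p)⁻¹`.

At a supersingular place `Q` (centre = a node of thickness `t` over a base of ramification `e`) the
slope formula gives `T_Q · ord_Q ū = 12` and `T_Q · ord_Q f̄_V ≡ c_V (mod p)` with THE SAME multiplier
`T_Q`, so `k2_Q · ν_Q(V) = c_V / 12` without ever computing `T_Q` (no thickness, no ramification index
in the Legendre cover, no identification of the residue field of the Legendre Gauss valuation).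

Prefix `s44e_`, namespace `Fermat.Agent.S44`.
-/

set_option autoImplicit false
set_option synthInstance.maxHeartbeats 400000
set_option maxHeartbeats 1000000
set_option linter.unusedSectionVars false

noncomputable section

namespace Fermat.Agent.M59

open Fermat.Agent.S44

open ModularCurve AlgebraicCurve IsLocalRing Fermat.Agent.JT3 Fermat.Agent.S35 Fermat.Agent.SS
  Fermat.Agent.S24

section Defs2

variable (A : ValuationSubring s44_Qb) (M : ℕ) [NeZero M]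

/-- `fb` is the `w_∞`-reduction of the modular unit `Δ(q)/Δ(q^p)`, seen in `F̄_{Mp}`. -/
def m59ye_IsUbar (p : ℕ) [NeZero p] [NeZero (M * p)] (fb : s44e_FF A M) : Prop :=
  ∃ f : modularFunctionFieldBar (M * p),
    (f : LaurentSeries s44_Qb) = coeffEmb s44_Qb (m59yuf_unitSeries p) ∧ s44e_RedOf A M f fb

open Classical in
/-- `ū`: the reduction of the modular unit (`1` if it does not exist). -/
def m59ye_ubar (p : ℕ) [NeZero p] [NeZero (M * p)] : s44e_FF A M :=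
  if h : ∃ fb, m59ye_IsUbar A M p fb then h.choose else 1

theorem m59ye_ubar_spec (p : ℕ) [NeZero p] [NeZero (M * p)] (h : ∃ fb, m59ye_IsUbar A M p fb) :
    m59ye_IsUbar A M p (m59ye_ubar A M p) := by
  unfold m59ye_ubar
  rw [dif_pos h]
  exact h.choose_spec

/-- the reduction of the modular unit is unique. -/
theorem m59ye_isUbar_unique (p : ℕ) [NeZero p] [NeZero (M * p)] {fb fb' : s44e_FF A M}
    (h : m59ye_IsUbar A M p fb) (h' : m59ye_IsUbar A M p fb') : fb = fb' := by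
  obtain ⟨f, hf, hb, hr⟩ := h
  obtain ⟨f', hf', hb', hr'⟩ := h'
  have hff : f = f' := Subtype.ext (hf.trans hf'.symm)
  subst hff
  exact Subtype.ext (hr.symm.trans hr')

theorem m59ye_ubar_eq (p : ℕ) [NeZero p] [NeZero (M * p)] {fb : s44e_FF A M} (h : m59ye_IsUbar A M p fb) :
    m59ye_ubar A M p = fb :=
  m59ye_isUbar_unique A M p (m59ye_ubar_spec A M p ⟨fb, h⟩) h

/-- `ord_Q ū mod p`, for EVERY place `Q` of `FF_M / kA`. -/
def m59ye_ordU (p : ℕ) [NeZero p] [NeZero (M * p)]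
    (Q : Place (s44e_kA A) (s44e_FF A M)) : ZMod p :=
  ((Q.ord (m59ye_ubar A M p) : ℤ) : ZMod p)

/-- **the weights of [BIG-ASM], version 2**: `k_Q = (ord_Q ū mod p)⁻¹`. -/
def m59ye_k2 (p : ℕ) [NeZero p] (hp : p.Prime) [NeZero (M * p)] (hpM : ¬ p ∣ M)
    (i : s44e_Sg A M p hp hpM) : ZMod p :=
  (m59ye_ordU A M p i.1)⁻¹

theorem m59ye_k2_def (p : ℕ) [NeZero p] (hp : p.Prime) [NeZero (M * p)] (hpM : ¬ p ∣ M)
    (i : s44e_Sg A M p hp hpM) :
    m59ye_k2 A M p hp hpM i = (m59ye_ordU A M p i.1)⁻¹ := rfl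

theorem m59ye_ordU_def (p : ℕ) [NeZero p] [NeZero (M * p)]
    (Q : Place (s44e_kA A) (s44e_FF A M)) :
    m59ye_ordU A M p Q = ((Q.ord (m59ye_ubar A M p) : ℤ) : ZMod p) := rfl

/-- `ord_Q ū ≢ 0 (mod p)` as soon as `T · ord_Q ū = c₀` with `p ∤ c₀`. -/
theorem m59ye_ordU_ne_zero (p : ℕ) [NeZero p] (hp : p.Prime) [NeZero (M * p)]
    (Q : Place (s44e_kA A) (s44e_FF A M)) {T c₀ : ℤ} (hc₀ : ¬ (p : ℤ) ∣ c₀)
    (hu : T * Q.ord (m59ye_ubar A M p) = c₀) : m59ye_ordU A M p Q ≠ 0 := by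
  have : Fact p.Prime := ⟨hp⟩
  rw [m59ye_ordU_def, Ne, ZMod.intCast_zmod_eq_zero_iff_dvd]
  intro h
  exact hc₀ (hu ▸ Dvd.dvd.mul_left h T)

/-- `k2 ≠ 0` as soon as `ord_Q ū ≢ 0 (mod p)`. -/
theorem m59ye_k2_ne_zero (p : ℕ) [NeZero p] (hp : p.Prime) [NeZero (M * p)] (hpM : ¬ p ∣ M)
    (i : s44e_Sg A M p hp hpM) (h : m59ye_ordU A M p i.1 ≠ 0) :
    m59ye_k2 A M p hp hpM i ≠ 0 := by
  have : Fact p.Prime := ⟨hp⟩
  rw [m59ye_k2_def]
  exact inv_ne_zero h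

/-- `(k2)⁻¹ = ord_Q ū mod p`. -/
theorem m59ye_k2_inv (p : ℕ) [NeZero p] (hp : p.Prime) [NeZero (M * p)] (hpM : ¬ p ∣ M)
    (i : s44e_Sg A M p hp hpM) :
    (m59ye_k2 A M p hp hpM i)⁻¹ = m59ye_ordU A M p i.1 := by
  have : Fact p.Prime := ⟨hp⟩
  rw [m59ye_k2_def, inv_inv]

/-- the form of **mono** that the slope formula produces: `T · ord_Q ū = c₀`, `T · ord_Q f̄ ≡ c_V`,
`p ∤ c₀` ⟹ `(ord_Q ū)⁻¹ · ν_Q = c_V / c₀` in `ZMod p`. -/
theorem m59ye_mul_of_slope (p : ℕ) [NeZero p] (hp : p.Prime) [NeZero (M * p)]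
    (Q : Place (s44e_kA A) (s44e_FF A M)) (z : JZero (M * p)) {T c₀ cV : ℤ}
    (hc₀ : ¬ (p : ℤ) ∣ c₀)
    (hu : T * Q.ord (m59ye_ubar A M p) = c₀)
    (hV : T * Q.ord (s44e_fbar A M p z) ≡ cV [ZMOD (p : ℤ)]) :
    (m59ye_ordU A M p Q)⁻¹ * s44e_nuAll A M p z Q = (cV : ZMod p) * ((c₀ : ZMod p))⁻¹ := by
  have : Fact p.Prime := ⟨hp⟩
  have hc₀' : ((c₀ : ℤ) : ZMod p) ≠ 0 := by
    rwa [Ne, ZMod.intCast_zmod_eq_zero_iff_dvd]
  have hu' : ((T : ℤ) : ZMod p) * m59ye_ordU A M p Q = (c₀ : ZMod p) := by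
    rw [m59ye_ordU_def, ← hu]; push_cast; ring
  have hT : ((T : ℤ) : ZMod p) ≠ 0 := by
    intro h0
    rw [h0, zero_mul] at hu'
    exact hc₀' hu'.symm
  have hU : m59ye_ordU A M p Q ≠ 0 := by
    intro h0
    rw [h0, mul_zero] at hu'
    exact hc₀' hu'.symm
  have hV' : ((T : ℤ) : ZMod p) * s44e_nuAll A M p z Q = (cV : ZMod p) := by
    have := (ZMod.intCast_eq_intCast_iff _ _ p).2 hV
    rw [s44e_nuAll_def, ← this]; push_cast; ring
  rw [← hu', ← hV']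
  field_simp

/-- **mono in the slope form**: `k2_Q · ν_Q(z) = c_V / c₀`. -/
theorem m59ye_k2_mul_of_slope (p : ℕ) [NeZero p] (hp : p.Prime) [NeZero (M * p)] (hpM : ¬ p ∣ M)
    (i : s44e_Sg A M p hp hpM) (z : JZero (M * p)) {T c₀ cV : ℤ}
    (hc₀ : ¬ (p : ℤ) ∣ c₀)
    (hu : T * Place.ord i.1 (m59ye_ubar A M p) = c₀)
    (hV : T * Place.ord i.1 (s44e_fbar A M p z) ≡ cV [ZMOD (p : ℤ)]) :
    m59ye_k2 A M p hp hpM i * s44e_nu A M p hp hpM z i = (cV : ZMod p) * ((c₀ : ZMod p))⁻¹ := by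
  rw [m59ye_k2_def, s44e_nu_def]
  exact m59ye_mul_of_slope A M p hp i.1 z hc₀ hu hV

end Defs2

end Fermat.Agent.M59
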