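import Fermat.Agent.S44.Res.UDiv
import Mathlib
import Fermat.Agent.M59.TTwin.Defs2
import Fermat.Agent.S44.Frame

/-!
M59 / TTwin / UDiv (helper11, ruling #48): class (T) twin for Sink A.
Generated from `Fermat/Agent/S44/Res/UDiv.lean` on main: the weight-12 unit `Δ(z)/Δ(pz)` is replaced by the
weight-4 level-2 unit `u_F = F(z)/F(pz)`, `F = E₄(z) - E₄(2z)`; the constant `12` becomes `4`;
`5 ≤ p` becomes `p ≠ 2` together with `2 ∣ M`.  Prefix `m59y…_`.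
-/

set_option autoImplicit false
set_option synthInstance.maxHeartbeats 400000
set_option maxHeartbeats 3200000
set_option linter.unusedSectionVars false
set_option linter.style.haveILetI false

noncomputable section

namespace Fermat.Agent.M59

open Fermat.Agent.S44

open ModularCurve AlgebraicCurve IsLocalRing Fermat.Agent.JT3

section UDiv

variable (A : ValuationSubring s44_Qb) (M : ℕ) [NeZero M]
  (p : ℕ) [NeZero p] (hp : p.Prime) [NeZero (M * p)] (hpM : ¬ p ∣ M)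

/-- **(U-DIV), new form** (ruling R5, addendum (3)). -/
def m59ye_UDiv : Prop :=
  ∀ Q : Place (s44e_kA A) (s44e_FF A M), jcr_j (k := s44e_kA A) M ∈ Q.toValuationSubring →
    (s44e_IsSS A M p hp hpM Q → ∃ T : ℤ, T * Q.ord (m59ye_ubar A M p) = 4) ∧
    (¬ s44e_IsSS A M p hp hpM Q → Q.ord (m59ye_ubar A M p) = 0)

/-- the assembly shape of (U-DIV): at every place `Q` with `j̄` finite there are a multiplier `T > 0`
and an integer `n` (the order `ν_𝔫(φ u)` of the unit along the `∞`-branch at the centre of `Q`) with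
`n = T · ord_Q ū`, `n = 12` if `Q` is supersingular and `n = 0` otherwise. -/
theorem m59ye_udiv_of_nu
    (h : ∀ Q : Place (s44e_kA A) (s44e_FF A M), jcr_j (k := s44e_kA A) M ∈ Q.toValuationSubring →
      ∃ T n : ℤ, 0 < T ∧ n = T * Q.ord (m59ye_ubar A M p) ∧
        (s44e_IsSS A M p hp hpM Q → n = 4) ∧ (¬ s44e_IsSS A M p hp hpM Q → n = 0)) :
    m59ye_UDiv A M p hp hpM := by
  intro Q hj
  obtain ⟨T, n, hT, hn, hss, hns⟩ := h Q hj
  refine ⟨fun hQ => ⟨T, ?_⟩, fun hQ => ?_⟩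
  · rw [← hn]
    exact hss hQ
  · have h0 : T * Q.ord (m59ye_ubar A M p) = 0 := by
      rw [← hn]
      exact hns hQ
    rcases mul_eq_zero.mp h0 with h1 | h1
    · exact absurd h1 hT.ne'
    · exact h1

include hp in
/-- `p ∤ 12` for a prime `p ≥ 5`. -/
theorem m59ye_not_dvd_twelve (hp2 : p ≠ 2) : ¬ (p : ℤ) ∣ 4 := by
  intro h
  have h1 : p ∣ 2 ^ 2 := by exact_mod_cast h
  have h3 : p ∣ 2 := hp.dvd_of_dvd_pow h1
  exact hp2 ((Nat.prime_dvd_prime_iff_eq hp Nat.prime_two).mp h3)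

variable {A M p hp hpM}

/-- on `Sg`, `ord_Q ū` divides `12`. -/
theorem m59ye_ord_ubar_dvd_of_udiv (h : m59ye_UDiv A M p hp hpM) (i : s44e_Sg A M p hp hpM) :
    Place.ord i.1 (m59ye_ubar A M p) ∣ 4 := by
  obtain ⟨T, hT⟩ := (h i.1 i.2.1).1 i.2
  exact ⟨T, by rw [← hT]; ring⟩

/-- on `Sg`, `ord_Q ū ≠ 0`. -/
theorem m59ye_ord_ubar_ne_of_udiv (h : m59ye_UDiv A M p hp hpM) (i : s44e_Sg A M p hp hpM) :
    Place.ord i.1 (m59ye_ubar A M p) ≠ 0 := by
  intro h0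
  have := m59ye_ord_ubar_dvd_of_udiv h i
  rw [h0, zero_dvd_iff] at this
  norm_num at this

/-- on `Sg`, `ord_Q ū ≢ 0 (mod p)`, `p ≥ 5`. -/
theorem m59ye_ordU_ne_of_udiv (h : m59ye_UDiv A M p hp hpM) (hp2 : p ≠ 2)
    (i : s44e_Sg A M p hp hpM) : m59ye_ordU A M p i.1 ≠ 0 := by
  obtain ⟨T, hT⟩ := (h i.1 i.2.1).1 i.2
  exact m59ye_ordU_ne_zero A M p hp i.1 (m59ye_not_dvd_twelve p hp hp2) hT

/-- **`k_ne`** for the weights `m59ye_k2`. -/
theorem m59ye_k2_ne_of_udiv (h : m59ye_UDiv A M p hp hpM) (hp2 : p ≠ 2)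
    (i : s44e_Sg A M p hp hpM) : m59ye_k2 A M p hp hpM i ≠ 0 :=
  m59ye_k2_ne_zero A M p hp hpM i (m59ye_ordU_ne_of_udiv h hp2 i)

/-- `k2_Q · (ord_Q ū mod p) = 1` on `Sg`: the hypothesis `hSS` (with `c = 1`) of
`s44he_B_eis_of_unit`. -/
theorem m59ye_k2_mul_ordU (h : m59ye_UDiv A M p hp hpM) (hp2 : p ≠ 2)
    (i : s44e_Sg A M p hp hpM) :
    m59ye_k2 A M p hp hpM i * ((Place.ord i.1 (m59ye_ubar A M p) : ℤ) : ZMod p) = 1 := by
  haveI : Fact p.Prime := ⟨hp⟩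
  have h1 := m59ye_ordU_ne_of_udiv h hp2 i
  rw [m59ye_k2_def, ← m59ye_ordU_def]
  exact inv_mul_cancel₀ h1

/-- `p ∣ ord_Q ū` (in fact `ord_Q ū = 0`) at the non-supersingular places where `j̄` is finite: the
hypothesis `hoff` of `s44he_B_eis_of_unit`. -/
theorem m59ye_dvd_ord_ubar_off (h : m59ye_UDiv A M p hp hpM)
    (Q : Place (s44e_kA A) (s44e_FF A M))
    (hj : jcr_j (k := s44e_kA A) M ∈ Q.toValuationSubring) (hQ : ¬ s44e_IsSS A M p hp hpM Q) :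
    (p : ℤ) ∣ Q.ord (m59ye_ubar A M p) := by
  rw [(h Q hj).2 hQ]
  exact dvd_zero _

theorem m59ye_ord_ubar_off (h : m59ye_UDiv A M p hp hpM)
    (Q : Place (s44e_kA A) (s44e_FF A M))
    (hj : jcr_j (k := s44e_kA A) M ∈ Q.toValuationSubring) (hQ : ¬ s44e_IsSS A M p hp hpM Q) :
    Q.ord (m59ye_ubar A M p) = 0 :=
  (h Q hj).2 hQ

end UDiv

end Fermat.Agent.M59
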