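import Mathlib
import Fermat.Agent.JT3.Hauptmodul.Level2Analytic

/-!
M59 / TTwin / Formal (helper11, ruling #48): class (T) twin for Sink A.
The weight-4 level-2 unit `u_F = F(z)/F(pz)`, `F = E₄(z) - E₄(2z)`.  Prefix `m59y…_`.
-/

set_option autoImplicit false

open PowerSeries ModularCurve

namespace Fermat.Agent.M59

/-- cube roots are unique among integral power series with constant coefficient `1`. -/
theorem m59yuf_cube_cancel (u v : PowerSeries ℤ) (hu : constantCoeff u = 1)
    (hv : constantCoeff v = 1) (h : u ^ 3 = v ^ 3) : u = v := by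
  have h1 : (u - v) * (u ^ 2 + u * v + v ^ 2) = 0 := by
    have : (u - v) * (u ^ 2 + u * v + v ^ 2) = u ^ 3 - v ^ 3 := by ring
    rw [this, h, sub_self]
  rcases mul_eq_zero.mp h1 with h2 | h2
  · exact sub_eq_zero.mp h2
  · exfalso
    have h3 := congrArg constantCoeff h2
    simp only [map_add, map_mul, map_pow, hu, hv, map_zero] at h3
    norm_num at h3

/-- `e₈ = ∏ (1 - qⁿ)⁸ (1 - q²ⁿ)⁸`. -/
noncomputable def m59yuf_e8 : PowerSeries ℤ :=
  etaProd ^ 8 * expand 2 two_ne_zero (etaProd ^ 8)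

theorem m59yuf_constantCoeff_expand (P : PowerSeries ℤ) :
    constantCoeff (expand 2 two_ne_zero P) = constantCoeff P := by
  rw [← coeff_zero_eq_constantCoeff_apply, ← coeff_zero_eq_constantCoeff_apply]
  have := PowerSeries.coeff_expand_mul 2 two_ne_zero P 0
  simpa using this

theorem m59yuf_constantCoeff_e8 : constantCoeff m59yuf_e8 = 1 := by
  unfold m59yuf_e8
  rw [map_mul, m59yuf_constantCoeff_expand, map_pow, constantCoeff_etaProd, one_pow, one_mul]

theorem m59yuf_e8_cube :
    m59yuf_e8 ^ 3 = dedekindEtaUnit * expand 2 two_ne_zero dedekindEtaUnit := by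
  unfold m59yuf_e8 dedekindEtaUnit
  simp only [map_pow]
  ring

/-- the common shape of the two level-2 identities, after extraction of the cube root. -/
theorem m59yuf_root (E : PowerSeries ℤ) (hE : constantCoeff E = 1) (a : ℤ)
    (h : E ^ 3 * (X * dedekindEtaUnit) * (X ^ 2 * expand 2 two_ne_zero dedekindEtaUnit) =
      (X * dedekindEtaUnit + (a : PowerSeries ℤ) * (X ^ 2 * expand 2 two_ne_zero dedekindEtaUnit)) ^ 3) :
    E * m59yuf_e8 = dedekindEtaUnit + (a : PowerSeries ℤ) * (X * expand 2 two_ne_zero dedekindEtaUnit) := by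
  apply m59yuf_cube_cancel
  · rw [map_mul, hE, m59yuf_constantCoeff_e8, one_mul]
  · rw [map_add, constantCoeff_dedekindEtaUnit, map_mul, map_mul, constantCoeff_X, zero_mul,
      mul_zero, add_zero]
  · have hX : (X : PowerSeries ℤ) ^ 3 ≠ 0 := pow_ne_zero 3 X_ne_zero
    apply mul_left_cancel₀ hX
    rw [mul_pow, m59yuf_e8_cube]
    calc X ^ 3 * (E ^ 3 * (dedekindEtaUnit * expand 2 two_ne_zero dedekindEtaUnit))
        = E ^ 3 * (X * dedekindEtaUnit) * (X ^ 2 * expand 2 two_ne_zero dedekindEtaUnit) := by ring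
      _ = _ := h
      _ = _ := by ring

theorem m59yuf_E4_mul :
    eisenstein4 * m59yuf_e8 =
      dedekindEtaUnit + 256 * (X * expand 2 two_ne_zero dedekindEtaUnit) := by
  have h := m59yuf_root eisenstein4 constantCoeff_eisenstein4 256
    (by simpa using Fermat.Agent.JT3.hm_id1)
  simpa using h

theorem m59yuf_E4two_mul :
    expand 2 two_ne_zero eisenstein4 * m59yuf_e8 =
      dedekindEtaUnit + 16 * (X * expand 2 two_ne_zero dedekindEtaUnit) := by
  have h := m59yuf_root (expand 2 two_ne_zero eisenstein4)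
    (by rw [m59yuf_constantCoeff_expand, constantCoeff_eisenstein4]) 16
    (by simpa using Fermat.Agent.JT3.hm_id2)
  simpa using h

/-- **the weight-4 eta quotient**: `(E₄(q) - E₄(q²)) · ∏(1-qⁿ)⁸(1-q²ⁿ)⁸ = 240 q ∏(1-q²ⁿ)²⁴`. -/
theorem m59yuf_diff :
    (eisenstein4 - expand 2 two_ne_zero eisenstein4) * m59yuf_e8 =
      240 * (X * expand 2 two_ne_zero dedekindEtaUnit) := by
  rw [sub_mul, m59yuf_E4_mul, m59yuf_E4two_mul]
  ring

/-- cancelled form: `(E₄(q) - E₄(q²)) · ∏(1-qⁿ)⁸ = 240 q ∏(1-q²ⁿ)¹⁶`. -/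
theorem m59yuf_diff' :
    (eisenstein4 - expand 2 two_ne_zero eisenstein4) * etaProd ^ 8 =
      240 * (X * expand 2 two_ne_zero (etaProd ^ 16)) := by
  have h := m59yuf_diff
  unfold m59yuf_e8 dedekindEtaUnit at h
  have h8 : expand 2 two_ne_zero ((etaProd : PowerSeries ℤ) ^ 8) ≠ 0 := by
    intro h0
    have := congrArg constantCoeff h0
    rw [m59yuf_constantCoeff_expand, map_pow, constantCoeff_etaProd, one_pow, map_zero] at this
    exact one_ne_zero this
  apply mul_right_cancel₀ h8
  rw [mul_assoc, h]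
  simp only [map_pow]
  ring

end Fermat.Agent.M59
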