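import Mathlib
import Fermat.Agent.JT3.Hauptmodul.Level2Analytic
import Fermat.Agent.S24.Germ.LaurentQ
import Fermat.Agent.M59.TTwin.Formal

/-!
M59 / TTwin / FormAn (helper11, ruling #48): class (T) twin for Sink A.
The weight-4 level-2 unit `u_F = F(z)/F(pz)`, `F = E₄(z) - E₄(2z)`.  Prefix `m59y…_`.
-/

set_option autoImplicit false

open UpperHalfPlane ModularForm CongruenceSubgroup EisensteinSeries
open scoped MatrixGroups ModularForm Manifold
open Fermat.Agent.S23 Fermat.Agent.S23.QF Fermat.Agent.S16 Fermat.Agent.S24 Fermat.Agent.JT3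

noncomputable section

namespace Fermat.Agent.M59

local notation "Δ" => ModularForm.discriminant

/-- `F = E₄(τ) - E₄(2τ) = 240 η(2τ)¹⁶/η(τ)⁸`, a modular form of weight `4` on `Γ₀(2)`. -/
def m59yuf_F : ModularForm (Gamma0 2) 4 := hm_E4f - hm_E4sf

theorem m59yuf_coe_F : (⇑m59yuf_F : ℍ → ℂ) = ⇑E₄ - hm_E4two := by
  unfold m59yuf_F
  rw [FunLike.coe_sub, hm_coe_E4f, hm_coe_E4sf]

theorem m59yuf_isQFun_F : IsQFun (⇑m59yuf_F : ℍ → ℂ) := fr_isQFun_coe 2 m59yuf_F

theorem m59yuf_qExpansion_F :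
    qExpansion 1 (⇑m59yuf_F : ℍ → ℂ) =
      (ModularCurve.eisenstein4 -
        PowerSeries.expand 2 two_ne_zero ModularCurve.eisenstein4).map (Int.castRingHom ℂ) := by
  rw [m59yuf_coe_F, qExpansion_sub isQFun_E4.analyticAt hm_isQFun_E4two.analyticAt,
    br_qExpansion_E4, hm_qExpansion_E4two, map_sub]

open PowerSeries ModularCurve in
/-- the cubed formal identity: `(E₄ - E₄(q²))³ Δ = 240³ Δ(q²)²`. -/
theorem m59yuf_cube_PS :
    (eisenstein4 - expand 2 two_ne_zero eisenstein4) ^ 3 * (X * dedekindEtaUnit) =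
      240 ^ 3 * (X ^ 2 * expand 2 two_ne_zero dedekindEtaUnit) ^ 2 := by
  have h := m59yuf_diff'
  unfold dedekindEtaUnit
  have h3 := congrArg (fun s => s ^ 3 * X) h
  simp only [map_pow] at h3 ⊢
  calc (eisenstein4 - expand 2 two_ne_zero eisenstein4) ^ 3 * (X * etaProd ^ 24)
      = ((eisenstein4 - expand 2 two_ne_zero eisenstein4) * etaProd ^ 8) ^ 3 * X := by ring
    _ = (240 * (X * expand 2 two_ne_zero etaProd ^ 16)) ^ 3 * X := h3
    _ = _ := by ring

/-- **`F³ Δ = 240³ Δ(2τ)²`** as functions on the upper half plane. -/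
theorem m59yuf_cube (z : ℍ) :
    m59yuf_F z ^ 3 * Δ z = 240 ^ 3 * hm_Dtwo z ^ 2 := by
  have hF := m59yuf_isQFun_F
  have hD := hm_isQFun_Delta
  have hD2 := hm_isQFun_Dtwo
  have key : (⇑m59yuf_F : ℍ → ℂ) ^ 3 * Δ = (fun _ => (240 : ℂ) ^ 3) * hm_Dtwo ^ 2 := by
    apply IsQFun.eq_of_qExpansion_eq ((hF.pow 3).mul hD) ((IsQFun.const _).mul (hD2.pow 2))
    rw [qExpansion_mul (hF.pow 3).analyticAt hD.analyticAt,
      qExpansion_mul (IsQFun.const _).analyticAt (hD2.pow 2).analyticAt,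
      qExpansion_pow_of_isQFun hF, qExpansion_pow_of_isQFun hD2, m59yuf_qExpansion_F,
      hm_qExpansion_Delta, hm_qExpansion_Dtwo]
    rw [gm_qExpansion_const]
    have := congrArg (PowerSeries.map (Int.castRingHom ℂ)) m59yuf_cube_PS
    simp only [map_mul, map_pow, map_sub] at this ⊢
    rw [this]
    have h240 : (PowerSeries.map (Int.castRingHom ℂ)) (240 : PowerSeries ℤ) = PowerSeries.C (240 : ℂ) := by
      rw [show (240 : PowerSeries ℤ) = PowerSeries.C (240 : ℤ) from (map_ofNat PowerSeries.C 240).symm,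
        PowerSeries.map_C]
      simp
    rw [h240]
  have := congrFun key z
  simpa using this

theorem m59yuf_F_ne_zero (z : ℍ) : m59yuf_F z ≠ 0 := by
  intro h
  have h1 := m59yuf_cube z
  rw [h, zero_pow (by norm_num), zero_mul] at h1
  have h2 : hm_Dtwo z ≠ 0 := discriminant_ne_zero _
  have : (240 : ℂ) ^ 3 * hm_Dtwo z ^ 2 ≠ 0 := mul_ne_zero (by norm_num) (pow_ne_zero 2 h2)
  exact this h1.symm

end Fermat.Agent.M59
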