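import Mathlib
import Fermat.Agent.JT3.Hauptmodul.Level2Analytic
import Fermat.Agent.S28.Analytic.Units
import Fermat.Agent.JT3.Gateway.BarComplete
import Fermat.Agent.MZ.A.Place.Unit
import Fermat.Agent.M59.TTwin.FormAn

/-!
M59 / TTwin / UnitAn (helper11, ruling #48): class (T) twin for Sink A.
The weight-4 level-2 unit `u_F = F(z)/F(pz)`, `F = E₄(z) - E₄(2z)`.  Prefix `m59y…_`.
-/

set_option autoImplicit false

open UpperHalfPlane ModularForm CongruenceSubgroup EisensteinSeries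
open scoped MatrixGroups ModularForm Manifold
open Fermat.Agent.S23 Fermat.Agent.S23.QF Fermat.Agent.S16 Fermat.Agent.S24 Fermat.Agent.JT3
  Fermat.Agent.S28 Fermat.Agent.MZ

noncomputable section

namespace Fermat.Agent.M59

local notation "Δ" => ModularForm.discriminant

/-- weight-4 automorphy of `F` under `Γ₀(2)`. -/
theorem m59yuf_F_smul (γ : SL(2, ℤ)) (hγ : γ ∈ Gamma0 2) (z : ℍ) :
    m59yuf_F (γ • z) = denom γ z ^ 4 * m59yuf_F z := by
  have h0 : (⇑m59yuf_F : ℍ → ℂ) ∣[(4 : ℤ)] (Matrix.SpecialLinearGroup.mapGL ℝ γ) = ⇑m59yuf_F :=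
    SlashInvariantFormClass.slash_action_eq m59yuf_F _ ⟨γ, hγ, rfl⟩
  have h := congrFun h0 z
  change ((⇑m59yuf_F : ℍ → ℂ) ∣[(4 : ℤ)] γ) z = _ at h
  rw [ModularForm.SL_slash_apply] at h
  have hd : denom γ z ≠ 0 := denom_ne_zero γ z
  rw [← h, mul_comm, mul_assoc, ← zpow_natCast, ← zpow_add₀ hd]
  simp

variable (p : ℕ) [NeZero p]

/-- conjugating `Γ₀(2p)` by `diag(p,1)` lands in `Γ₀(2)`, with the same denominators. -/
theorem m59yuf_exists_conj (γ : SL(2, ℤ)) (hγ : γ ∈ Gamma0 (2 * p)) :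
    ∃ γ' : SL(2, ℤ), γ' ∈ Gamma0 2 ∧
      (∀ z : ℍ, alphaN p • (γ • z) = γ' • (alphaN p • z)) ∧
      ∀ z : ℍ, denom γ' ((alphaN p • z : ℍ) : ℂ) = denom γ z := by
  rw [Gamma0_mem, ZMod.intCast_zmod_eq_zero_iff_dvd] at hγ
  obtain ⟨c', hc'⟩ := hγ
  have hdet := sl_det_eq γ
  have hc'' : γ 1 0 = (p : ℤ) * (2 * c') := by rw [hc']; push_cast; ring
  have hdet' : γ 0 0 * γ 1 1 - (p * γ 0 1) * (2 * c') = 1 := by
    rw [hc''] at hdet; linear_combination hdet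
  refine ⟨mkSL (γ 0 0) (p * γ 0 1) (2 * c') (γ 1 1) hdet', ?_, ?_, ?_⟩
  · rw [Gamma0_mem, ZMod.intCast_zmod_eq_zero_iff_dvd]
    exact ⟨c', by simp [mkSL]⟩
  · intro z
    have hmat : Matrix.SpecialLinearGroup.mapGL ℝ (mkSL (γ 0 0) (p * γ 0 1) (2 * c') (γ 1 1) hdet')
        * alphaN p = alphaN p * Matrix.SpecialLinearGroup.mapGL ℝ γ := by
      apply Matrix.GeneralLinearGroup.ext
      intro i j
      rw [Matrix.GeneralLinearGroup.coe_mul, Matrix.GeneralLinearGroup.coe_mul, coe_GL_val,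
        coe_GL_val, val_alphaN]
      fin_cases i <;> fin_cases j <;> simp [mkSL, hc'', mul_comm]
    have := congrArg (fun g : GL (Fin 2) ℝ => g • z) hmat
    simp only [mul_smul] at this
    exact this.symm
  · intro z
    have e10 : (mkSL (γ 0 0) (p * γ 0 1) (2 * c') (γ 1 1) hdet') 1 0 = 2 * c' := by simp [mkSL]
    have e11 : (mkSL (γ 0 0) (p * γ 0 1) (2 * c') (γ 1 1) hdet') 1 1 = γ 1 1 := by simp [mkSL]
    rw [ModularGroup.denom_apply, ModularGroup.denom_apply, coe_alphaN_smul, e10, e11, hc'']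
    push_cast
    ring

/-- `G(z) = F(p z)`. -/
def m59yuf_G : ℍ → ℂ := fun z => m59yuf_F (alphaN p • z)

theorem m59yuf_G_ne_zero (z : ℍ) : m59yuf_G p z ≠ 0 := m59yuf_F_ne_zero _

theorem m59yuf_G_smul (γ : SL(2, ℤ)) (hγ : γ ∈ Gamma0 (2 * p)) (z : ℍ) :
    m59yuf_G p (γ • z) = denom γ z ^ 4 * m59yuf_G p z := by
  obtain ⟨γ', hγ', h1, h2⟩ := m59yuf_exists_conj p γ hγ
  unfold m59yuf_G
  rw [h1 z, m59yuf_F_smul γ' hγ', h2 z]

/-- the analytic unit `u_F(τ) = F(τ)/F(pτ)`. -/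
def m59yuf_uan : ℍ → ℂ := fun z => m59yuf_F z / m59yuf_G p z

theorem m59yuf_uan_ne_zero (z : ℍ) : m59yuf_uan p z ≠ 0 :=
  div_ne_zero (m59yuf_F_ne_zero z) (m59yuf_G_ne_zero p z)

theorem m59yuf_uan_smul (γ : SL(2, ℤ)) (hγ : γ ∈ Gamma0 (2 * p)) (z : ℍ) :
    m59yuf_uan p (γ • z) = m59yuf_uan p z := by
  unfold m59yuf_uan
  have hγ2 : γ ∈ Gamma0 2 := tx_mem_Gamma0_of_dvd (Dvd.intro _ rfl) hγ
  rw [m59yuf_F_smul γ hγ2, m59yuf_G_smul p γ hγ]
  have hd : denom γ z ≠ 0 := denom_ne_zero γ z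
  have hG := m59yuf_G_ne_zero p z
  field_simp

end Fermat.Agent.M59
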