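import Mathlib
import Fermat.Agent.JT3.Hauptmodul.Level2Analytic
import Fermat.Agent.S28.Analytic.Units
import Fermat.Agent.JT3.Gateway.BarComplete
import Fermat.Agent.MZ.A.Place.Unit
import Fermat.Agent.M59.TTwin.UnitAn

/-!
M59 / TTwin / Weak (helper11, ruling #48): class (T) twin for Sink A.
The weight-4 level-2 unit `u_F = F(z)/F(pz)`, `F = E₄(z) - E₄(2z)`.  Prefix `m59y…_`.
-/

set_option autoImplicit false

open UpperHalfPlane ModularForm CongruenceSubgroup EisensteinSeries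
open scoped MatrixGroups ModularForm Manifold
open Fermat.Agent.S23 Fermat.Agent.S23.QF Fermat.Agent.S16 Fermat.Agent.S24 Fermat.Agent.JT3
  Fermat.Agent.S28 Fermat.Agent.MZ

noncomputable section

namespace Fermat.Agent.M59

local notation "Δ" => ModularForm.discriminant

theorem m59yuf_mdiff_inv {g : ℍ → ℂ} (hg : MDiff g) (h0 : ∀ z, g z ≠ 0) :
    MDiff (fun z => (g z)⁻¹) := by
  rw [UpperHalfPlane.mdifferentiable_iff] at hg ⊢
  have : ((fun z => (g z)⁻¹) ∘ ofComplex) = fun w => ((g ∘ ofComplex) w)⁻¹ := rfl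
  rw [this]
  exact hg.inv (fun w _ => h0 _)

variable (p : ℕ) [NeZero p]

theorem m59yuf_mdiff_F : MDiff (⇑m59yuf_F : ℍ → ℂ) := ModularFormClass.holo m59yuf_F

theorem m59yuf_mdiff_G : MDiff (m59yuf_G p) :=
  (m59yuf_mdiff_F).comp (UpperHalfPlane.mdifferentiable_smul (det_alphaN_pos p))

theorem m59yuf_mdiff_uan : MDiff (m59yuf_uan p) := by
  have : m59yuf_uan p = (⇑m59yuf_F : ℍ → ℂ) * fun z => (m59yuf_G p z)⁻¹ := by
    funext z; simp [m59yuf_uan, div_eq_mul_inv]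
  rw [this]
  exact m59yuf_mdiff_F.mul (m59yuf_mdiff_inv (m59yuf_mdiff_G p) (m59yuf_G_ne_zero p))

theorem m59yuf_alphaN_mul (z : ℍ) : alphaN (2 * p) • z = alphaN 2 • (alphaN p • z) := by
  apply UpperHalfPlane.ext
  rw [coe_alphaN_smul, coe_alphaN_smul, coe_alphaN_smul]
  push_cast
  ring

/-- the cube of the unit in terms of the `Δ`-units `tx_u`. -/
theorem m59yuf_uan_cube (z : ℍ) :
    m59yuf_uan p z ^ 3 =
      (p : ℂ) ^ 12 * (tx_u 2 z ^ 2 * tx_u p z * ((tx_u (2 * p) z)⁻¹) ^ 2) := by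
  have h1 := m59yuf_cube z
  have h2 := m59yuf_cube (alphaN p • z)
  unfold hm_Dtwo at h1 h2
  unfold m59yuf_uan m59yuf_G tx_u
  rw [m59yuf_alphaN_mul]
  have hΔ1 := discriminant_ne_zero z
  have hΔ2 := discriminant_ne_zero (alphaN p • z)
  have hΔ3 := discriminant_ne_zero (alphaN 2 • z)
  have hΔ4 := discriminant_ne_zero (alphaN 2 • (alphaN p • z))
  have hF2 := m59yuf_F_ne_zero (alphaN p • z)
  have hp : (p : ℂ) ≠ 0 := Nat.cast_ne_zero.mpr (NeZero.ne p)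
  rw [div_pow, div_eq_iff (pow_ne_zero 3 hF2)]
  have e1 : m59yuf_F z ^ 3 = 240 ^ 3 * Δ (alphaN 2 • z) ^ 2 / Δ z := by
    rw [eq_div_iff hΔ1]; exact h1
  have e2 : m59yuf_F (alphaN p • z) ^ 3 =
      240 ^ 3 * Δ (alphaN 2 • (alphaN p • z)) ^ 2 / Δ (alphaN p • z) := by
    rw [eq_div_iff hΔ2]; exact h2
  rw [e1, e2]
  push_cast
  field_simp

end Fermat.Agent.M59
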