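import Mathlib
import Fermat.Agent.JT3.Hauptmodul.Level2Analytic
import Fermat.Agent.S28.Analytic.Units
import Fermat.Agent.JT3.Gateway.BarComplete
import Fermat.Agent.MZ.A.Place.Unit
import Fermat.Agent.M59.TTwin.Weak

/-!
M59 / TTwin / Weak2 (helper11, ruling #48): class (T) twin for Sink A.
The weight-4 level-2 unit `u_F = F(z)/F(pz)`, `F = E₄(z) - E₄(2z)`.  Prefix `m59y…_`.
-/

set_option autoImplicit false

open UpperHalfPlane ModularForm CongruenceSubgroup EisensteinSeries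
open scoped MatrixGroups ModularForm Manifold
open Fermat.Agent.S23 Fermat.Agent.S23.QF Fermat.Agent.S16 Fermat.Agent.S24 Fermat.Agent.JT3
  Fermat.Agent.S28 Fermat.Agent.MZ

noncomputable section

namespace Fermat.Agent.M59

variable (p : ℕ) [NeZero p]

/-- the cube of the unit is a weakly holomorphic modular function of level `2p`. -/
theorem m59yuf_weak_cube : IsWeakModFun (2 * p) (fun z => m59yuf_uan p z ^ 3) where
  mdiff := (m59yuf_mdiff_uan p).pow 3
  inv := fun γ hγ z => by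
    show m59yuf_uan p (γ • z) ^ 3 = m59yuf_uan p z ^ 3
    rw [m59yuf_uan_smul p γ hγ z]
  growth := fun γ => by
    have h2 : (2 : ℕ) ∣ 2 * p := Dvd.intro _ rfl
    have hp : p ∣ 2 * p := Dvd.intro_left _ rfl
    have h2p : 2 * p ∣ 2 * p := dvd_refl _
    have hP : fi_P (2 * p) ((fun _ => (p : ℂ) ^ 12) *
        (tx_ufun 2 γ * tx_ufun 2 γ * tx_ufun p γ *
          ((fun z => (tx_ufun (2 * p) γ z)⁻¹) * fun z => (tx_ufun (2 * p) γ z)⁻¹))) :=
      tx_fi_P_mul _ (tx_fi_P_const _ _)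
        (tx_fi_P_mul _ (tx_fi_P_mul _ (tx_fi_P_mul _ (tx_fi_P_ufun _ h2 γ) (tx_fi_P_ufun _ h2 γ))
          (tx_fi_P_ufun _ hp γ))
          (tx_fi_P_mul _ (tx_fi_P_ufun_inv _ h2p γ) (tx_fi_P_ufun_inv _ h2p γ)))
    obtain ⟨m, hm⟩ := mza_plu_growth_of_fi_P (2 * p) hP
    refine ⟨m, ?_⟩
    convert hm using 2
    funext z
    simp only [Pi.mul_apply]
    rw [m59yuf_uan_cube]
    simp only [tx_ufun]
    ring

/-- **the unit `u_F(τ) = F(τ)/F(pτ)` is a weakly holomorphic modular function of level `2p`.** -/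
theorem m59yuf_weak : IsWeakModFun (2 * p) (m59yuf_uan p) :=
  gb_isWeakModFun (n := 3) (by norm_num) (m59yuf_weak_cube p) (m59yuf_mdiff_uan p)
    (fun γ hγ z => m59yuf_uan_smul p γ hγ z) (fun _ => rfl)

end Fermat.Agent.M59
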