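import Mathlib
import Fermat.Agent.MZ.A.Place.UnitQ
import Fermat.Agent.M59.TTwin.Weak2

/-!
M59 / TTwin / UnitQ (helper11, ruling #48): class (T) twin for Sink A.
Generated from `Fermat/Agent/MZ/A/Place/UnitQ.lean` on main: the weight-12 unit `Δ(z)/Δ(pz)` is replaced by the
weight-4 level-2 unit `u_F = F(z)/F(pz)`, `F = E₄(z) - E₄(2z)`; the constant `12` becomes `4`;
`5 ≤ p` becomes `p ≠ 2` together with `2 ∣ M`.  Prefix `m59y…_`.
-/

set_option autoImplicit false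

open UpperHalfPlane ModularForm CongruenceSubgroup EisensteinSeries
open scoped MatrixGroups ModularForm Manifold
open Fermat.Agent.S23 Fermat.Agent.S23.QF Fermat.Agent.S16 Fermat.Agent.S24 Fermat.Agent.JT3
  Fermat.Agent.S28 Fermat.Agent.MZ
open ModularCurve

noncomputable section

namespace Fermat.Agent.M59

/-- the integral `q`-expansion `E₄(q) - E₄(q²) = 240 q ∏(1-q²ⁿ)¹⁶/(1-qⁿ)⁸`. -/
def m59yuf_fZ : PowerSeries ℤ :=
  eisenstein4 - PowerSeries.expand 2 two_ne_zero eisenstein4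

/-- the same over `ℚ`, as a Laurent series. -/
def m59yuf_fQ : LaurentSeries ℚ :=
  HahnSeries.ofPowerSeries ℤ ℚ (m59yuf_fZ.map (Int.castRingHom ℚ))

/-- **the formal unit** `u_F = f(q)/f(q^p)`. -/
def m59yuf_unitSeries (p : ℕ) [NeZero p] : LaurentSeries ℚ :=
  m59yuf_fQ * (qExpand ℚ p m59yuf_fQ)⁻¹

/-- over `ℂ`. -/
def m59yuf_fC : LaurentSeries ℂ :=
  HahnSeries.ofPowerSeries ℤ ℂ (m59yuf_fZ.map (Int.castRingHom ℂ))

theorem m59yuf_coeffMap_fQ : coeffMap (algebraMap ℚ ℂ) m59yuf_fQ = m59yuf_fC := by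
  unfold m59yuf_fQ m59yuf_fC
  rw [br_coeffMap_ofPowerSeries]
  congr 1

theorem m59yuf_fZ_coeff_one : PowerSeries.coeff 1 m59yuf_fZ = 240 := by
  unfold m59yuf_fZ
  rw [map_sub]
  have h1 : PowerSeries.coeff 1 eisenstein4 = 240 := by
    simp [eisenstein4]
  have h2 : PowerSeries.coeff 1 (PowerSeries.expand 2 two_ne_zero eisenstein4) = 0 := by
    rw [PowerSeries.coeff_expand]
    simp
  rw [h1, h2, sub_zero]

theorem m59yuf_fC_ne_zero : m59yuf_fC ≠ 0 := by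
  intro h
  have h1 := congrArg (fun s : LaurentSeries ℂ => s.coeff 1) h
  simp only [m59yuf_fC, HahnSeries.coeff_zero] at h1
  have : ((1 : ℕ) : ℤ) = 1 := rfl
  rw [← this, HahnSeries.ofPowerSeries_apply_coeff, PowerSeries.coeff_map, m59yuf_fZ_coeff_one] at h1
  norm_num at h1

theorem m59yuf_F_laurent : br_HasLaurentQ (⇑m59yuf_F : ℍ → ℂ) m59yuf_fC := by
  refine ⟨0, ?_, ?_⟩
  · rw [pow_zero, one_mul]; exact m59yuf_isQFun_F
  · rw [pow_zero, one_mul, m59yuf_qExpansion_F]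
    simp only [Nat.cast_zero]
    rw [show (HahnSeries.single (0 : ℤ) (1 : ℂ) : LaurentSeries ℂ) = 1 from rfl, one_mul]
    rfl

variable (p : ℕ) [NeZero p]

theorem m59yuf_G_laurent : br_HasLaurentQ (m59yuf_G p) (qExpand ℂ p m59yuf_fC) :=
  m59yuf_F_laurent.comp_alphaN p

theorem m59yuf_qExpand_fC_ne_zero : qExpand ℂ p m59yuf_fC ≠ 0 :=
  (map_ne_zero _).2 m59yuf_fC_ne_zero

/-- **the analytic unit has the `q`-expansion `f(q)/f(q^p)`.** -/
theorem m59yuf_uan_laurent :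
    br_HasLaurentQ (m59yuf_uan p) (m59yuf_fC * (qExpand ℂ p m59yuf_fC)⁻¹) := by
  obtain ⟨H, hH⟩ := gb_exists_laurentQ (m59yuf_weak p)
  have h1 := hH.mul (m59yuf_G_laurent p)
  have e : m59yuf_uan p * m59yuf_G p = ⇑m59yuf_F := by
    funext z
    simp only [Pi.mul_apply, m59yuf_uan]
    exact div_mul_cancel₀ _ (m59yuf_G_ne_zero p z)
  rw [e] at h1
  have h2 := h1.unique_right m59yuf_F_laurent
  have h3 : H = m59yuf_fC * (qExpand ℂ p m59yuf_fC)⁻¹ := by
    rw [eq_mul_inv_iff_mul_eq₀ (m59yuf_qExpand_fC_ne_zero p)]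
    exact h2
  rwa [h3] at hH

theorem m59yuf_coeffMap_unitSeries :
    coeffMap (algebraMap ℚ ℂ) (m59yuf_unitSeries p) = m59yuf_fC * (qExpand ℂ p m59yuf_fC)⁻¹ := by
  unfold m59yuf_unitSeries
  rw [map_mul, map_inv₀, coeffMap_qExpand, m59yuf_coeffMap_fQ]

/-- the same through `Q̄` (the form consumed by `gb_mem_field`). -/
theorem m59yuf_uan_laurent_bar :
    br_HasLaurentQ (m59yuf_uan p)
      (coeffMap (br_iota : AlgebraicClosure ℚ →+* ℂ)
        (coeffEmb (AlgebraicClosure ℚ) (m59yuf_unitSeries p))) := by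
  rw [br_coeffMap_iota_coeffEmb, m59yuf_coeffMap_unitSeries]
  exact m59yuf_uan_laurent p

/-- **the unit `u_F` as an element of `Q̄(X₀(2p))`.** -/
theorem m59yuf_series_mem :
    coeffEmb (AlgebraicClosure ℚ) (m59yuf_unitSeries p) ∈
      ModularCurve.modularFunctionFieldBar (2 * p) :=
  gb_mem_field (2 * p) (gb_mem_W.mpr ⟨m59yuf_uan p, m59yuf_weak p, m59yuf_uan_laurent_bar p⟩)

end Fermat.Agent.M59
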