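import Mathlib
import Fermat.Agent.MZ.B.QInt
import Fermat.Agent.M59.TTwin.UnitQ

/-!
M59 / TTwin / QInt (helper11, ruling #48): class (T) twin for Sink A.
Generated from `Fermat/Agent/MZ/B/QInt.lean` on main: the weight-12 unit `Δ(z)/Δ(pz)` is replaced by the
weight-4 level-2 unit `u_F = F(z)/F(pz)`, `F = E₄(z) - E₄(2z)`; the constant `12` becomes `4`;
`5 ≤ p` becomes `p ≠ 2` together with `2 ∣ M`.  Prefix `m59y…_`.
-/

set_option autoImplicit false

open HahnSeries ModularCurve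

noncomputable section

namespace Fermat.Agent.M59

open Fermat.Agent.MZ

/-! ### the eta quotient `∏ (1-q²ⁿ)¹⁶/(1-qⁿ)⁸` over `ℤ` -/

theorem m59yqi_cc_pow (n : ℕ) : PowerSeries.constantCoeff (etaProd ^ n) = 1 := by
  rw [map_pow, constantCoeff_etaProd, one_pow]

/-- `∏ (1-q²ⁿ)¹⁶/(1-qⁿ)⁸`. -/
def m59yqi_numZ : PowerSeries ℤ :=
  PowerSeries.expand 2 two_ne_zero (etaProd ^ 16) * (etaProd ^ 8).invOfUnit 1

/-- `∏ (1-qⁿ)⁸/(1-q²ⁿ)¹⁶`. -/
def m59yqi_denZ : PowerSeries ℤ :=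
  PowerSeries.expand 2 two_ne_zero ((etaProd ^ 16).invOfUnit 1) * etaProd ^ 8

theorem m59yqi_num_mul_den : m59yqi_numZ * m59yqi_denZ = 1 := by
  unfold m59yqi_numZ m59yqi_denZ
  have h1 : (etaProd ^ 8) * (etaProd ^ 8).invOfUnit 1 = 1 :=
    PowerSeries.mul_invOfUnit _ _ (by rw [m59yqi_cc_pow]; rfl)
  have h2 : (etaProd ^ 16) * (etaProd ^ 16).invOfUnit 1 = 1 :=
    PowerSeries.mul_invOfUnit _ _ (by rw [m59yqi_cc_pow]; rfl)
  calc PowerSeries.expand 2 two_ne_zero (etaProd ^ 16) * (etaProd ^ 8).invOfUnit 1 *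
        (PowerSeries.expand 2 two_ne_zero ((etaProd ^ 16).invOfUnit 1) * etaProd ^ 8)
      = PowerSeries.expand 2 two_ne_zero ((etaProd ^ 16) * (etaProd ^ 16).invOfUnit 1) *
          ((etaProd ^ 8) * (etaProd ^ 8).invOfUnit 1) := by rw [map_mul]; ring
    _ = 1 := by rw [h1, h2, map_one, one_mul]

/-- `E₄(q) - E₄(q²) = 240 q ∏ (1-q²ⁿ)¹⁶/(1-qⁿ)⁸`. -/
theorem m59yqi_fZ_eq : m59yuf_fZ = 240 * (PowerSeries.X * m59yqi_numZ) := by
  have h := m59yuf_diff'
  have h1 : (etaProd ^ 8) * (etaProd ^ 8).invOfUnit 1 = 1 :=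
    PowerSeries.mul_invOfUnit _ _ (by rw [m59yqi_cc_pow]; rfl)
  unfold m59yuf_fZ m59yqi_numZ
  calc eisenstein4 - PowerSeries.expand 2 two_ne_zero eisenstein4
      = (eisenstein4 - PowerSeries.expand 2 two_ne_zero eisenstein4) *
          ((etaProd ^ 8) * (etaProd ^ 8).invOfUnit 1) := by rw [h1, mul_one]
    _ = ((eisenstein4 - PowerSeries.expand 2 two_ne_zero eisenstein4) * etaProd ^ 8) *
          (etaProd ^ 8).invOfUnit 1 := by ring
    _ = _ := by rw [h]; ring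

/-! ### integral models over any ring -/

section Models

variable (R : Type*) [CommRing R]

/-- `f = q ∏ (1-q²ⁿ)¹⁶/(1-qⁿ)⁸` over `R`. -/
def m59yqi_Y : LaurentSeries R :=
  HahnSeries.single (1 : ℤ) 1 * HahnSeries.ofPowerSeries ℤ R (m59yqi_numZ.map (Int.castRingHom R))

/-- `1/f` over `R`. -/
def m59yqi_Yinv : LaurentSeries R :=
  HahnSeries.single (-1 : ℤ) 1 * HahnSeries.ofPowerSeries ℤ R (m59yqi_denZ.map (Int.castRingHom R))

theorem m59yqi_Y_mul_inv : m59yqi_Y R * m59yqi_Yinv R = 1 := by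
  rw [m59yqi_Y, m59yqi_Yinv, mul_mul_mul_comm, mzb_qi_single_mul_single, one_mul, ← map_mul,
    ← map_mul, m59yqi_num_mul_den, map_one, map_one]

variable (p : ℕ) [NeZero p]

/-- `u_F = f(q)/f(q^p)` over `R`. -/
def m59yqi_U : LaurentSeries R := m59yqi_Y R * qExpand R p (m59yqi_Yinv R)

/-- `1/u_F` over `R`. -/
def m59yqi_Uinv : LaurentSeries R := m59yqi_Yinv R * qExpand R p (m59yqi_Y R)

theorem m59yqi_U_mul_inv : m59yqi_U R p * m59yqi_Uinv R p = 1 := by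
  rw [m59yqi_U, m59yqi_Uinv, mul_mul_mul_comm, m59yqi_Y_mul_inv, one_mul, ← map_mul, mul_comm,
    m59yqi_Y_mul_inv, map_one]

end Models

section Functorial

variable {R S : Type*} [CommRing R] [CommRing S] (f : R →+* S)

theorem m59yqi_coeffMap_Y : coeffMap f (m59yqi_Y R) = m59yqi_Y S := by
  rw [m59yqi_Y, map_mul, coeffMap_single, map_one, coeffMap_ofPowerSeries, mzb_qi_map_intCast]
  rfl

theorem m59yqi_coeffMap_Yinv : coeffMap f (m59yqi_Yinv R) = m59yqi_Yinv S := by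
  rw [m59yqi_Yinv, map_mul, coeffMap_single, map_one, coeffMap_ofPowerSeries, mzb_qi_map_intCast]
  rfl

variable (p : ℕ) [NeZero p]

theorem m59yqi_coeffMap_U : coeffMap f (m59yqi_U R p) = m59yqi_U S p := by
  rw [m59yqi_U, map_mul, coeffMap_qExpand, m59yqi_coeffMap_Y, m59yqi_coeffMap_Yinv]
  rfl

theorem m59yqi_coeffMap_Uinv : coeffMap f (m59yqi_Uinv R p) = m59yqi_Uinv S p := by
  rw [m59yqi_Uinv, map_mul, coeffMap_qExpand, m59yqi_coeffMap_Y, m59yqi_coeffMap_Yinv]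
  rfl

end Functorial

section Compare

variable (p : ℕ) [NeZero p]

theorem m59yqi_fQ_eq : m59yuf_fQ = HahnSeries.C (240 : ℚ) * m59yqi_Y ℚ := by
  unfold m59yuf_fQ m59yqi_Y
  rw [m59yqi_fZ_eq, map_mul, map_mul, map_mul, map_mul, PowerSeries.map_X,
    HahnSeries.ofPowerSeries_X]
  congr 1
  rw [show (240 : PowerSeries ℤ) = PowerSeries.C (240 : ℤ) from (map_ofNat PowerSeries.C 240).symm,
    PowerSeries.map_C, HahnSeries.ofPowerSeries_C]
  simp

theorem m59yqi_U_rat : m59yqi_U ℚ p = m59yuf_unitSeries p := by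
  unfold m59yuf_unitSeries m59yqi_U
  rw [m59yqi_fQ_eq, map_mul, qExpand_C, mul_inv]
  have h240 : (HahnSeries.C (240 : ℚ) : LaurentSeries ℚ) ≠ 0 := (map_ne_zero _).2 (by norm_num)
  have hinv : (qExpand ℚ p (m59yqi_Y ℚ))⁻¹ = qExpand ℚ p (m59yqi_Yinv ℚ) := by
    refine inv_eq_of_mul_eq_one_right ?_
    rw [← map_mul, m59yqi_Y_mul_inv, map_one]
  rw [hinv]
  field_simp

/-- the integral model base-changed to a field `L ⊇ ℚ`. -/
theorem m59yqi_U_coeffEmb (L : Type*) [Field L] [Algebra ℚ L] :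
    m59yqi_U L p = coeffEmb L (m59yuf_unitSeries p) := by
  rw [← m59yqi_U_rat, coeffEmb, m59yqi_coeffMap_U]

end Compare

end Fermat.Agent.M59
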