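import Mathlib
import Fermat.Agent.S44.HeckeRes.UnitFormal
import Fermat.Agent.S44.HeckeRes.EtaProdPS
import Fermat.Agent.M59.TTwin.QInt

/-!
M59 / TTwin / UnitFormal (helper11, ruling #48): class (T) twin for Sink A.
Generated from `Fermat/Agent/S44/HeckeRes/UnitFormal.lean` on main: the weight-12 unit `Δ(z)/Δ(pz)` is replaced by the
weight-4 level-2 unit `u_F = F(z)/F(pz)`, `F = E₄(z) - E₄(2z)`; the constant `12` becomes `4`;
`5 ≤ p` becomes `p ≠ 2` together with `2 ∣ M`.  Prefix `m59y…_`.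
-/

set_option autoImplicit false

noncomputable section

namespace Fermat.Agent.M59

open ModularCurve HahnSeries Fermat.Agent.S28 Fermat.Agent.S44 Finset

variable {R : Type*} [Field R]

/-- Euler's product as a Laurent series over `R`. -/
def m59yhf_EL (R : Type*) [Field R] : LaurentSeries R :=
  HahnSeries.ofPowerSeries ℤ R (s44hf_E R)

theorem m59yhf_EL_ne_zero : m59yhf_EL R ≠ 0 := by
  intro h
  have h1 := congrArg (fun s : LaurentSeries R => s.coeff ((0 : ℕ) : ℤ)) h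
  simp only [m59yhf_EL, HahnSeries.coeff_zero] at h1
  rw [HahnSeries.ofPowerSeries_apply_coeff, s44hf_E, PowerSeries.coeff_map,
    PowerSeries.coeff_zero_eq_constantCoeff_apply, constantCoeff_etaProd] at h1
  simp at h1

/-- the eta quotient in terms of Euler's product: `f = q · E(q²)¹⁶ · (E(q)⁸)⁻¹`. -/
theorem m59yhf_Y_eq :
    m59yqi_Y R = HahnSeries.single (1 : ℤ) (1 : R) *
      ((qExpand R 2 (m59yhf_EL R)) ^ 16 * ((m59yhf_EL R) ^ 8)⁻¹) := by
  unfold m59yqi_Y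
  congr 1
  have h8 : (m59yhf_EL R) ^ 8 ≠ 0 := pow_ne_zero 8 m59yhf_EL_ne_zero
  rw [eq_mul_inv_iff_mul_eq₀ h8]
  have h1 : (etaProd ^ 8 : PowerSeries ℤ).invOfUnit 1 * (etaProd ^ 8) = 1 := by
    rw [mul_comm]
    exact PowerSeries.mul_invOfUnit _ _ (by rw [m59yqi_cc_pow]; rfl)
  have hB : m59yqi_numZ * etaProd ^ 8 = PowerSeries.expand 2 two_ne_zero (etaProd ^ 16) := by
    unfold m59yqi_numZ
    rw [mul_assoc, h1, mul_one]
  have hA : HahnSeries.ofPowerSeries ℤ R (m59yqi_numZ.map (Int.castRingHom R)) * (m59yhf_EL R) ^ 8 =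
      HahnSeries.ofPowerSeries ℤ R ((m59yqi_numZ * etaProd ^ 8).map (Int.castRingHom R)) := by
    unfold m59yhf_EL s44hf_E
    rw [map_mul, map_mul, map_pow, map_pow]
  rw [hA, hB, PowerSeries.map_expand]
  haveI : NeZero (2 : ℕ) := ⟨two_ne_zero⟩
  rw [s44hf_ofPowerSeries_expand, map_pow, map_pow, map_pow]
  rfl

variable {l : ℕ} [NeZero l] [NeZero (l ^ 2)] {ζ : Rˣ}

/-- the Hecke relation for the weight-4 eta quotient. -/
theorem m59yhf_rel_Y (hζ : ζ ^ l = 1) (h2l : Nat.Coprime 2 l)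
    (hEta : s44hf_EtaId R l (ζ : R)) :
    s44hf_Rel l ζ (((∏ b ∈ Finset.range l, ζ ^ b : Rˣ) : Rˣ) : R) (m59yqi_Y R) := by
  rw [m59yhf_Y_eq]
  have hE := s44hf_rel_eta (l := l) (ζ := ζ) hEta
  have hE2 := (hE.qExpand hζ 2 h2l).pow 16
  have hE8 := ((hE.pow 8).inv (by simp) (pow_ne_zero 8 m59yhf_EL_ne_zero))
  have h := (s44hf_Rel.q (l := l) (ζ := ζ)).mul (hE2.mul hE8)
  simpa [m59yhf_EL] using h

theorem m59yhf_Y_ne_zero : m59yqi_Y R ≠ 0 := by
  intro h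
  have := m59yqi_Y_mul_inv R
  rw [h, zero_mul] at this
  exact zero_ne_one this

/-- **(U-T), formal half, for the weight-4 unit** `u_F = f(q)/f(q^p)`, `p`, `2` prime to `l`. -/
theorem m59yhf_unit_of (hζ : ζ ^ l = 1) (h2l : Nat.Coprime 2 l) (p : ℕ) [NeZero p]
    (hpl : Nat.Coprime p l) (hEta : s44hf_EtaId R l (ζ : R)) :
    qExpand R (l ^ 2) (m59yqi_U R p) * ∏ b ∈ Finset.range l, fs_twist (ζ ^ b) (m59yqi_U R p) =
      (qExpand R l (m59yqi_U R p)) ^ (l + 1) := by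
  have hY := m59yhf_rel_Y (l := l) (ζ := ζ) hζ h2l hEta
  have hε : (((∏ b ∈ Finset.range l, ζ ^ b : Rˣ) : Rˣ) : R) ≠ 0 := Units.ne_zero _
  have hYp := (hY.qExpand hζ p hpl).inv hε ((map_ne_zero _).2 m59yhf_Y_ne_zero)
  have h := hY.mul hYp
  rw [mul_inv_cancel₀ hε] at h
  have hU : m59yqi_U R p = m59yqi_Y R * (qExpand R p (m59yqi_Y R))⁻¹ := by
    unfold m59yqi_U
    congr 1
    refine (inv_eq_of_mul_eq_one_right ?_).symm
    rw [← map_mul, m59yqi_Y_mul_inv, map_one]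
  rw [← hU] at h
  unfold s44hf_Rel at h
  rw [h, map_one, one_mul]

end Fermat.Agent.M59
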