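import Mathlib
import Fermat.Agent.S44.HeckeRes.UnitDef
import Fermat.Agent.S44.HeckeRes.UnitHecke
import Fermat.Agent.M59.TTwin.UnitFormal

/-!
M59 / TTwin / UnitDef (helper11, ruling #48): class (T) twin for Sink A.
Generated from `Fermat/Agent/S44/HeckeRes/UnitDef.lean` on main: the weight-12 unit `Δ(z)/Δ(pz)` is replaced by the
weight-4 level-2 unit `u_F = F(z)/F(pz)`, `F = E₄(z) - E₄(2z)`; the constant `12` becomes `4`;
`5 ≤ p` becomes `p ≠ 2` together with `2 ∣ M`.  Prefix `m59y…_`.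
-/

set_option autoImplicit false
set_option linter.unusedSectionVars false
set_option linter.style.haveILetI false

noncomputable section

namespace Fermat.Agent.M59

open ModularCurve IsLocalRing AlgebraicCurve Fermat.Agent.JT3 Fermat.Agent.MZ Fermat.Agent.S44
  Fermat.Agent.S35 Fermat.Agent.S28

local notation "Qb" => AlgebraicClosure ℚ

section Def

variable (p N : ℕ) [NeZero p] [NeZero N] (hpN : 2 * p ∣ N)

include hpN in
theorem m59yhu_series_mem :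
    coeffEmb Qb (m59yuf_unitSeries p) ∈ modularFunctionFieldBar N := by
  have h1 : coeffEmb Qb (m59yuf_unitSeries p) ∈ modularFunctionFieldBar (2 * p) :=
    m59yuf_series_mem p
  rw [← lg_F_eq_bar] at h1 ⊢
  exact full_degeneracyC_le Qb hpN h1

/-- **the weight-4 unit `f(q)/f(q^p)` as an element of `F̄_N`**, `2p ∣ N`. -/
def m59yhu_U : modularFunctionFieldBar N :=
  ⟨coeffEmb Qb (m59yuf_unitSeries p), m59yhu_series_mem p N hpN⟩

theorem m59yhu_coe_U :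
    ((m59yhu_U p N hpN : modularFunctionFieldBar N) : LaurentSeries Qb) =
      coeffEmb Qb (m59yuf_unitSeries p) := rfl

theorem m59yhu_coe_U' :
    ((m59yhu_U p N hpN : modularFunctionFieldBar N) : LaurentSeries Qb) = m59yqi_U Qb p := by
  rw [m59yhu_coe_U, m59yqi_U_coeffEmb]

theorem m59yhu_U_ne_zero : m59yhu_U p N hpN ≠ 0 := by
  intro h
  have h1 := congrArg (fun z : modularFunctionFieldBar N => (z : LaurentSeries Qb)) h
  simp only [m59yhu_coe_U', ZeroMemClass.coe_zero] at h1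
  have := m59yqi_U_mul_inv Qb p
  rw [h1, zero_mul] at this
  exact zero_ne_one this

theorem m59yhu_coe_U_inv :
    (((m59yhu_U p N hpN)⁻¹ : modularFunctionFieldBar N) : LaurentSeries Qb) = m59yqi_Uinv Qb p := by
  rw [IntermediateField.coe_inv, m59yhu_coe_U']
  exact inv_eq_of_mul_eq_one_right (m59yqi_U_mul_inv Qb p)

end Def

section Gauss

variable (A : ValuationSubring Qb) {ℓ : ℕ} (hℓ : A.LiesOverPrime ℓ) (hℓ0 : ℓ ≠ 0)
  (p N : ℕ) [NeZero p] [NeZero N] (hpN : 2 * p ∣ N)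

theorem m59yhu_isBdd_U : gq_IsBdd ↥A Qb (m59yqi_U Qb p) := by
  rw [← m59yqi_coeffMap_U (algebraMap ↥A Qb) p]
  exact gq_isBdd_iota _

theorem m59yhu_isBdd_Uinv : gq_IsBdd ↥A Qb (m59yqi_Uinv Qb p) := by
  rw [← m59yqi_coeffMap_Uinv (algebraMap ↥A Qb) p]
  exact gq_isBdd_iota _

/-- `u_F` lies in the Gauss ring. -/
theorem m59yhu_U_mem : m59yhu_U p N hpN ∈ s44pg_W A hℓ hℓ0 N := by
  rw [s44pg_mem_iff, m59yhu_coe_U']
  exact m59yhu_isBdd_U A p

/-- `u_F⁻¹` lies in the Gauss ring: `u_F` is a Gauss unit. -/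
theorem m59yhu_U_inv_mem : (m59yhu_U p N hpN)⁻¹ ∈ s44pg_W A hℓ hℓ0 N := by
  rw [s44pg_mem_iff, m59yhu_coe_U_inv]
  exact m59yhu_isBdd_Uinv A p

/-- the Gauss residue of `u_F` is `f̄(q)/f̄(q^p)`. -/
theorem m59yhu_res_U :
    gq_res ↥A Qb ⟨m59yqi_U Qb p, m59yhu_isBdd_U A p⟩ = m59yqi_U (ResidueField ↥A) p := by
  have h := gq_res_iota (O := ↥A) (K := Qb) (m59yqi_U ↥A p)
  have e : (⟨m59yqi_U Qb p, m59yhu_isBdd_U A p⟩ : ↥(gq_bddSubring ↥A Qb)) =
      ⟨coeffMap (algebraMap ↥A Qb) (m59yqi_U ↥A p), gq_isBdd_iota _⟩ :=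
    Subtype.ext (m59yqi_coeffMap_U (algebraMap ↥A Qb) p).symm
  rw [e, h, m59yqi_coeffMap_U]

end Gauss

/-! ### (U-T) for the weight-4 unit -/

section Hecke

/-- **(U-T)**: the weight-4 unit is a Hecke eigen-unit, `N_α (β u) = u^{ℓ+1}` for every prime
`ℓ ∤ N` (`2p ∣ N`). -/
theorem m59yhu_unit_hecke (p N : ℕ) [NeZero p] [NeZero N] (hpN : 2 * p ∣ N) (l : ℕ) [NeZero l]
    (hl : l.Prime) (hlN : ¬ l ∣ N) :
    s35pe_normAlong (heckeAlphaBar Qb N l) (heckeBetaBar Qb N l (m59yhu_U p N hpN)) =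
      (m59yhu_U p N hpN) ^ (l + 1) := by
  haveI : NeZero (l ^ 2) := ⟨pow_ne_zero 2 (NeZero.ne l)⟩
  obtain ⟨ζ, hζ⟩ : ∃ ζ : Qbˣ, IsPrimitiveRoot ζ l := by
    haveI : NeZero ((l : ℕ) : Qb) := NeZero.charZero
    obtain ⟨ζ₀, hζ₀⟩ := HasEnoughRootsOfUnity.exists_primitiveRoot Qb l
    exact ⟨(hζ₀.isUnit (NeZero.ne _)).unit, by
      rw [← IsPrimitiveRoot.coe_units_iff]; simpa using hζ₀⟩
  have hζ' : IsPrimitiveRoot ((ζ : Qbˣ) : Qb) l := IsPrimitiveRoot.coe_units_iff.2 hζ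
  have hpl : Nat.Coprime p l := by
    rw [Nat.coprime_comm, Nat.Prime.coprime_iff_not_dvd hl]
    exact fun h => hlN ((h.trans (Dvd.intro_left 2 rfl)).trans hpN)
  have h2l : Nat.Coprime 2 l := by
    rw [Nat.coprime_comm, Nat.Prime.coprime_iff_not_dvd hl]
    exact fun h => hlN ((h.trans (Dvd.intro p rfl)).trans hpN)
  have h1 := nln_norm N l hl hlN (nld_finrankAlong N l hl hlN)
    (nls_exists_swap N l hl hlN) ζ hζ (m59yhu_U p N hpN)
  rw [m59yhu_coe_U', m59yhf_unit_of hζ.pow_eq_one h2l p hpl (s44hg_eta l hl _ hζ'), ← map_pow] at h1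
  have h2 := s44hu_qExpand_injective Qb l h1
  apply Subtype.ext
  rw [SubmonoidClass.coe_pow, m59yhu_coe_U', ← h2]
  rfl

end Hecke

end Fermat.Agent.M59
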