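import Mathlib
import Fermat.Agent.S44.HeckeRes.UnitRed
import Fermat.Agent.M59.TTwin.UnitDef
import Fermat.Agent.S44.HeckeRes.NormBar
import Fermat.Agent.S44.HeckeRes.DegAsm

/-!
M59 / TTwin / UnitRed (helper11, ruling #48): class (T) twin for Sink A.
Generated from `Fermat/Agent/S44/HeckeRes/UnitRed.lean` on main: the weight-12 unit `Δ(z)/Δ(pz)` is replaced by the
weight-4 level-2 unit `u_F = F(z)/F(pz)`, `F = E₄(z) - E₄(2z)`; the constant `12` becomes `4`;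
`5 ≤ p` becomes `p ≠ 2` together with `2 ∣ M`.  Prefix `m59y…_`.
-/

set_option autoImplicit false
set_option linter.unusedSectionVars false
set_option linter.unusedVariables false
set_option linter.style.haveILetI false
set_option synthInstance.maxHeartbeats 400000
set_option maxHeartbeats 1000000

noncomputable section

namespace Fermat.Agent.M59

open ModularCurve AlgebraicCurve IntermediateField IsLocalRing Module
open Fermat.Agent.JT3 Fermat.Agent.SS Fermat.Agent.S35 Fermat.Agent.S24 Fermat.Agent.S28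
open Fermat.Agent.MZ Fermat.Agent.S44

local notation "Qb" => AlgebraicClosure ℚ

/-- `2p ∣ N'` -/
theorem m59yhu_dvd {p N' M' : ℕ} (hN' : N' = M' * p) (h2 : 2 ∣ M') : 2 * p ∣ N' := by
  rw [hN']; exact Nat.mul_dvd_mul h2 (dvd_refl p)

section UnitRed

variable (A : ValuationSubring Qb) {p : ℕ} [hp : Fact p.Prime] (hA : A.LiesOverPrime p)
  {N' M' : ℕ} [NeZero N'] [NeZero M'] [NeZero p] (hN' : N' = M' * p) (hpM' : ¬ p ∣ M') (h2 : 2 ∣ M')

/-- the modular unit as an element of the Gauss ring `W∞(N')` -/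
def m59yhu_UW : ↥(s44pg_W A hA hp.out.ne_zero N') :=
  ⟨m59yhu_U p N' (m59yhu_dvd hN' h2), m59yhu_U_mem A hA hp.out.ne_zero p N' (m59yhu_dvd hN' h2)⟩

/-- **`ū`**: the `w_∞`-reduction of the modular unit, an element of `F_{M'}(kA)`. -/
def m59yhu_ubar : ↥(modularFunctionFieldFullC (ResidueField ↥A) M') :=
  s44rd_redG A hA hN' hpM' (m59yhu_UW A hA hN' h2)

theorem m59yhu_ubar_ne_zero : m59yhu_ubar A hA hN' hpM' h2 ≠ 0 := by
  rw [m59yhu_ubar, Ne, s44rd_redG_eq_zero_iff]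
  intro h
  have h1 : ((m59yhu_UW A hA hN' h2 : ↥(s44pg_W A hA hp.out.ne_zero N')) : Fbar N')⁻¹ ∈
      s44pg_W A hA hp.out.ne_zero N' :=
    m59yhu_U_inv_mem A hA hp.out.ne_zero p N' (m59yhu_dvd hN' h2)
  rw [ValuationSubring.mem_nonunits_iff_or] at h
  rcases h with h | h
  · exact m59yhu_U_ne_zero p N' (m59yhu_dvd hN' h2) h
  · exact h h1

variable (ℓ : ℕ) [NeZero ℓ] (hpMℓ : ¬ p ∣ M' * ℓ)

include hpMℓ in
/-- **(U-RED)**: the Hecke-eigen property of the unit descends to the special fibre. -/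
theorem m59yhu_red_hecke (hℓ : ℓ.Prime) (hℓN : ¬ ℓ ∣ N')
    (hdeg : finrankAlong (ResidueField ↥A) (mzrh_alC (ResidueField ↥A) M' ℓ) = ℓ + 1)
    (hT : s35pe_normAlong (heckeAlphaBar Qb N' ℓ)
      (heckeBetaBar Qb N' ℓ (m59yhu_U p N' (m59yhu_dvd hN' h2))) =
        (m59yhu_U p N' (m59yhu_dvd hN' h2)) ^ (ℓ + 1)) :
    s35pe_normAlong (mzrh_alC (ResidueField ↥A) M' ℓ)
      (mzrh_beC (ResidueField ↥A) M' ℓ (m59yhu_ubar A hA hN' hpM' h2)) =
        (m59yhu_ubar A hA hN' hpM' h2) ^ (ℓ + 1) := by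
  set g : ↥(s44pg_W A hA hp.out.ne_zero (N' * ℓ)) :=
    ⟨heckeBetaBar Qb N' ℓ ((m59yhu_UW A hA hN' h2 : ↥(s44pg_W A hA hp.out.ne_zero N')) : Fbar N'),
      (s44rd_beta_mem_iff A hA ℓ _).2 (m59yhu_UW A hA hN' h2).2⟩ with hg
  obtain ⟨h, hred⟩ := s44hb_red_norm A hA hN' hpM' ℓ hpMℓ hℓ hℓN hdeg g
  have hβ : s44rd_redG A hA (s44rd_level_mul hN' ℓ) hpMℓ g =
      mzrh_beC (ResidueField ↥A) M' ℓ (m59yhu_ubar A hA hN' hpM' h2) :=
    s44rd_red_beta A hA hN' hpM' ℓ hpMℓ (m59yhu_UW A hA hN' h2)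
  rw [hβ] at hred
  rw [← hred]
  have e : (⟨s35pe_normAlong (heckeAlphaBar Qb N' ℓ) (g : Fbar (N' * ℓ)), h⟩ :
      ↥(s44pg_W A hA hp.out.ne_zero N')) = (m59yhu_UW A hA hN' h2) ^ (ℓ + 1) := by
    apply Subtype.ext
    rw [SubmonoidClass.coe_pow]
    exact hT
  rw [e, map_pow]
  rfl

include hpMℓ in
/-- the same on orders. -/
theorem m59yhu_ord_hecke (hℓ : ℓ.Prime) (hℓN : ¬ ℓ ∣ N')
    (hdeg : finrankAlong (ResidueField ↥A) (mzrh_alC (ResidueField ↥A) M' ℓ) = ℓ + 1)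
    (hT : s35pe_normAlong (heckeAlphaBar Qb N' ℓ)
      (heckeBetaBar Qb N' ℓ (m59yhu_U p N' (m59yhu_dvd hN' h2))) =
        (m59yhu_U p N' (m59yhu_dvd hN' h2)) ^ (ℓ + 1))
    (Q : Place (ResidueField ↥A) ↥(modularFunctionFieldFullC (ResidueField ↥A) M')) :
    Q.ord (s35pe_normAlong (mzrh_alC (ResidueField ↥A) M' ℓ)
      (mzrh_beC (ResidueField ↥A) M' ℓ (m59yhu_ubar A hA hN' hpM' h2))) =
        ((ℓ + 1 : ℕ) : ℤ) * Q.ord (m59yhu_ubar A hA hN' hpM' h2) := by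
  rw [m59yhu_red_hecke A hA hN' hpM' h2 ℓ hpMℓ hℓ hℓN hdeg hT]
  have := Q.ord_zpow (m59yhu_ubar A hA hN' hpM' h2) ((ℓ + 1 : ℕ) : ℤ)
  rwa [zpow_natCast] at this

end UnitRed

end Fermat.Agent.M59

end
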