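import Mathlib
import Fermat.Agent.M59.TTwin.Defs2
import Fermat.Agent.M59.TTwin.UnitRed

/-!
M59 / TTwin / Ubar (helper11, ruling #48): class (T) twin for Sink A.
The weight-4 level-2 unit `u_F = F(z)/F(pz)`, `F = E₄(z) - E₄(2z)`.  Prefix `m59y…_`.
-/

set_option autoImplicit false
set_option synthInstance.maxHeartbeats 400000
set_option maxHeartbeats 1000000
set_option linter.unusedSectionVars false
set_option linter.style.haveILetI false

noncomputable section

namespace Fermat.Agent.M59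

open Fermat.Agent.S44

open ModularCurve AlgebraicCurve IsLocalRing Fermat.Agent.JT3 Fermat.Agent.MZ

section Ubar

variable (A : ValuationSubring s44_Qb) {p : ℕ} [hp : Fact p.Prime] (hA : A.LiesOverPrime p)
  (M : ℕ) [NeZero M] [NeZero p] [NeZero (M * p)] (hpM : ¬ p ∣ M) (h2 : 2 ∣ M)

/-- helper21's `ū` is a reduction of the modular unit in the sense of `Res/Defs2.lean`. -/
theorem m59ye_isUbar_red :
    m59ye_IsUbar A M p (m59yhu_ubar A hA (rfl : M * p = M * p) hpM h2) := by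
  refine ⟨m59yhu_U p (M * p) (m59yhu_dvd (rfl : M * p = M * p) h2), rfl, ?_⟩
  refine ⟨(m59yhu_UW A hA (rfl : M * p = M * p) h2).2, ?_⟩
  rfl

include hA hpM h2 in
/-- **(U-RED)**: the reduction of the modular unit exists. -/
theorem m59ye_isUbar_exists : ∃ fb, m59ye_IsUbar A M p fb :=
  ⟨_, m59ye_isUbar_red A hA M hpM h2⟩

/-- the chosen `ū` of `Res/Defs2.lean` is helper21's `m59yhu_ubar`. -/
theorem m59ye_ubar_eq_red :
    m59ye_ubar A M p = m59yhu_ubar A hA (rfl : M * p = M * p) hpM h2 :=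
  m59ye_ubar_eq A M p (m59ye_isUbar_red A hA M hpM h2)

include hA hpM h2 in
theorem m59ye_ubar_ne_zero : m59ye_ubar A M p ≠ 0 := by
  rw [m59ye_ubar_eq_red A hA M hpM h2]
  exact m59yhu_ubar_ne_zero A hA (rfl : M * p = M * p) hpM h2

include hA hpM h2 in
/-- the `q`-expansion of `ū` is `Δ̄(q)/Δ̄(q^p)`. -/
theorem m59ye_ubar_coe :
    ((m59ye_ubar A M p : s44e_FF A M) : LaurentSeries (s44e_kA A)) =
      m59yqi_U (ResidueField ↥A) p := by
  rw [m59ye_ubar_eq_red A hA M hpM h2]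
  have h := m59yhu_res_U A p
  rw [← h]
  show gq_res ↥A s44_Qb ⟨_, _⟩ = gq_res ↥A s44_Qb ⟨_, _⟩
  congr 1
  apply Subtype.ext
  exact m59yhu_coe_U' p (M * p) (m59yhu_dvd (rfl : M * p = M * p) h2)

end Ubar

end Fermat.Agent.M59
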