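import Fermat.Agent.S44.Res.UbarNF
import Mathlib
import Fermat.Agent.M59.TTwin.Ubar
import Fermat.Agent.SS.Model.AL

/-!
M59 / TTwin / UbarNF (helper11, ruling #48): class (T) twin for Sink A.
Generated from `Fermat/Agent/S44/Res/UbarNF.lean` on main: the weight-12 unit `Δ(z)/Δ(pz)` is replaced by the
weight-4 level-2 unit `u_F = F(z)/F(pz)`, `F = E₄(z) - E₄(2z)`; the constant `12` becomes `4`;
`5 ≤ p` becomes `p ≠ 2` together with `2 ∣ M`.  Prefix `m59y…_`.
-/

set_option autoImplicit false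
set_option synthInstance.maxHeartbeats 400000
set_option maxHeartbeats 1000000
set_option linter.unusedSectionVars false
set_option linter.style.haveILetI false

noncomputable section

namespace Fermat.Agent.M59

open Fermat.Agent.S44

open ModularCurve AlgebraicCurve IsLocalRing Fermat.Agent.JT3 Fermat.Agent.MZ Fermat.Agent.SS
  Fermat.Agent.S24

local notation "Qb" => AlgebraicClosure ℚ

section Model

variable (L1 : IntermediateField ℚ Qb) (p N : ℕ) [NeZero p] [NeZero N] (hpN : 2 * p ∣ N)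

/-- the series of a model of `u` over `L1`. -/
theorem m59yeu_model_coe {U1 : lg_F L1 N}
    (h : ssm_al_iotaF L1 N U1 = m59yhu_U p N hpN) :
    (U1 : LaurentSeries L1) = m59yqi_U L1 p := by
  apply ssm_al_iota_injective L1
  have h1 := congrArg (fun z : Fbar N => (z : LaurentSeries Qb)) h
  simp only [ssm_al_coe_iotaF, m59yhu_coe_U'] at h1
  rw [h1, ssm_al_iota, m59yqi_coeffMap_U]

/-- an element of `lg_F L1 N` with the series `m59yqi_U L1 p` is a model of `u`. -/
theorem m59yeu_model_of_coe {U1 : lg_F L1 N}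
    (h : (U1 : LaurentSeries L1) = m59yqi_U L1 p) :
    ssm_al_iotaF L1 N U1 = m59yhu_U p N hpN := by
  apply Subtype.ext
  rw [ssm_al_coe_iotaF, m59yhu_coe_U', h, ssm_al_iota, m59yqi_coeffMap_U]

include hpN in
/-- models of `u` exist over every large subfield of `Q̄`. -/
theorem m59yeu_exists_model :
    ∃ T : Finset Qb, ∀ L1 : IntermediateField ℚ Qb, (↑T : Set Qb) ⊆ L1 →
      ∃ U1 : lg_F L1 N, ssm_al_iotaF L1 N U1 = m59yhu_U p N hpN := by
  have hb : coeffEmb Qb (m59yuf_unitSeries p) ∈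
      laurentBaseChange Qb (modularFunctionFieldFull N) := m59yhu_series_mem p N hpN
  obtain ⟨T, hT⟩ := dsc_bc_exists_fg Qb (modularFunctionFieldFull N) hb
  refine ⟨T, fun L1 hL1 => ?_⟩
  obtain ⟨y1, hy1, hy⟩ := hT L1 hL1
  have hy1' : y1 ∈ lg_F L1 N := by
    rw [lg_F_eq_laurentBaseChange]
    exact hy1
  refine ⟨⟨y1, hy1'⟩, ?_⟩
  apply Subtype.ext
  rw [ssm_al_coe_iotaF, m59yhu_coe_U]
  exact hy

end Model

section Red

variable (A : ValuationSubring s44_Qb) {p : ℕ} [hp : Fact p.Prime] (hA : A.LiesOverPrime p)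
  (M : ℕ) [NeZero M] [NeZero p] [NeZero (M * p)] (hpM : ¬ p ∣ M) (h2 : 2 ∣ M)
  (L1 : IntermediateField ℚ Qb)

/-- a model of `u` lies in the Gauss ring. -/
theorem m59yeu_model_mem {U1 : lg_F L1 (M * p)}
    (h : ssm_al_iotaF L1 (M * p) U1 = m59yhu_U p (M * p) (m59yhu_dvd (rfl : M * p = M * p) h2)) :
    ssm_al_iotaF L1 (M * p) U1 ∈ s44pg_W A hA hp.out.ne_zero (M * p) := by
  rw [h]
  exact m59yhu_U_mem A hA hp.out.ne_zero p (M * p) _

/-- the inverse of a model of `u` lies in the Gauss ring: a Gauss unit. -/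
theorem m59yeu_model_inv_mem {U1 : lg_F L1 (M * p)}
    (h : ssm_al_iotaF L1 (M * p) U1 = m59yhu_U p (M * p) (m59yhu_dvd (rfl : M * p = M * p) h2)) :
    (ssm_al_iotaF L1 (M * p) U1)⁻¹ ∈ s44pg_W A hA hp.out.ne_zero (M * p) := by
  rw [h]
  exact m59yhu_U_inv_mem A hA hp.out.ne_zero p (M * p) _

/-- **the reduction of any model of `u` is `ū`.** -/
theorem m59yeu_red_model {U1 : lg_F L1 (M * p)}
    (h : ssm_al_iotaF L1 (M * p) U1 = m59yhu_U p (M * p) (m59yhu_dvd (rfl : M * p = M * p) h2))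
    (hb : ssm_al_iotaF L1 (M * p) U1 ∈ s44pg_W A hA hp.out.ne_zero (M * p)) :
    s44rd_red A hA M hpM ⟨ssm_al_iotaF L1 (M * p) U1, hb⟩ = m59ye_ubar A M p := by
  rw [m59ye_ubar_eq_red A hA M hpM h2, m59yhu_ubar, s44rd_redG_eq_red]
  congr 1
  exact Subtype.ext h

end Red

end Fermat.Agent.M59
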