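import Fermat.Agent.S44.Res.UDivDich
import Mathlib
import Fermat.Agent.S44.Mono.CentreConv
import Fermat.Agent.S44.Mono.NodeDict
import Fermat.Agent.S44.Res.SSNF
import Fermat.Agent.M59.TTwin.UbarNF
import Fermat.Agent.M59.TTwin.UDiv

/-!
M59 / TTwin / UDivDich (helper11, ruling #48): class (T) twin for Sink A.
Generated from `Fermat/Agent/S44/Res/UDivDich.lean` on main: the weight-12 unit `Δ(z)/Δ(pz)` is replaced by the
weight-4 level-2 unit `u_F = F(z)/F(pz)`, `F = E₄(z) - E₄(2z)`; the constant `12` becomes `4`;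
`5 ≤ p` becomes `p ≠ 2` together with `2 ∣ M`.  Prefix `m59y…_`.
-/

set_option autoImplicit false
set_option synthInstance.maxHeartbeats 400000
set_option maxHeartbeats 3200000
set_option linter.unusedSectionVars false
set_option linter.style.haveILetI false
set_option linter.unusedVariables false

noncomputable section

namespace Fermat.Agent.M59

open Fermat.Agent.S44

open Polynomial ModularCurve AlgebraicCurve IntermediateField IsLocalRing
open Fermat.Agent.JT3 Fermat.Agent.SS Fermat.Agent.S35 Fermat.Agent.S24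

local notation "Qb" => AlgebraicClosure ℚ

section Dich

variable (A : ValuationSubring s44_Qb) {p : ℕ} [hp : Fact p.Prime] (hA : A.LiesOverPrime p)
  (M : ℕ) [NeZero M] [NeZero p] [NeZero (M * p)] (hpM : ¬ p ∣ M) (hp2 : ¬ 2 ∣ p)
  (L1 : IntermediateField ℚ s44_Qb)
  [IsDiscreteValuationRing ↥(A.comap (algebraMap L1 s44_Qb))]
  [CharP (ResidueField ↥(A.comap (algebraMap L1 s44_Qb))) p]
  {π : ↥(A.comap (algebraMap L1 s44_Qb))} (hπ : Irreducible π)

set_option hygiene false in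
local notation "O1" => ValuationSubring.comap A (algebraMap L1 s44_Qb)

variable (hprime : Prime (algebraMap ↥O1 (fc_chart ↥O1 ({lg_lamE M} : Set ↥(lg_E L1 M))) π))
  (red : ↥(s44mz_VF O1 hπ M p) →+* ↥(s44e_FF A M))
  (hker0 : ∀ z : ↥(s44mz_VF O1 hπ M p),
    (z : ↥(lg_F L1 (M * p))) ∈ (s44mz_VF O1 hπ M p).nonunits → red z = 0)
  (hred : ∀ (x : ↥(s44mz_VF O1 hπ M p))
    (hb : ssm_al_iotaF L1 (M * p) (x : ↥(lg_F L1 (M * p))) ∈ s44pg_W A hA hp.out.ne_zero (M * p)),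
      red x = s44rd_red A hA M hpM ⟨ssm_al_iotaF L1 (M * p) (x : ↥(lg_F L1 (M * p))), hb⟩)
  (Q : Place (s44e_kA A) (s44e_FF A M))
  {κ : Type*} [Field κ] (r : ↥(ssm_gl_V1 O1 hπ M p) →+* κ)
  (hker : ∀ z : ↥(ssm_gl_V1 O1 hπ M p),
    (z : ↥(lg_E L1 (M * p))) ∈ (ssm_gl_V1 O1 hπ M p).nonunits → r z = 0)
  (𝒲 : ValuationSubring κ)
  (hext : ∀ x : ↥(lg_F L1 (M * p)),
    (lg_phiE (L := L1) (N := M * p)).toRingHom x ∈ tori_comp (ssm_gl_V1 O1 hπ M p) r hker 𝒲 ↔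
      x ∈ tori_comp (s44mz_VF O1 hπ M p) red hker0 Q.toValuationSubring)
  (hO𝒱 : ∀ a : ↥O1, algebraMap ↥O1 ↥(lg_E L1 (M * p)) a ∈
    tori_comp (ssm_gl_V1 O1 hπ M p) r hker 𝒲)
  (hj2 : s44mz_j2E L1 (M * p) ∈ tori_comp (ssm_gl_V1 O1 hπ M p) r hker 𝒲)

include hprime hred hext hO𝒱 hj2 in
set_option maxHeartbeats 1600000 in
set_option synthInstance.maxHeartbeats 200000 in
/-- **the two halves of (U-DIV) at `Q`**, from the outputs of the node cells for a model `U1` of the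
modular unit over `L1`: at a centre on the `0`-component `T · ord_Q (red U1) = 12` ((ND-main) +
(U-NODE)(a)), elsewhere `ord_Q (red U1) = 0` ((ND-smooth) + (U-NODE)(b)).  `hwit` is the conclusion of
`s44ec_not_isSS_nf` at `L1` (i.e. `L1` contains the finite set of that theorem). -/
theorem m59yud_udiv_at (hev : 2 ∣ M)
    (hwit : ¬ s44e_IsSS A M p hp.out hpM Q →
      ∃ (b1 : ↥(lg_F L1 (M * p)))
        (hb : ssm_al_iotaF L1 (M * p) b1 ∈ s44pg_W A hA hp.out.ne_zero (M * p))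
        (hW : gq_IsBdd ↥O1 L1
          ((ssm_al_W L1 M p hp.out hpM b1 : ↥(lg_F L1 (M * p))) : LaurentSeries L1)),
        IsIntegral (Algebra.adjoin ↥O1
          ({rdn_gf_j (L := L1) (M * p)} : Set ↥(lg_F L1 (M * p)))) b1 ∧
        gq_res ↥O1 L1 ⟨_, hW⟩ = 0 ∧
        ((s44rd_red A hA M hpM ⟨ssm_al_iotaF L1 (M * p) b1, hb⟩ : ↥(s44e_FF A M))) ∉
          Q.toValuationSubring.nonunits)
    (U1 : ↥(s44mz_VF O1 hπ M p))
    (hU1 : ssm_al_iotaF L1 (M * p) (U1 : ↥(lg_F L1 (M * p))) =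
      m59yhu_U p (M * p) (m59yhu_dvd (rfl : M * p = M * p) hev))
    (hNodeOut : ssm_tp_P (fc_chart ↥O1 ({lg_lamE (M * p)} : Set ↥(lg_E L1 (M * p))))
          (ssm_gl_V2 O1 hπ M p hp2 hpM) ≤
        ssm_tp_P (fc_chart ↥O1 ({lg_lamE (M * p)} : Set ↥(lg_E L1 (M * p))))
          (tori_comp (ssm_gl_V1 O1 hπ M p) r hker 𝒲) →
      ∃ T : ℤ, T * Q.ord (red U1) = 4)
    (hSmoothOut : ¬ (ssm_tp_P (fc_chart ↥O1 ({lg_lamE (M * p)} : Set ↥(lg_E L1 (M * p))))
          (ssm_gl_V2 O1 hπ M p hp2 hpM) ≤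
        ssm_tp_P (fc_chart ↥O1 ({lg_lamE (M * p)} : Set ↥(lg_E L1 (M * p))))
          (tori_comp (ssm_gl_V1 O1 hπ M p) r hker 𝒲)) →
      Q.ord (red U1) = 0) :
    (s44e_IsSS A M p hp.out hpM Q → ∃ T : ℤ, T * Q.ord (m59ye_ubar A M p) = 4) ∧
    (¬ s44e_IsSS A M p hp.out hpM Q → Q.ord (m59ye_ubar A M p) = 0) := by
  have hUb : red U1 = m59ye_ubar A M p := by
    rw [hred U1 (m59yeu_model_mem A hA M hev L1 hU1)]
    exact m59yeu_red_model A hA M hpM hev L1 hU1 _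
  rw [← hUb]
  refine ⟨fun hQ => ?_, fun hQ => ?_⟩
  · exact hNodeOut
      (s44ud_node_of_ss A hA M hpM hp2 L1 hπ hprime red hker0 hred Q r hker 𝒲 hext hO𝒱 hj2 hQ)
  · obtain ⟨b1, hb, hW, hint, hW0, hnot⟩ := hwit hQ
    exact hSmoothOut
      (s44ud_not_node_of_witness A hA M hpM hp2 L1 hπ hprime red hker0 hred Q r hker 𝒲 hext hO𝒱
        hj2 b1 hb hW hint hW0 hnot)

end Dich

end Fermat.Agent.M59
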