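import Mathlib
import Fermat.Agent.S44.HeckeRes.UnitW
import Fermat.Agent.M59.TTwin.Weak2

/-!
M59 / TTwin / UnitW (helper11, ruling #48): class (T) twin for Sink A.
Generated from `Fermat/Agent/S44/HeckeRes/UnitW.lean` on main: the weight-12 unit `Δ(z)/Δ(pz)` is replaced by the
weight-4 level-2 unit `u_F = F(z)/F(pz)`, `F = E₄(z) - E₄(2z)`; the constant `12` becomes `4`;
`5 ≤ p` becomes `p ≠ 2` together with `2 ∣ M`.  Prefix `m59y…_`.
-/

set_option autoImplicit false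

open UpperHalfPlane Matrix ModularCurve ModularForm CongruenceSubgroup
open Fermat.Agent.S24 Fermat.Agent.S23 Fermat.Agent.JT3 Fermat.Agent.SS Fermat.Agent.MZ
  Fermat.Agent.S28 Fermat.Agent.S44
open scoped MatrixGroups

noncomputable section

namespace Fermat.Agent.M59

variable {N l : ℕ} [NeZero l] {a c : ℤ}

theorem m59yuf_gam1_mem (h2 : 2 ∣ N) (h : (l : ℤ) * a - N * c = 1) :
    nls_gam1 1 N (one_mul N).symm h ∈ Gamma0 2 := by
  rw [Gamma0_mem, ZMod.intCast_zmod_eq_zero_iff_dvd]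
  obtain ⟨k, rfl⟩ := h2
  refine ⟨k * c, ?_⟩
  simp [nls_gam1]
  ring

theorem m59yuf_gam2_mem (h2 : 2 ∣ N) (h : (l : ℤ) * a - N * c = 1) :
    nls_gam2 1 N (one_mul N).symm h ∈ Gamma0 2 := by
  rw [Gamma0_mem, ZMod.intCast_zmod_eq_zero_iff_dvd]
  obtain ⟨k, rfl⟩ := h2
  refine ⟨k * c, ?_⟩
  simp [nls_gam2]
  ring

/-- **`u_F(Wτ) · u_F(τ) = l⁴`**: the Atkin–Lehner involution inverts the weight-4 unit. -/
theorem m59yuf_uan_W (h2 : 2 ∣ N) (h : (l : ℤ) * a - N * c = 1) (z : ℍ) :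
    m59yuf_uan l (nls_mat N l a c h • z) * m59yuf_uan l z = (l : ℂ) ^ 4 := by
  unfold m59yuf_uan m59yuf_G
  rw [s44hw_smul_eq2 h z, m59yuf_F_smul _ (m59yuf_gam2_mem h2 h)]
  conv_lhs => rw [s44hw_smul_eq1 h z, m59yuf_F_smul _ (m59yuf_gam1_mem h2 h)]
  have h1 := m59yuf_F_ne_zero z
  have h2' := m59yuf_F_ne_zero (alphaN l • z)
  have hden := nls_denom_ne_zero h z
  have hl0 : (l : ℂ) ≠ 0 := by exact_mod_cast NeZero.ne l
  have hd2 : denom (nls_gam2 1 N (one_mul N).symm h) z = (N : ℂ) * c * z + 1 := by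
    rw [ModularGroup.denom_apply]
    simp [nls_gam2]
  have hd1 : denom (nls_gam1 1 N (one_mul N).symm h) ((alphaN l • z : ℍ) : ℂ) =
      (l : ℂ) * ((N : ℂ) * c * z + 1) := by
    rw [ModularGroup.denom_apply, coe_alphaN_smul]
    simp [nls_gam1]
    ring
  have hd2' : (N : ℂ) * c * z + 1 ≠ 0 := by
    intro h0
    apply hden
    linear_combination (l : ℂ) * h0
  rw [hd1, hd2]
  field_simp

end Fermat.Agent.M59
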