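import Mathlib
import Fermat.Agent.S44.HeckeRes.UnitW
import Fermat.Agent.M59.TTwin.UnitW
import Fermat.Agent.M59.TTwin.UnitDef

/-!
M59 / TTwin / UnitW2 (helper11, ruling #48): class (T) twin for Sink A.
The weight-4 level-2 unit `u_F = F(z)/F(pz)`, `F = E₄(z) - E₄(2z)`.  Prefix `m59y…_`.
-/

set_option autoImplicit false
set_option linter.unusedSectionVars false
set_option linter.style.haveILetI false
set_option linter.unusedVariables false

noncomputable section

namespace Fermat.Agent.M59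

open UpperHalfPlane Matrix ModularCurve ModularForm
open Fermat.Agent.S24 Fermat.Agent.S23 Fermat.Agent.JT3 Fermat.Agent.SS Fermat.Agent.MZ
  Fermat.Agent.S28 Fermat.Agent.S44
open scoped MatrixGroups

local notation "Qb" => AlgebraicClosure ℚ

section Main

variable (M p : ℕ) [NeZero M] [NeZero p] (hp : p.Prime) (hpM : ¬ p ∣ M) (h2 : 2 ∣ M)

include h2 in
theorem m59yhw_dvd : 2 * p ∣ M * p := Nat.mul_dvd_mul h2 (dvd_refl p)

/-- if `r = u_F · s` on `q`-expansions (`r, s ∈ A0 N`), then `br_an r = u_F^{an} · br_an s`. -/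
theorem m59yhw_an_mul (N : ℕ) [NeZero N] (r s : A0 N)
    (hrs : (r : LaurentSeries Qb) = coeffEmb Qb (m59yuf_unitSeries p) * (s : LaurentSeries Qb)) :
    ((br_an N r : jdAlgebra N) : ℍ → ℂ) =
      m59yuf_uan p * ((br_an N s : jdAlgebra N) : ℍ → ℂ) := by
  rw [br_an_coe]
  refine br_anFun_eq N r ?_
  rw [hrs, map_mul]
  exact (m59yuf_uan_laurent_bar p).mul (br_an_spec N s)

/-- **(U-W) for the weight-4 unit**: `W̄_p u_F = p⁴ u_F⁻¹`. -/
theorem m59yhw_unit_W :
    ssm_al_Wbar M p hp hpM (m59yhu_U p (M * p) (m59yhw_dvd M p h2)) =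
      algebraMap Qb (modularFunctionFieldBar (M * p)) ((p : Qb) ^ 4) *
        (m59yhu_U p (M * p) (m59yhw_dvd M p h2))⁻¹ := by
  obtain ⟨a, c, h⟩ := nls_exists_bezout (N := M) hp hpM
  rw [s44hw_Wbar_eq hp hpM h]
  set u : Fbar (M * p) := m59yhu_U p (M * p) (m59yhw_dvd M p h2) with hu
  have hu0 : u ≠ 0 := m59yhu_U_ne_zero p (M * p) (m59yhw_dvd M p h2)
  obtain ⟨r, s, hs0, hdiv⟩ := nls_exists_div u
  have hinj := FaithfulSMul.algebraMap_injective (A0 (M * p)) (Fbar (M * p))
  have hr : algebraMap (A0 (M * p)) (Fbar (M * p)) r =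
      u * algebraMap (A0 (M * p)) (Fbar (M * p)) s := by
    rw [hdiv, div_mul_cancel₀ _ hs0]
  have hr0 : algebraMap (A0 (M * p)) (Fbar (M * p)) r ≠ 0 := by
    rw [hr]; exact mul_ne_zero hu0 hs0
  have hrs : (r : LaurentSeries Qb) =
      coeffEmb Qb (m59yuf_unitSeries p) * (s : LaurentSeries Qb) := by
    have := congrArg (fun x : Fbar (M * p) => (x : LaurentSeries Qb)) hr
    exact this
  have han := m59yhw_an_mul p (M * p) r s hrs
  have key : nls_W0 h hp hpM r * r =
      algebraMap Kbar (A0 (M * p)) ((p : Qb) ^ 4) * (nls_W0 h hp hpM s * s) := by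
    apply br_an_injective (M * p)
    apply Subtype.ext
    funext z
    rw [map_mul, map_mul, map_mul]
    change ((br_an (M * p) (nls_W0 h hp hpM r) : jdAlgebra (M * p)) : ℍ → ℂ) z *
        ((br_an (M * p) r : jdAlgebra (M * p)) : ℍ → ℂ) z =
      ((br_an (M * p) (algebraMap Kbar (A0 (M * p)) ((p : Qb) ^ 4)) : jdAlgebra (M * p)) :
          ℍ → ℂ) z *
        (((br_an (M * p) (nls_W0 h hp hpM s) : jdAlgebra (M * p)) : ℍ → ℂ) z *
          ((br_an (M * p) s : jdAlgebra (M * p)) : ℍ → ℂ) z)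
    rw [nls_W0_spec, nls_W0_spec, br_an_algebraMap, han]
    simp only [Pi.mul_apply]
    have hU := m59yuf_uan_W h2 h z
    have hι : br_iota ((p : Qb) ^ 4) = (p : ℂ) ^ 4 := by
      rw [map_pow, map_natCast]
    rw [hι, ← hU]
    ring
  have hWs0 : algebraMap (A0 (M * p)) (Fbar (M * p)) (nls_W0 h hp hpM s) ≠ 0 := by
    intro h0
    apply hs0
    have h1 : nls_W0 h hp hpM s = 0 := hinj (by rw [h0, map_zero])
    have hs2 : s = 0 := nls_W0_injective h hp hpM (by rw [h1, map_zero])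
    rw [hs2, map_zero]
  have key' := congrArg (algebraMap (A0 (M * p)) (Fbar (M * p))) key
  rw [map_mul, map_mul, map_mul, ← IsScalarTower.algebraMap_apply] at key'
  rw [hdiv, map_div₀, nls_W_algebraMap, nls_W_algebraMap, inv_div, div_eq_iff hWs0]
  field_simp
  linear_combination key'

end Main

end Fermat.Agent.M59
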