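import Fermat.Agent.S44.Mono.UNodeVert
import Mathlib
import Fermat.Agent.M59.TTwin.UnitW2
import Fermat.Agent.SS.Model.TwoPrimesLeg
import Fermat.Agent.SS.Model.ALInst
import Fermat.Agent.SS.Local.Height1
import Fermat.Agent.JT3.Inst.Key0

/-!
M59 / TTwin / UNodeVert (helper11, ruling #48): class (T) twin for Sink A.
Generated from `Fermat/Agent/S44/Mono/UNodeVert.lean` on main: the weight-12 unit `Δ(z)/Δ(pz)` is replaced by the
weight-4 level-2 unit `u_F = F(z)/F(pz)`, `F = E₄(z) - E₄(2z)`; the constant `12` becomes `4`;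
`5 ≤ p` becomes `p ≠ 2` together with `2 ∣ M`.  Prefix `m59y…_`.
-/

set_option autoImplicit false
set_option synthInstance.maxHeartbeats 400000
set_option maxHeartbeats 1000000
set_option linter.unusedSectionVars false
set_option linter.unusedVariables false
set_option linter.style.haveILetI false

noncomputable section

namespace Fermat.Agent.M59

open Fermat.Agent.S44

open ModularCurve IntermediateField IsLocalRing
open Fermat.Agent.JT3 Fermat.Agent.SS Fermat.Agent.MZ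

section Vert

variable {L : Type*} [Field L] [CharZero L] [Algebra L (AlgebraicClosure ℚ)]
  (O : ValuationSubring L) [IsDiscreteValuationRing O] {π : O} (hπ : Irreducible π)
variable (M p : ℕ) [NeZero M] [NeZero p] [hp : Fact p.Prime] [CharP (ResidueField O) p]
  (hp2 : ¬ 2 ∣ p) (hpM : ¬ p ∣ M) (h2 : 2 ∣ M)
variable (U1 : ↥(lg_F L (M * p))) (hU1 : (U1 : LaurentSeries L) = m59yqi_U L p)

include hU1 h2 in
/-- a model of the unit over `L` maps to the unit of `F̄_{M p}`. -/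
theorem m59yun_iotaF_U1 :
    ssm_al_iotaF L (M * p) U1 = m59yhu_U p (M * p) (m59yhw_dvd M p h2) := by
  apply Subtype.ext
  rw [ssm_al_coe_iotaF, hU1, m59yhu_coe_U']
  exact m59yqi_coeffMap_U _ p

include hU1 h2 in
theorem m59yun_U1_ne_zero : U1 ≠ 0 := by
  intro h
  have h1 := m59yun_iotaF_U1 M p h2 U1 hU1
  rw [h, map_zero] at h1
  exact m59yhu_U_ne_zero p (M * p) (m59yhw_dvd M p h2) h1.symm

include hU1 h2 in
theorem m59yun_coe_inv : ((U1⁻¹ : ↥(lg_F L (M * p))) : LaurentSeries L) = m59yqi_Uinv L p := by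
  rw [IntermediateField.coe_inv, hU1]
  exact inv_eq_of_mul_eq_one_right (m59yqi_U_mul_inv L p)

include hU1 h2 in
/-- **(U-W) over `L`**: `W U1 = p¹² U1⁻¹`. -/
theorem m59yun_W :
    ssm_al_W L M p hp.out hpM U1 =
      algebraMap L ↥(lg_F L (M * p)) ((p : L) ^ 4) * U1⁻¹ := by
  apply ssm_al_iotaF_injective L (M * p)
  have hc : algebraMap L (AlgebraicClosure ℚ) ((p : L) ^ 4) = (p : AlgebraicClosure ℚ) ^ 4 := by
    rw [map_pow, map_natCast]
  rw [ssm_al_W_spec, m59yun_iotaF_U1 M p h2 U1 hU1, m59yhw_unit_W M p hp.out hpM h2, map_mul, map_inv₀,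
    m59yun_iotaF_U1 M p h2 U1 hU1, ssm_al_iotaF_algebraMap, hc]

include hU1 h2 in
/-- `φ U1` has an `O`-integral `q`-expansion. -/
theorem m59yun_isBdd_phi :
    gq_IsBdd O L ((lg_phiE (L := L) (N := M * p) U1 : ↥(lg_E L (M * p))) : LaurentSeries L) := by
  rw [lg_phiE_coe, hU1, lg_phi_apply]
  have h : qExpand L 2 (m59yqi_U L p) =
      coeffMap (algebraMap ↥O L) (qExpand ↥O 2 (m59yqi_U ↥O p)) := by
    rw [coeffMap_qExpand, m59yqi_coeffMap_U]
  rw [h]
  exact gq_isBdd_iota _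

include hU1 h2 in
theorem m59yun_isBdd_phi_inv :
    gq_IsBdd O L (((lg_phiE (L := L) (N := M * p) U1)⁻¹ : ↥(lg_E L (M * p))) :
      LaurentSeries L) := by
  rw [← map_inv₀, lg_phiE_coe, m59yun_coe_inv M p h2 U1 hU1, lg_phi_apply]
  have h : qExpand L 2 (m59yqi_Uinv L p) =
      coeffMap (algebraMap ↥O L) (qExpand ↥O 2 (m59yqi_Uinv ↥O p)) := by
    rw [coeffMap_qExpand, m59yqi_coeffMap_Uinv]
  rw [h]
  exact gq_isBdd_iota _

include hU1 h2 in
theorem m59yun_phi_ne_zero : lg_phiE (L := L) (N := M * p) U1 ≠ 0 := by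
  rw [Ne, map_eq_zero]
  exact m59yun_U1_ne_zero M p h2 U1 hU1

include hU1 h2 in
/-- **`φ U1` is a unit of the Gauss valuation `w_∞`.** -/
theorem m59yun_V1 : ssl_VUnit (ssm_gl_V1 O hπ M p) (lg_phiE (L := L) (N := M * p) U1) :=
  ⟨m59yun_phi_ne_zero M p h2 U1 hU1, m59yun_isBdd_phi O M p h2 U1 hU1, m59yun_isBdd_phi_inv O M p h2 U1 hU1⟩

include hU1 h2 in
/-- `W_E (φ U1) = p¹² (φ U1)⁻¹`. -/
theorem m59yun_WE_phi :
    ssm_gl_W L M p hp2 hpM (lg_phiE (L := L) (N := M * p) U1) =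
      algebraMap L ↥(lg_E L (M * p)) ((p : L) ^ 4) * (lg_phiE (L := L) (N := M * p) U1)⁻¹ := by
  have h1 : ssm_gl_W L M p hp2 hpM (lg_phiE (L := L) (N := M * p) U1) =
      lg_phiE (L := L) (N := M * p) (ssm_al_W L M p hp.out hpM U1) := by
    apply Subtype.ext
    rw [lg_phiE_coe, lg_phi_apply]
    exact ssm_al_coe_WE_phi L M p hp.out hp2 hpM U1 (lg_phiE (L := L) (N := M * p) U1).2
  rw [h1, m59yun_W M p hpM h2 U1 hU1, map_mul, map_inv₀, AlgHom.commutes]

include hU1 h2 in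
/-- **`φ U1 / p¹²` is a unit of `w_0 = w_∞ ∘ W`.** -/
theorem m59yun_V2 :
    ssl_VUnit (ssm_gl_V2 O hπ M p hp2 hpM)
      (lg_phiE (L := L) (N := M * p) U1 / algebraMap L ↥(lg_E L (M * p)) ((p : L) ^ 4)) := by
  have hp0 : algebraMap L ↥(lg_E L (M * p)) ((p : L) ^ 4) ≠ 0 := by
    rw [Ne, map_eq_zero]
    exact pow_ne_zero 4 (Nat.cast_ne_zero.2 (NeZero.ne p))
  have hG0 := m59yun_phi_ne_zero M p h2 U1 hU1
  have hWc : ssm_gl_W L M p hp2 hpM (algebraMap L ↥(lg_E L (M * p)) ((p : L) ^ 4)) =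
      algebraMap L ↥(lg_E L (M * p)) ((p : L) ^ 4) :=
    (ssm_al_WE L M p hp.out hp2 hpM).commutes _
  have hW : ssm_gl_W L M p hp2 hpM
      (lg_phiE (L := L) (N := M * p) U1 / algebraMap L ↥(lg_E L (M * p)) ((p : L) ^ 4)) =
      (lg_phiE (L := L) (N := M * p) U1)⁻¹ := by
    rw [map_div₀, hWc, m59yun_WE_phi M p hp2 hpM h2 U1 hU1]
    exact mul_div_cancel_left₀ _ hp0
  refine ⟨div_ne_zero hG0 hp0, ?_, ?_⟩
  · show ssm_gl_W L M p hp2 hpM _ ∈ ssm_gl_V1 O hπ M p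
    rw [hW]
    exact m59yun_isBdd_phi_inv O M p h2 U1 hU1
  · show ssm_gl_W L M p hp2 hpM _ ∈ ssm_gl_V1 O hπ M p
    rw [map_inv₀, hW, inv_inv]
    exact m59yun_isBdd_phi O M p h2 U1 hU1

end Vert

end Fermat.Agent.M59
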