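import Mathlib
import Fermat.Agent.MZ.C.Integral
import Fermat.Agent.MZ.C.UnitOrd
import Fermat.Agent.JT3.Gateway.CComplete
import Fermat.Agent.M59.TTwin.UnitDef

/-!
M59 / TTwin / UnitOrd (helper11, ruling #48): class (T) twin for Sink A.
Generated from `Fermat/Agent/MZ/C/UnitOrd.lean` on main: the weight-12 unit `Δ(z)/Δ(pz)` is replaced by the
weight-4 level-2 unit `u_F = F(z)/F(pz)`, `F = E₄(z) - E₄(2z)`; the constant `12` becomes `4`;
`5 ≤ p` becomes `p ≠ 2` together with `2 ∣ M`.  Prefix `m59y…_`.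
-/

set_option autoImplicit false
set_option linter.unusedSectionVars false

noncomputable section

open UpperHalfPlane ModularForm CongruenceSubgroup
open scoped MatrixGroups Manifold

namespace Fermat.Agent.M59

open Fermat.Agent.S24 Fermat.Agent.JT3 Fermat.Agent.S28 AlgebraicCurve Fermat.Agent.MZ
open Fermat.Agent.S23 (alphaN)
open Fermat.Agent.S24.Br

local notation "Qb" => AlgebraicClosure ℚ

/-- weak modularity goes up in the level. -/
theorem m59yuo_weak_of_dvd {m N : ℕ} (hmN : m ∣ N) {h : ℍ → ℂ} (hh : IsWeakModFun m h) :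
    IsWeakModFun N h :=
  ⟨hh.mdiff, fun γ hγ z => hh.inv γ (tx_mem_Gamma0_of_dvd hmN hγ) z, hh.growth⟩

variable (p : ℕ) [NeZero p]

theorem m59yuo_inv_cube (z : ℍ) :
    ((m59yuf_uan p z)⁻¹) ^ 3 =
      ((p : ℂ) ^ 12)⁻¹ * (((tx_u 2 z)⁻¹) ^ 2 * (tx_u p z)⁻¹ * (tx_u (2 * p) z) ^ 2) := by
  rw [inv_pow, m59yuf_uan_cube]
  have h1 := tx_u_ne_zero 2 z
  have h2 := tx_u_ne_zero p z
  have h3 := tx_u_ne_zero (2 * p) z
  have hp : (p : ℂ) ≠ 0 := Nat.cast_ne_zero.mpr (NeZero.ne p)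
  field_simp

theorem m59yuo_weak_inv_cube : IsWeakModFun (2 * p) (fun z => ((m59yuf_uan p z)⁻¹) ^ 3) where
  mdiff := (m59yuf_mdiff_inv (m59yuf_mdiff_uan p) (m59yuf_uan_ne_zero p)).pow 3
  inv := fun γ hγ z => by
    show ((m59yuf_uan p (γ • z))⁻¹) ^ 3 = ((m59yuf_uan p z)⁻¹) ^ 3
    rw [m59yuf_uan_smul p γ hγ z]
  growth := fun γ => by
    have h2 : (2 : ℕ) ∣ 2 * p := Dvd.intro _ rfl
    have hp : p ∣ 2 * p := Dvd.intro_left _ rfl
    have h2p : 2 * p ∣ 2 * p := dvd_refl _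
    have hP : fi_P (2 * p) ((fun _ => ((p : ℂ) ^ 12)⁻¹) *
        (((fun z => (tx_ufun 2 γ z)⁻¹) * fun z => (tx_ufun 2 γ z)⁻¹) *
          (fun z => (tx_ufun p γ z)⁻¹) * (tx_ufun (2 * p) γ * tx_ufun (2 * p) γ))) :=
      tx_fi_P_mul _ (tx_fi_P_const _ _)
        (tx_fi_P_mul _ (tx_fi_P_mul _
          (tx_fi_P_mul _ (tx_fi_P_ufun_inv _ h2 γ) (tx_fi_P_ufun_inv _ h2 γ))
          (tx_fi_P_ufun_inv _ hp γ))
          (tx_fi_P_mul _ (tx_fi_P_ufun _ h2p γ) (tx_fi_P_ufun _ h2p γ)))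
    obtain ⟨m, hm⟩ := mza_plu_growth_of_fi_P (2 * p) hP
    refine ⟨m, ?_⟩
    convert hm using 2
    funext z
    simp only [Pi.mul_apply]
    rw [m59yuo_inv_cube]
    simp only [tx_ufun]
    ring

/-- `1/u_F = F(pτ)/F(τ)` is a weakly holomorphic modular function of level `2p`. -/
theorem m59yuo_weak_inv : IsWeakModFun (2 * p) (fun z => (m59yuf_uan p z)⁻¹) :=
  gb_isWeakModFun (n := 3) (by norm_num) (m59yuo_weak_inv_cube p)
    (m59yuf_mdiff_inv (m59yuf_mdiff_uan p) (m59yuf_uan_ne_zero p))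
    (fun γ hγ z => by show (m59yuf_uan p (γ • z))⁻¹ = _; rw [m59yuf_uan_smul p γ hγ z])
    (fun _ => rfl)

variable (N : ℕ) [NeZero N] (hpN : 2 * p ∣ N)

theorem m59yuo_laurentQ :
    br_HasLaurentQ (m59yuf_uan p)
      (ModularCurve.coeffMap (br_iota : Qb →+* ℂ)
        ((m59yhu_U p N hpN : ModularCurve.modularFunctionFieldBar N) : LaurentSeries Qb)) := by
  rw [m59yhu_coe_U]
  exact m59yuf_uan_laurent_bar p

/-- the `q`-expansion of `1/u_F`. -/
theorem m59yuo_laurentQ_inv :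
    br_HasLaurentQ (fun z => (m59yuf_uan p z)⁻¹)
      (ModularCurve.coeffMap (br_iota : Qb →+* ℂ)
        (((m59yhu_U p N hpN)⁻¹ : ModularCurve.modularFunctionFieldBar N) : LaurentSeries Qb)) := by
  have h1 := gc_hasLaurentQ_of_weak (m59yuo_weak_inv p)
  have h2 := (m59yuo_laurentQ p N hpN).mul h1
  have hone : m59yuf_uan p * (fun z => (m59yuf_uan p z)⁻¹) = fun _ => (1 : ℂ) := by
    funext z
    exact mul_inv_cancel₀ (m59yuf_uan_ne_zero p z)
  rw [hone] at h2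
  have h3 := h2.unique_right (br_HasLaurentQ.const 1)
  have h4 : gm_lq (fun z => (m59yuf_uan p z)⁻¹) =
      (ModularCurve.coeffMap (br_iota : Qb →+* ℂ)
        ((m59yhu_U p N hpN : ModularCurve.modularFunctionFieldBar N) : LaurentSeries Qb))⁻¹ := by
    rw [map_one] at h3
    exact eq_inv_of_mul_eq_one_right h3
  rw [h4] at h1
  have h5 : (((m59yhu_U p N hpN)⁻¹ : ModularCurve.modularFunctionFieldBar N) : LaurentSeries Qb)
      = ((m59yhu_U p N hpN : ModularCurve.modularFunctionFieldBar N) : LaurentSeries Qb)⁻¹ := rfl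
  rw [h5, map_inv₀]
  exact h1

/-- **the weight-4 unit has neither zero nor pole outside the poles of `j`** (level `N`, `2p ∣ N`). -/
theorem m59yuo_ord_eq_zero (P : Place Qb (ModularCurve.modularFunctionFieldBar N))
    (hP : 0 ≤ P.ord (ff_jF N)) : P.ord (m59yhu_U p N hpN) = 0 :=
  mzc_i_ord_eq_zero' (m59yhu_U p N hpN) (m59yhu_U p N hpN)⁻¹
    (mul_inv_cancel₀ (m59yhu_U_ne_zero p N hpN))
    (m59yuf_uan p) (fun z => (m59yuf_uan p z)⁻¹) (m59yuo_weak_of_dvd hpN (m59yuf_weak p))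
    (m59yuo_weak_of_dvd hpN (m59yuo_weak_inv p))
    (m59yuo_laurentQ p N hpN) (m59yuo_laurentQ_inv p N hpN) P hP

/-- the same with `br_jBar N`. -/
theorem m59yuo_ord_eq_zero_bar (P : Place Qb (ModularCurve.modularFunctionFieldBar N))
    (hP : 0 ≤ P.ord (br_jBar N)) : P.ord (m59yhu_U p N hpN) = 0 :=
  mzc_i_ord_eq_zero (m59yhu_U p N hpN) (m59yhu_U p N hpN)⁻¹
    (mul_inv_cancel₀ (m59yhu_U_ne_zero p N hpN))
    (m59yuf_uan p) (fun z => (m59yuf_uan p z)⁻¹) (m59yuo_weak_of_dvd hpN (m59yuf_weak p))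
    (m59yuo_weak_of_dvd hpN (m59yuo_weak_inv p))
    (m59yuo_laurentQ p N hpN) (m59yuo_laurentQ_inv p N hpN) P hP

end Fermat.Agent.M59
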