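import Mathlib
import Fermat.Agent.S44.Mono.UnitVal
import Fermat.Agent.M59.TTwin.UnitOrd
import Fermat.Agent.MZ.C.UnitOrd
import Fermat.Agent.JT3.PlaceMap.FunField
import Fermat.Agent.JT3.Riemann.FBar
import Fermat.Agent.SS.Local.Height1
import Fermat.Agent.S24.Hurwitz.Places
import Fermat.Agent.SS.Model.AL
import Fermat.Agent.JT3.Inst.Key0
import Fermat.Agent.JT3.Descent.ConstDVR

/-!
M59 / TTwin / UnitVal (helper11, ruling #48): class (T) twin for Sink A.
Generated from `Fermat/Agent/S44/Mono/UnitVal.lean` on main: the weight-12 unit `Δ(z)/Δ(pz)` is replaced by the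
weight-4 level-2 unit `u_F = F(z)/F(pz)`, `F = E₄(z) - E₄(2z)`; the constant `12` becomes `4`;
`5 ≤ p` becomes `p ≠ 2` together with `2 ∣ M`.  Prefix `m59y…_`.
-/

set_option autoImplicit false
set_option linter.unusedSectionVars false
set_option linter.style.haveILetI false

noncomputable section

namespace Fermat.Agent.M59

open Fermat.Agent.S44

open ModularCurve AlgebraicCurve IsLocalRing Fermat.Agent.JT3 Fermat.Agent.MZ Fermat.Agent.SS
  Fermat.Agent.S24

local notation "Qb" => AlgebraicClosure ℚ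

section Bar

variable (p N : ℕ) [NeZero p] [NeZero N] (hpN : 2 * p ∣ N)

/-- **(UH-bar)**: the weight-4 unit is a unit of every valuation ring of `F̄_N` containing `Q̄`
and `j`. -/
theorem m59yuv_bar (V : ValuationSubring (modularFunctionFieldBar N))
    (hK : ∀ c : Qb, algebraMap Qb (modularFunctionFieldBar N) c ∈ V) (hj : br_jBar N ∈ V) :
    ssl_VUnit V (m59yhu_U p N hpN) := by
  refine ⟨m59yhu_U_ne_zero p N hpN, ?_⟩
  exact s44uv_abs (rt_isSepGen_jBar N) (m59yhu_U_ne_zero p N hpN)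
    (fun P hP => m59yuo_ord_eq_zero_bar p N hpN P hP) V hK hj

end Bar

section NF

variable (L : Type*) [Field L] [CharZero L] [Algebra L Qb]
variable (p N : ℕ) [NeZero p] [NeZero N] (hpN : 2 * p ∣ N)

include hpN in
/-- **(UH-nf)**: at the level of a field `L ⊆ Q̄`, on the Legendre cover: every valuation subring
of `lg_E L N` containing `L` and `j(q²)` contains `φ(u)` and `φ(u)⁻¹`, for every `u ∈ lg_F L N`
with series `Δ(q)/Δ(q^p)`. -/
theorem m59yuv_nf (V : ValuationSubring ↥(lg_E L N))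
    (hL : ∀ c : L, algebraMap L ↥(lg_E L N) c ∈ V) (hj : s44uv_j2E L N ∈ V)
    (x : lg_F L N) (hx : (x : LaurentSeries L) = m59yqi_U L p) :
    ssl_VUnit V (lg_phiE (L := L) (N := N) x) := by
  -- the coefficient embedding of `lg_E L N` into `Ω = Q̄((q))`
  set Θ : ↥(lg_E L N) →+* LaurentSeries Qb :=
    (ssm_al_iota L).comp (lg_E L N).val.toRingHom with hΘ
  have hΘa : ∀ y : ↥(lg_E L N), Θ y = ssm_al_iota L (y : LaurentSeries L) := fun y => rfl
  obtain ⟨A, hA⟩ := s44uv_ext Θ V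
  -- the map `F̄_N → Ω`, `y ↦ y(q²)`
  set Ψ : ↥(modularFunctionFieldBar N) →+* LaurentSeries Qb :=
    (qExpand Qb 2).comp (modularFunctionFieldBar N).val.toRingHom with hΨ
  have hΨa : ∀ y : ↥(modularFunctionFieldBar N), Ψ y = qExpand Qb 2 (y : LaurentSeries Qb) :=
    fun y => rfl
  -- constants
  have hconstL : ∀ c : L, algebraMap Qb (LaurentSeries Qb) (algebraMap L Qb c) ∈ A := by
    intro c
    have h1 : Θ (algebraMap L ↥(lg_E L N) c) =
        algebraMap Qb (LaurentSeries Qb) (algebraMap L Qb c) := by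
      rw [hΘa]
      exact ssm_al_iota_algebraMap L c
    rw [← h1, hA]
    exact hL c
  haveI : Algebra.IsAlgebraic L Qb := by
    haveI : Algebra.IsAlgebraic ℚ Qb := AlgebraicClosure.isAlgebraic ℚ
    exact Algebra.IsAlgebraic.tower_top (K := ℚ) L
  have hconst : ∀ c : Qb, algebraMap Qb (LaurentSeries Qb) c ∈ A :=
    s44uv_mem_of_algebraic (L := L) A (algebraMap Qb (LaurentSeries Qb)) hconstL
  have hK : ∀ c : Qb, algebraMap Qb ↥(modularFunctionFieldBar N) c ∈ A.comap Ψ := by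
    intro c
    rw [ValuationSubring.mem_comap, hΨa]
    have : ((algebraMap Qb ↥(modularFunctionFieldBar N) c : modularFunctionFieldBar N) :
        LaurentSeries Qb) = algebraMap Qb (LaurentSeries Qb) c := rfl
    rw [this, algebraMap_laurentSeries_eq_single, qExpand_single, mul_zero,
      ← algebraMap_laurentSeries_eq_single]
    exact hconst c
  -- `j`
  have hjA : br_jBar N ∈ A.comap Ψ := by
    rw [ValuationSubring.mem_comap, hΨa, coe_br_jBar, br_jqK]
    have h1 : Θ (s44uv_j2E L N) = qExpand Qb 2 (coeffEmb Qb jq) := by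
      rw [hΘa]
      show ssm_al_iota L (lg_j2 L) = _
      rw [lg_j2, ssm_al_iota_qExpand, coeffMap_jqModC, mzb_qi_j_coeffEmb]
    rw [← h1, hA]
    exact hj
  obtain ⟨hu0, h1, h2⟩ := m59yuv_bar p N hpN (A.comap Ψ) hK hjA
  -- the unit
  have hU : Ψ (m59yhu_U p N hpN) = Θ (lg_phiE (L := L) (N := N) x) := by
    rw [hΨa, hΘa, m59yhu_coe_U, lg_phiE_coe, lg_phi_apply, ssm_al_iota_qExpand, hx,
      m59yqi_coeffMap_U, m59yqi_U_coeffEmb]
  rw [ValuationSubring.mem_comap] at h1 h2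
  rw [map_inv₀] at h2
  rw [hU] at h1 h2
  rw [← map_inv₀, hA] at h2
  rw [hA] at h1
  refine ⟨?_, h1, h2⟩
  intro h0
  rw [h0, map_zero] at hU
  exact hu0 ((map_eq_zero Ψ).1 hU)

end NF

section Horiz

variable (L : Type*) [Field L] [CharZero L] [Algebra L Qb]
variable (p N : ℕ) [NeZero p] [NeZero N] (hpN : 2 * p ∣ N)

include hpN in
/-- **(UH)**, in the shape of `s44n_monomial` / `s44ms_main`: the modular unit has no horizontal
divisor through a point where `j` is finite. -/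
theorem m59yuv_unitAt {R : Type*} [CommRing R] [IsDomain R] [IsNoetherianRing R]
    [IsIntegrallyClosed R] [Algebra R ↥(lg_E L N)] [IsFractionRing R ↥(lg_E L N)]
    (𝔮 : Ideal R) [𝔮.IsPrime] (h1 : 𝔮.height = 1)
    (hL : ∀ c : L, ssl_MemAt ↥(lg_E L N) 𝔮 (algebraMap L ↥(lg_E L N) c))
    (hj : ssl_MemAt ↥(lg_E L N) 𝔮 (s44uv_j2E L N))
    (x : lg_F L N) (hx : (x : LaurentSeries L) = m59yqi_U L p) :
    ssl_UnitAt ↥(lg_E L N) 𝔮 (lg_phiE (L := L) (N := N) x) :=
  (ssl_vUnit_valAt 𝔮 h1).1 (m59yuv_nf L p N hpN (ssl_valAt 𝔮 h1)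
    (fun c => (ssl_mem_valAt 𝔮 h1).2 (hL c)) ((ssl_mem_valAt 𝔮 h1).2 hj) x hx)

include hpN in
/-- the same over a discrete valuation ring `A0` of `L` with uniformiser `π`, at the horizontal
primes (`ssl_Horiz`) of an `A0`-algebra `R` containing `j(q²)`. -/
theorem m59yuv_unitAt_horiz {A0 : Type*} [CommRing A0] [IsDomain A0] [IsDiscreteValuationRing A0]
    [Algebra A0 L] [IsFractionRing A0 L] {R : Type*} [CommRing R] [IsDomain R]
    [IsNoetherianRing R] [IsIntegrallyClosed R] [Algebra R ↥(lg_E L N)]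
    [IsFractionRing R ↥(lg_E L N)] [Algebra A0 R] [Algebra A0 ↥(lg_E L N)]
    [IsScalarTower A0 R ↥(lg_E L N)] [IsScalarTower A0 L ↥(lg_E L N)] {π : A0}
    (hπ : Irreducible π) (𝔮 : Ideal R) (h𝔮 : ssl_Horiz (algebraMap A0 R π) 𝔮)
    (jR : R) (hjR : algebraMap R ↥(lg_E L N) jR = s44uv_j2E L N)
    (x : lg_F L N) (hx : (x : LaurentSeries L) = m59yqi_U L p) :
    ssl_UnitAt ↥(lg_E L N) 𝔮 (lg_phiE (L := L) (N := N) x) := by
  haveI := h𝔮.1
  refine m59yuv_unitAt L p N hpN 𝔮 h𝔮.2.1 (fun c => s44uv_memAt_const hπ 𝔮 h𝔮.2.2 c) ?_ x hx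
  rw [← hjR]
  exact ssl_memAt_algebraMap 𝔮 jR

end Horiz

end Fermat.Agent.M59

end
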