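import Fermat.Agent.S44.Mono.UnitNodeLeg
import Mathlib
import Fermat.Agent.S44.Mono.UnitNodeFF
import Fermat.Agent.M59.TTwin.UNodeVert
import Fermat.Agent.M59.TTwin.UnitVal

/-!
M59 / TTwin / UnitNodeLeg (helper11, ruling #48): class (T) twin for Sink A.
Generated from `Fermat/Agent/S44/Mono/UnitNodeLeg.lean` on main: the weight-12 unit `Δ(z)/Δ(pz)` is replaced by the
weight-4 level-2 unit `u_F = F(z)/F(pz)`, `F = E₄(z) - E₄(2z)`; the constant `12` becomes `4`;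
`5 ≤ p` becomes `p ≠ 2` together with `2 ∣ M`.  Prefix `m59y…_`.
-/

set_option autoImplicit false
set_option linter.unusedSectionVars false
set_option linter.style.haveILetI false
set_option linter.unusedVariables false

noncomputable section

namespace Fermat.Agent.M59

open Fermat.Agent.S44

open ModularCurve IntermediateField IsLocalRing
open Fermat.Agent.JT3 Fermat.Agent.SS Fermat.Agent.MZ

section Leg

variable {L : Type*} [Field L] [CharZero L] [Algebra L (AlgebraicClosure ℚ)]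
  (O : ValuationSubring L) [IsDiscreteValuationRing O] {π : O} (hπ : Irreducible π)
variable (M p : ℕ) [NeZero M] [NeZero p] [hp : Fact p.Prime] [CharP (ResidueField O) p]
  (hp2 : ¬ 2 ∣ p) (hpM : ¬ p ∣ M)

set_option synthInstance.maxHeartbeats 400000 in
set_option maxHeartbeats 1600000 in
/-- **(U-NODE)(a), Legendre instance**: the normalised order at a node of the Legendre model along
the `∞`-branch of the modular unit is `12`. -/
theorem m59yun_leg_node (h2 : 2 ∣ M)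
    (hprime : Prime (algebraMap ↥O (fc_chart ↥O ({lg_lamE M} : Set ↥(lg_E L M))) π))
    (U1 : ↥(lg_F L (M * p))) (hU1 : (U1 : LaurentSeries L) = m59yqi_U L p)
    (𝔫 : Ideal (fc_chart ↥O ({lg_lamE (M * p)} : Set ↥(lg_E L (M * p))))) [h𝔫 : 𝔫.IsPrime]
    (hπ𝔫 : algebraMap ↥O (fc_chart ↥O ({lg_lamE (M * p)} : Set ↥(lg_E L (M * p)))) π ∈ 𝔫)
    {u v : ↥(lg_E L (M * p))}
    (hnode : s44mu_NodeAtU π (fc_chart1_le (lg_lamE (M * p) : ↥(lg_E L (M * p))))
      (ssm_tp_P (fc_chart ↥O ({lg_lamE (M * p), (lg_lamE (M * p))⁻¹} :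
        Set ↥(lg_E L (M * p)))) (ssm_gl_V1 O hπ M p))
      (ssm_tp_P (fc_chart ↥O ({lg_lamE (M * p), (lg_lamE (M * p))⁻¹} :
        Set ↥(lg_E L (M * p)))) (ssm_gl_V2 O hπ M p hp2 hpM)) 𝔫 u v ((p : ℕ) : ↥O)) :
    haveI : FiniteDimensional L⟮(lg_lamE (M * p) : lg_E L (M * p))⟯ ↥(lg_E L (M * p)) :=
      lgf_finite L (M * p)
    haveI := ssm_go_isScalarTower O (lg_E L (M * p))
    haveI : Algebra.IsAlgebraic
        (Algebra.adjoin ↥O ({lg_lamE (M * p)} : Set ↥(lg_E L (M * p)))) ↥(lg_E L (M * p)) :=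
      fc_ff_isAlgebraic (L := L) (lg_lamE (M * p) : ↥(lg_E L (M * p)))
    haveI : IsNoetherianRing (fc_chart ↥O ({lg_lamE (M * p)} : Set ↥(lg_E L (M * p)))) := by
      have := fc_chart_isNoetherianRing (A0 := ↥O) (F0 := ↥(lg_E L (M * p))) {lg_lamE (M * p)}
        (by rw [Finset.coe_singleton]
            exact fc_ff_finite (L := L) (lgf_lam_transcendental L (M * p) two_ne_zero))
      rwa [Finset.coe_singleton] at this
    haveI : IsIntegrallyClosed (fc_chart ↥O ({lg_lamE (M * p)} : Set ↥(lg_E L (M * p)))) :=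
      ssl_chart_isIntegrallyClosed {lg_lamE (M * p)}
    haveI := ssl_loc_isLocalRing (F0 := ↥(lg_E L (M * p))) 𝔫
    ∀ (huS : u ∈ ssl_locSub ↥(lg_E L (M * p)) 𝔫)
      (hj : s44uv_j2E L (M * p) ∈ ssl_locSub ↥(lg_E L (M * p)) 𝔫) (ν : ↥(lg_E L (M * p)) → ℤ),
      s44nu_IsNu (algebraMap (fc_chart ↥O ({lg_lamE (M * p)} : Set ↥(lg_E L (M * p))))
          (ssl_locSub ↥(lg_E L (M * p)) 𝔫)
          (algebraMap ↥O (fc_chart ↥O ({lg_lamE (M * p)} : Set ↥(lg_E L (M * p)))) π))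
        (⟨u, huS⟩ : ssl_locSub ↥(lg_E L (M * p)) 𝔫)
        (s44tl_br 𝔫 (fc_chart1_le (lg_lamE (M * p) : ↥(lg_E L (M * p))))
          (ssm_tp_P (fc_chart ↥O ({lg_lamE (M * p), (lg_lamE (M * p))⁻¹} :
            Set ↥(lg_E L (M * p)))) (ssm_gl_V1 O hπ M p))) ν →
      ν (lg_phiE (L := L) (N := M * p) U1) = 4 := by
  haveI : FiniteDimensional L⟮(lg_lamE (M * p) : lg_E L (M * p))⟯ ↥(lg_E L (M * p)) :=
    lgf_finite L (M * p)
  haveI := ssm_go_isScalarTower O (lg_E L (M * p))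
  haveI : Algebra.IsAlgebraic
      (Algebra.adjoin ↥O ({lg_lamE (M * p)} : Set ↥(lg_E L (M * p)))) ↥(lg_E L (M * p)) :=
    fc_ff_isAlgebraic (L := L) (lg_lamE (M * p) : ↥(lg_E L (M * p)))
  haveI : IsNoetherianRing (fc_chart ↥O ({lg_lamE (M * p)} : Set ↥(lg_E L (M * p)))) := by
    have := fc_chart_isNoetherianRing (A0 := ↥O) (F0 := ↥(lg_E L (M * p))) {lg_lamE (M * p)}
      (by rw [Finset.coe_singleton]
          exact fc_ff_finite (L := L) (lgf_lam_transcendental L (M * p) two_ne_zero))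
    rwa [Finset.coe_singleton] at this
  haveI : IsIntegrallyClosed (fc_chart ↥O ({lg_lamE (M * p)} : Set ↥(lg_E L (M * p)))) :=
    ssl_chart_isIntegrallyClosed {lg_lamE (M * p)}
  haveI := ssl_loc_isLocalRing (F0 := ↥(lg_E L (M * p))) 𝔫
  haveI := ssl_loc_isNoetherianRing (F0 := ↥(lg_E L (M * p))) 𝔫
  haveI := ssl_loc_isIntegrallyClosed (F0 := ↥(lg_E L (M * p))) 𝔫
  intro huS hj ν hν
  have hx : Transcendental L (lg_lamE (L := L) (M * p)) :=
    lgf_lam_transcendental L (M * p) two_ne_zero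
  have H := ssm_gl_hyp O hπ M p hp2 hpM hprime
  have hG1 := m59yun_V1 O hπ M p h2 U1 hU1
  have hG2 := m59yun_V2 O hπ M p hp2 hpM h2 U1 hU1
  have hpow : algebraMap ↥O ↥(lg_E L (M * p)) ((p : ℕ) : ↥O) ^ (4 : ℤ) =
      algebraMap L ↥(lg_E L (M * p)) ((p : L) ^ 4) := by
    rw [IsScalarTower.algebraMap_apply ↥O L ↥(lg_E L (M * p)), map_natCast, map_pow]
    exact zpow_natCast _ 4
  rw [← hpow] at hG2
  refine s44un_ff_node (L := L) hπ hx H 𝔫 hπ𝔫 hnode huS ?_ 4 hG1 hG2 ν hν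
  intro 𝔮 h𝔮
  exact m59yuv_unitAt_horiz L p (M * p) (m59yhw_dvd M p h2) hπ 𝔮 h𝔮
    (⟨s44uv_j2E L (M * p), hj⟩ : ssl_locSub ↥(lg_E L (M * p)) 𝔫) rfl U1 hU1

end Leg

end Fermat.Agent.M59

end
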