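import Fermat.Agent.M59.TTwin.UnitW2
import Fermat.Agent.S44.Mono.UnitSmooth
import Mathlib
import Fermat.Agent.S44.Mono.UnitNode
import Fermat.Agent.S44.Mono.NodeNu
import Fermat.Agent.M59.TTwin.UnitVal
import Fermat.Agent.S44.Mono.Centre
import Fermat.Agent.SS.Model.ThickBase

/-!
M59 / TTwin / UnitSmooth (helper11, ruling #48): class (T) twin for Sink A.
Generated from `Fermat/Agent/S44/Mono/UnitSmooth.lean` on main: the weight-12 unit `Δ(z)/Δ(pz)` is replaced by the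
weight-4 level-2 unit `u_F = F(z)/F(pz)`, `F = E₄(z) - E₄(2z)`; the constant `12` becomes `4`;
`5 ≤ p` becomes `p ≠ 2` together with `2 ∣ M`.  Prefix `m59y…_`.
-/

set_option autoImplicit false
set_option synthInstance.maxHeartbeats 400000
set_option maxHeartbeats 3200000
set_option linter.unusedSectionVars false
set_option linter.unusedVariables false
set_option linter.style.haveILetI false

namespace Fermat.Agent.M59

open Fermat.Agent.S44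

open Fermat.Agent.SS Fermat.Agent.JT3 Fermat.Agent.S35 Fermat.Agent.MZ IsLocalRing ModularCurve
  IntermediateField

/-! ### the abstract statement -/

section Abs

variable {R : Type*} [CommRing R] [IsDomain R] [IsNoetherianRing R] [IsIntegrallyClosed R]
  {F : Type*} [Field F] [Algebra R F] [IsFractionRing R F]

end Abs

/-! ### a point of a chart of a two-component model lying on one component only -/

section Chart

universe v

variable {R' : Type*} [CommRing R'] [IsDomain R'] [IsIntegrallyClosed R']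
  {A0 : Type*} [CommRing A0] {E : Type v} [Field E] [Algebra A0 E] [Algebra R' E]
  [FaithfulSMul R' E]
  {B : Subalgebra A0 E} [IsFractionRing B E] [IsNoetherianRing B] [IsIntegrallyClosed B]
  (𝔫 : Ideal B) [h𝔫 : 𝔫.IsPrime] {πR : R'} {V1 V2 : ValuationSubring E}

end Chart

/-! ### the Legendre instance -/

section Legendre

variable {L : Type*} [Field L] [CharZero L] [Algebra L (AlgebraicClosure ℚ)]
  (O : ValuationSubring L) [IsDiscreteValuationRing O] {π : O} (hπ : Irreducible π)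
variable (N' q : ℕ) [NeZero N'] [NeZero q] [hq : Fact q.Prime] [CharP (ResidueField O) q]
  (hq2 : ¬ 2 ∣ q) (hqN' : ¬ q ∣ N')

set_option maxHeartbeats 1600000 in
set_option synthInstance.maxHeartbeats 200000 in
/-- **(U-NODE)(b), Legendre instance**: `B = fc_chart O {λ}` the `λ`-chart of `E = lg_E L (N' q)`,
`𝔫` a prime of `B` on the `∞`-component `P₁ = 𝔪(V₁) ∩ B` but not on the `0`-component
`P₂ = 𝔪(V₂) ∩ B`, with `j(q²) ∈ B_𝔫`.  For every model `U1 ∈ lg_F L (N' q)` of the modular unit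
`Δ(q)/Δ(q^q)` whose image `lg_phiE U1` is a unit of the Gauss valuation ring `V₁`:
`lg_phiE U1 ∈ (B_𝔫)ˣ`, in the form `∃ a s ∈ B ∖ 𝔫, lg_phiE U1 * s = a`. -/
theorem m59yus_smooth_leg
    (hprime : Prime (algebraMap ↥O (fc_chart ↥O ({lg_lamE N'} : Set ↥(lg_E L N'))) π))
    (𝔫 : Ideal ↥(fc_chart ↥O ({lg_lamE (N' * q)} : Set ↥(lg_E L (N' * q))))) [h𝔫 : 𝔫.IsPrime]
    (h1 : ssm_tp_P (fc_chart ↥O ({lg_lamE (N' * q)} : Set ↥(lg_E L (N' * q))))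
      (ssm_gl_V1 O hπ N' q) ≤ 𝔫)
    (h2 : ¬ ssm_tp_P (fc_chart ↥O ({lg_lamE (N' * q)} : Set ↥(lg_E L (N' * q))))
      (ssm_gl_V2 O hπ N' q hq2 hqN') ≤ 𝔫)
    (hj : ∃ a s : ↥(fc_chart ↥O ({lg_lamE (N' * q)} : Set ↥(lg_E L (N' * q)))), s ∉ 𝔫 ∧
      s44uv_j2E L (N' * q) * (s : ↥(lg_E L (N' * q))) = (a : ↥(lg_E L (N' * q))))
    (U1 : ↥(lg_F L (N' * q))) (hU1 : (U1 : LaurentSeries L) = m59yqi_U L q) (hev : 2 ∣ N')
    (hV1 : ssl_VUnit (ssm_gl_V1 O hπ N' q) (lg_phiE (L := L) (N := N' * q) U1)) :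
    ∃ a s : ↥(fc_chart ↥O ({lg_lamE (N' * q)} : Set ↥(lg_E L (N' * q)))), a ∉ 𝔫 ∧ s ∉ 𝔫 ∧
      lg_phiE (L := L) (N := N' * q) U1 * (s : ↥(lg_E L (N' * q))) =
        (a : ↥(lg_E L (N' * q))) := by
  haveI := ssm_go_isScalarTower O (lg_E L (N' * q))
  have hx : Transcendental L (lg_lamE (L := L) (N' * q)) :=
    lgf_lam_transcendental L (N' * q) two_ne_zero
  have hyA : Transcendental ↥O (lg_lamE (L := L) (N' * q)) := fc_ff_transcendental (L := L) hx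
  haveI : IsIntegrallyClosed (Algebra.adjoin ↥O ({lg_lamE (N' * q)} : Set ↥(lg_E L (N' * q)))) :=
    fc_ff_isIntegrallyClosed hyA
  haveI : FaithfulSMul (Algebra.adjoin ↥O ({lg_lamE (N' * q)} : Set ↥(lg_E L (N' * q))))
      ↥(lg_E L (N' * q)) :=
    (faithfulSMul_iff_algebraMap_injective _ _).2 Subtype.val_injective
  haveI := lgf_finite L (N' * q)
  haveI : IsNoetherianRing ↥(fc_chart ↥O ({lg_lamE (N' * q)} : Set ↥(lg_E L (N' * q)))) :=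
    ssm_ths_chart_isNoetherianRing (A0 := ↥O) (L := L) hx
  haveI : IsIntegrallyClosed ↥(fc_chart ↥O ({lg_lamE (N' * q)} : Set ↥(lg_E L (N' * q)))) :=
    ssm_ths_chart_isIntegrallyClosed (A0 := ↥O) (L := L) _
  haveI : IsFractionRing ↥(fc_chart ↥O ({lg_lamE (N' * q)} : Set ↥(lg_E L (N' * q))))
      ↥(lg_E L (N' * q)) :=
    ssm_ths_chart_isFractionRing (A0 := ↥O) (L := L) _
  have H := ssm_gl_hyp O hπ N' q hq2 hqN' hprime
  have hC := ssm_tp_ff_chart (L := L) hπ hx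
  haveI := ssl_loc_isNoetherianRing (F0 := ↥(lg_E L (N' * q))) 𝔫
  haveI := ssl_loc_isIntegrallyClosed (F0 := ↥(lg_E L (N' * q))) 𝔫
  -- `j(q²) ∈ B_𝔫`
  obtain ⟨aj, sj, hsj, hjs⟩ := hj
  have hjS : s44uv_j2E L (N' * q) ∈ ssl_locSub ↥(lg_E L (N' * q)) 𝔫 :=
    (ssl_mem_loc 𝔫).2 ⟨aj, sj, hsj, hjs⟩
  refine s44us_smooth_chart 𝔫 H hC
    (algebraMap ↥O ↥(fc_chart ↥O ({lg_lamE (N' * q)} : Set ↥(lg_E L (N' * q)))) π) rfl h1 h2 hV1 ?_
  intro 𝔮 h𝔮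
  exact m59yuv_unitAt_horiz L q (N' * q) (m59yhw_dvd N' q hev) (A0 := ↥O)
    (R := ↥(ssl_locSub ↥(lg_E L (N' * q)) 𝔫)) hπ 𝔮 h𝔮
    (⟨s44uv_j2E L (N' * q), hjS⟩ : ↥(ssl_locSub ↥(lg_E L (N' * q)) 𝔫)) rfl U1 hU1

set_option maxHeartbeats 1600000 in
set_option synthInstance.maxHeartbeats 200000 in
/-- **(U-NODE)(b), centre form** (the shape of `s44mz_centre` / `s44nd_unit_chart`): `𝒱 ≤ V₁` a
valuation subring of `E` containing `O` and `j(q²)`, `𝔫 = 𝔪(𝒱) ∩ B` its centre on the `λ`-chart, NOT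
on the `0`-component.  Then `lg_phiE U1 ∈ (B_𝔫)ˣ`. -/
theorem m59yus_smooth_centre
    (hprime : Prime (algebraMap ↥O (fc_chart ↥O ({lg_lamE N'} : Set ↥(lg_E L N'))) π))
    (𝒱 : ValuationSubring ↥(lg_E L (N' * q))) (h𝒱 : 𝒱 ≤ ssm_gl_V1 O hπ N' q)
    (hO𝒱 : ∀ a : O, algebraMap ↥O ↥(lg_E L (N' * q)) a ∈ 𝒱)
    (hj : s44mz_j2E L (N' * q) ∈ 𝒱)
    (𝔫 : Ideal ↥(fc_chart ↥O ({lg_lamE (N' * q)} : Set ↥(lg_E L (N' * q))))) [h𝔫 : 𝔫.IsPrime]
    (h𝔫eq : ∀ b : ↥(fc_chart ↥O ({lg_lamE (N' * q)} : Set ↥(lg_E L (N' * q)))),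
      b ∈ 𝔫 ↔ (b : ↥(lg_E L (N' * q))) ∈ 𝒱.nonunits)
    (h2 : ¬ ssm_tp_P (fc_chart ↥O ({lg_lamE (N' * q)} : Set ↥(lg_E L (N' * q))))
      (ssm_gl_V2 O hπ N' q hq2 hqN') ≤ 𝔫)
    (U1 : ↥(lg_F L (N' * q))) (hU1 : (U1 : LaurentSeries L) = m59yqi_U L q) (hev : 2 ∣ N')
    (hV1 : ssl_VUnit (ssm_gl_V1 O hπ N' q) (lg_phiE (L := L) (N := N' * q) U1)) :
    ∃ a s : ↥(fc_chart ↥O ({lg_lamE (N' * q)} : Set ↥(lg_E L (N' * q)))), a ∉ 𝔫 ∧ s ∉ 𝔫 ∧
      lg_phiE (L := L) (N := N' * q) U1 * (s : ↥(lg_E L (N' * q))) =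
        (a : ↥(lg_E L (N' * q))) := by
  haveI := ssm_go_isScalarTower O (lg_E L (N' * q))
  have hx : Transcendental L (lg_lamE (L := L) (N' * q)) :=
    lgf_lam_transcendental L (N' * q) two_ne_zero
  have hyA : Transcendental ↥O (lg_lamE (L := L) (N' * q)) := fc_ff_transcendental (L := L) hx
  haveI : IsIntegrallyClosed (Algebra.adjoin ↥O ({lg_lamE (N' * q)} : Set ↥(lg_E L (N' * q)))) :=
    fc_ff_isIntegrallyClosed hyA
  haveI : FaithfulSMul (Algebra.adjoin ↥O ({lg_lamE (N' * q)} : Set ↥(lg_E L (N' * q))))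
      ↥(lg_E L (N' * q)) :=
    (faithfulSMul_iff_algebraMap_injective _ _).2 Subtype.val_injective
  have H := ssm_gl_hyp O hπ N' q hq2 hqN' hprime
  have hC := ssm_tp_ff_chart (L := L) hπ hx
  have hle := s44mz_B_le_S O q hq2 (N' * q)
  have hS𝒱 := s44mz_S_le O (N' * q) 𝒱 hO𝒱 hj
  have hB𝒱 : ∀ b ∈ fc_chart ↥O ({lg_lamE (N' * q)} : Set ↥(lg_E L (N' * q))), b ∈ 𝒱 :=
    fun b hb => hS𝒱 b (hle hb)
  -- `P₁ ≤ 𝔫`
  have h1 : ssm_tp_P (fc_chart ↥O ({lg_lamE (N' * q)} : Set ↥(lg_E L (N' * q))))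
      (ssm_gl_V1 O hπ N' q) ≤ 𝔫 := by
    intro b hb
    rw [H.mem_P1 hC] at hb
    rw [h𝔫eq]
    exact ValuationSubring.nonunits_le_nonunits.2 h𝒱 hb
  -- `λ, λ - 1 ∉ 𝔫`
  obtain ⟨u, hu⟩ := s44mz_exists_u O q hq2
  have hleg := s44mz_legE L (N' * q)
  have hlam𝒱 : (lg_lamE (N' * q) : ↥(lg_E L (N' * q))) ∈ 𝒱 := hB𝒱 _ (fc_x_mem_chart _)
  have h256 : ((256 : ↥(lg_E L (N' * q))))⁻¹ ∈ 𝒱 := by
    have e : ((256 : ↥(lg_E L (N' * q))))⁻¹ = algebraMap ↥O ↥(lg_E L (N' * q)) u := by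
      have h3 : algebraMap ↥O ↥(lg_E L (N' * q)) u * 256 = 1 := by
        have := congrArg (algebraMap ↥O ↥(lg_E L (N' * q))) hu
        rwa [map_mul, map_one, map_ofNat] at this
      exact (eq_inv_of_mul_eq_one_left h3).symm
    rw [e]
    exact hO𝒱 u
  have hkey : ∀ t : ↥(lg_E L (N' * q)), t ∈ 𝒱.nonunits →
      (lg_lamE (N' * q) : ↥(lg_E L (N' * q))) ^ 2 - lg_lamE (N' * q) + 1 - 1 ∈ 𝒱.nonunits →
      s44mz_j2E L (N' * q) * (lg_lamE (N' * q) : ↥(lg_E L (N' * q))) ^ 2 *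
        ((lg_lamE (N' * q) : ↥(lg_E L (N' * q))) - 1) ^ 2 ∈ 𝒱.nonunits → False := by
    intro t _ hw hR
    -- `w := λ² - λ + 1 ≡ 1`, so `256 w³` is a unit
    set w : ↥(lg_E L (N' * q)) := (lg_lamE (N' * q) : ↥(lg_E L (N' * q))) ^ 2 - lg_lamE (N' * q) + 1
      with hw'
    have hwv : 𝒱.valuation w = 1 := by
      have h3 := 𝒱.valuation.map_one_add_of_lt ((ValuationSubring.mem_nonunits_iff _).1 hw)
      rwa [add_sub_cancel] at h3
    rw [← hleg] at hR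
    have h4 : 𝒱.valuation (256 * w ^ 3) < 1 := (ValuationSubring.mem_nonunits_iff _).1 hR
    rw [map_mul, map_pow, hwv, one_pow, mul_one] at h4
    have h5 : 𝒱.valuation ((256 : ↥(lg_E L (N' * q))))⁻¹ ≤ 1 :=
      (𝒱.valuation_le_one_iff _).2 h256
    have h6 : (256 : ↥(lg_E L (N' * q))) ≠ 0 := by
      intro h0
      rw [h0, inv_zero] at h256
      have := hleg
      rw [h0, zero_mul] at this
      -- then `𝒱.valuation 0 < 1` is fine; derive contradiction from `u * 256 = 1`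
      have h3 : algebraMap ↥O ↥(lg_E L (N' * q)) u * 256 = 1 := by
        have := congrArg (algebraMap ↥O ↥(lg_E L (N' * q))) hu
        rwa [map_mul, map_one, map_ofNat] at this
      rw [h0, mul_zero] at h3
      exact zero_ne_one h3
    rw [map_inv₀] at h5
    have h7 : 𝒱.valuation (256 : ↥(lg_E L (N' * q))) ≠ 0 := (Valuation.ne_zero_iff _).2 h6
    have h8 := (inv_le_one₀ (zero_lt_iff.2 h7)).1 h5
    exact absurd h4 (not_lt.2 h8)
  have hmulR : ∀ {x y : ↥(lg_E L (N' * q))}, x ∈ 𝒱.nonunits → y ∈ 𝒱 → x * y ∈ 𝒱.nonunits :=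
    fun hx' hy' => ssm_tp_nonunits_mul 𝒱 hx' hy'
  have hj2lam : s44mz_j2E L (N' * q) * (lg_lamE (N' * q) : ↥(lg_E L (N' * q))) ^ 2 ∈ 𝒱 :=
    𝒱.mul_mem _ _ hj (pow_mem hlam𝒱 2)
  have hlam1𝒱 : (lg_lamE (N' * q) : ↥(lg_E L (N' * q))) - 1 ∈ 𝒱 := 𝒱.sub_mem hlam𝒱 𝒱.one_mem
  have hlam : (⟨lg_lamE (N' * q), fc_x_mem_chart _⟩ :
      ↥(fc_chart ↥O ({lg_lamE (N' * q)} : Set ↥(lg_E L (N' * q))))) ∉ 𝔫 := by
    intro hmem
    rw [h𝔫eq] at hmem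
    have hm : (lg_lamE (N' * q) : ↥(lg_E L (N' * q))) ∈ 𝒱.nonunits := hmem
    refine hkey _ hm ?_ ?_
    · have e : (lg_lamE (N' * q) : ↥(lg_E L (N' * q))) ^ 2 - lg_lamE (N' * q) + 1 - 1 =
          lg_lamE (N' * q) * ((lg_lamE (N' * q) : ↥(lg_E L (N' * q))) - 1) := by ring
      rw [e]
      exact hmulR hm hlam1𝒱
    · have e : s44mz_j2E L (N' * q) * (lg_lamE (N' * q) : ↥(lg_E L (N' * q))) ^ 2 *
          ((lg_lamE (N' * q) : ↥(lg_E L (N' * q))) - 1) ^ 2 =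
          lg_lamE (N' * q) * (s44mz_j2E L (N' * q) * lg_lamE (N' * q) *
            ((lg_lamE (N' * q) : ↥(lg_E L (N' * q))) - 1) ^ 2) := by ring
      rw [e]
      exact hmulR hm (𝒱.mul_mem _ _ (𝒱.mul_mem _ _ hj hlam𝒱) (pow_mem hlam1𝒱 2))
  have hlam1 : (⟨lg_lamE (N' * q), fc_x_mem_chart _⟩ :
      ↥(fc_chart ↥O ({lg_lamE (N' * q)} : Set ↥(lg_E L (N' * q))))) - 1 ∉ 𝔫 := by
    intro hmem
    rw [h𝔫eq] at hmem
    have hm : (lg_lamE (N' * q) : ↥(lg_E L (N' * q))) - 1 ∈ 𝒱.nonunits := hmem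
    refine hkey _ hm ?_ ?_
    · have e : (lg_lamE (N' * q) : ↥(lg_E L (N' * q))) ^ 2 - lg_lamE (N' * q) + 1 - 1 =
          ((lg_lamE (N' * q) : ↥(lg_E L (N' * q))) - 1) * lg_lamE (N' * q) := by ring
      rw [e]
      exact hmulR hm hlam𝒱
    · have e : s44mz_j2E L (N' * q) * (lg_lamE (N' * q) : ↥(lg_E L (N' * q))) ^ 2 *
          ((lg_lamE (N' * q) : ↥(lg_E L (N' * q))) - 1) ^ 2 =
          ((lg_lamE (N' * q) : ↥(lg_E L (N' * q))) - 1) *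
            (s44mz_j2E L (N' * q) * (lg_lamE (N' * q) : ↥(lg_E L (N' * q))) ^ 2 *
              ((lg_lamE (N' * q) : ↥(lg_E L (N' * q))) - 1)) := by ring
      rw [e]
      exact hmulR hm (𝒱.mul_mem _ _ hj2lam hlam1𝒱)
  exact m59yus_smooth_leg O hπ N' q hq2 hqN' hprime 𝔫 h1 h2
    (s44us_j2_of_lam O (N' * q) 𝔫 hlam hlam1) U1 hU1 hev hV1

end Legendre

end Fermat.Agent.M59
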