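import Fermat.Agent.S44.HeckeRes.EisInst
import Mathlib
import Fermat.Agent.M59.TTwin.UnitRed
import Fermat.Agent.S44.HeckeRes.AbsEis
import Fermat.Agent.M59.TTwin.Defs2

/-!
M59 / TTwin / EisInst (helper11, ruling #48): class (T) twin for Sink A.
Generated from `Fermat/Agent/S44/HeckeRes/EisInst.lean` on main: the weight-12 unit `Δ(z)/Δ(pz)` is replaced by the
weight-4 level-2 unit `u_F = F(z)/F(pz)`, `F = E₄(z) - E₄(2z)`; the constant `12` becomes `4`;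
`5 ≤ p` becomes `p ≠ 2` together with `2 ∣ M`.  Prefix `m59y…_`.
-/

set_option autoImplicit false
set_option linter.unusedSectionVars false
set_option linter.unusedVariables false
set_option linter.style.haveILetI false
set_option synthInstance.maxHeartbeats 400000
set_option maxHeartbeats 1000000

noncomputable section

namespace Fermat.Agent.M59

open Fermat.Agent.S44

open ModularCurve AlgebraicCurve IntermediateField IsLocalRing Module
open Fermat.Agent.JT3 Fermat.Agent.SS Fermat.Agent.S35 Fermat.Agent.S24 Fermat.Agent.S28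
open Fermat.Agent.MZ

local notation "Qb" => AlgebraicClosure ℚ

section Eis

variable (A : ValuationSubring Qb) {p : ℕ} [hp : Fact p.Prime] (hA : A.LiesOverPrime p)
  (M : ℕ) [NeZero M] [NeZero p] [NeZero (M * p)] (hpM : ¬ p ∣ M) (h2 : 2 ∣ M)

/-- **(U-RED), existence**: `m59yhu_ubar` is the reduction of the modular unit in the sense of
`Res/Defs2.lean`. -/
theorem m59yhu_isUbar : m59ye_IsUbar A M p (m59yhu_ubar A hA (rfl : M * p = M * p) hpM h2) :=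
  ⟨m59yhu_U p (M * p) (m59yhu_dvd rfl h2), m59yhu_coe_U p (M * p) (m59yhu_dvd rfl h2),
    (m59yhu_UW A hA (rfl : M * p = M * p) h2).2, rfl⟩

include hA hpM h2 in
theorem m59yhu_exists_isUbar : ∃ fb, m59ye_IsUbar A M p fb := ⟨_, m59yhu_isUbar A hA M hpM h2⟩

theorem m59yhu_ubar_eq : m59ye_ubar A M p = m59yhu_ubar A hA (rfl : M * p = M * p) hpM h2 :=
  m59ye_ubar_eq A M p (m59yhu_isUbar A hA M hpM h2)

include hA hpM h2 in
theorem m59yhu_e_ubar_ne_zero : m59ye_ubar A M p ≠ 0 := by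
  rw [m59yhu_ubar_eq A hA M hpM h2]
  exact m59yhu_ubar_ne_zero A hA rfl hpM h2

variable (ℓ : ℕ) [NeZero ℓ]

include hA hpM h2 in
/-- **(E3-EIS), instance** (general `SS` of non-cuspidal places on which `ord ū ≢ 0`, and
`p ∣ ord ū` at the non-cuspidal places off `SS`; `kk = (ord ū mod p)⁻¹`):
`B_ℓ (1/kk) = (ℓ + 1) (1/kk)`, given (U-T). -/
theorem m59yhu_BEis_gen (hℓ : ℓ.Prime) (hℓN : ¬ ℓ ∣ M * p)
    [HasPrincipalDivisors (ResidueField ↥A) ↥(modularFunctionFieldFullC (ResidueField ↥A) (M * ℓ))]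
    (hφ : (mzrh_beC (ResidueField ↥A) M ℓ).toRingHom.IsIntegral)
    (hψ : (mzrh_alC (ResidueField ↥A) M ℓ).toRingHom.IsIntegral)
    (hT : s35pe_normAlong (heckeAlphaBar Qb (M * p) ℓ)
      (heckeBetaBar Qb (M * p) ℓ (m59yhu_U p (M * p) (m59yhu_dvd rfl h2))) =
        (m59yhu_U p (M * p) (m59yhu_dvd rfl h2)) ^ (ℓ + 1))
    (SS : Set (Place (ResidueField ↥A) ↥(modularFunctionFieldFullC (ResidueField ↥A) M)))
    (hSS : ∀ Q ∈ SS, jcr_j (k := ResidueField ↥A) M ∈ Q.toValuationSubring)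
    (hne : ∀ Q ∈ SS, m59ye_ordU A M p Q ≠ 0)
    (hoff : ∀ Q : Place (ResidueField ↥A) ↥(modularFunctionFieldFullC (ResidueField ↥A) M),
      jcr_j (k := ResidueField ↥A) M ∈ Q.toValuationSubring → Q ∉ SS →
        (p : ℤ) ∣ Q.ord (m59ye_ubar A M p))
    (kk : ↥SS → ZMod p) (hkk : ∀ Q : ↥SS, kk Q = (m59ye_ordU A M p Q.1)⁻¹) :
    s44he_B (mzrh_beC (ResidueField ↥A) M ℓ) (mzrh_alC (ResidueField ↥A) M ℓ) hφ hψ p SS
        (fun Q => (kk Q)⁻¹) =
      (((ℓ : ℕ) : ZMod p) + 1) • fun Q => (kk Q)⁻¹ := by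
  haveI : CharP (ResidueField ↥A) p := jcr_charP A hA
  haveI : IsAlgClosed (ResidueField ↥A) := jcr_isAlgClosed A
  have hℓp : ℓ ≠ p := fun h => hℓN (h ▸ dvd_mul_left ℓ M)
  have hpℓ : ¬ p ∣ ℓ := fun h => hℓp ((Nat.prime_dvd_prime_iff_eq hp.out hℓ).mp h).symm
  have hℓM : ¬ ℓ ∣ M := fun h => hℓN (h.mul_right p)
  have hpMℓ : ¬ p ∣ M * ℓ := fun h => (hp.out.dvd_mul.mp h).elim hpM hpℓ
  obtain ⟨_, _, _, hfin, _, hN⟩ := s44hd_heckeInputsC A hA M ℓ hpM hpℓ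
  haveI hPD : HasPrincipalDivisors (ResidueField ↥A)
      ↥(modularFunctionFieldFullC (ResidueField ↥A) M) :=
    rt_hasPrincipalDivisors (jcr_isSepGen (k := ResidueField ↥A) M hpM
      (vx_rho p (ResidueField ↥A)))
  have hub : m59ye_ubar A M p ≠ 0 := m59yhu_e_ubar_ne_zero A hA M hpM h2
  obtain ⟨D, hD, -⟩ := hPD.exists_divisor (m59ye_ubar A M p) hub
  have hdeg := s44hd_finrank_alC A hA M ℓ hℓ hℓM hpM hpMℓ
  have h1 : ((ℓ : ℕ) : ZMod p) + 1 = ((ℓ + 1 : ℕ) : ZMod p) := by push_cast; rfl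
  rw [h1]
  refine s44he_B_eis_of_unit (mzrh_beC (ResidueField ↥A) M ℓ) (mzrh_alC (ResidueField ↥A) M ℓ)
    hφ hψ p SS hfin hN kk (ℓ + 1) hub hD ?_ 1 one_ne_zero ?_ ?_
  · intro Q
    rw [m59yhu_ubar_eq A hA M hpM h2]
    exact m59yhu_ord_hecke A hA rfl hpM h2 ℓ hpMℓ hℓ hℓN hdeg hT Q.1
  · intro Q
    rw [hkk Q]
    exact inv_mul_cancel₀ (hne Q.1 Q.2)
  · intro w hw hw'
    refine hoff _ ?_ hw'
    have h2 : mzrh_alC (ResidueField ↥A) M ℓ (jcr_j (k := ResidueField ↥A) M) ∈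
        w.toValuationSubring := hSS _ hw
    show mzrh_beC (ResidueField ↥A) M ℓ (jcr_j (k := ResidueField ↥A) M) ∈ w.toValuationSubring
    exact s44hu_noncusp (ResidueField ↥A) (vx_rho p (ResidueField ↥A)) M ℓ hpℓ
      w.toValuationSubring w.algebraMap_mem' h2

include hA h2 in
/-- **(E3-EIS), instance** for `Sg = s44e_Sg` (the supersingular places), `k = m59ye_k2`. -/
theorem m59yhu_BEis (hℓ : ℓ.Prime) (hℓN : ¬ ℓ ∣ M * p)
    [HasPrincipalDivisors (ResidueField ↥A) ↥(modularFunctionFieldFullC (ResidueField ↥A) (M * ℓ))]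
    (hφ : (mzrh_beC (ResidueField ↥A) M ℓ).toRingHom.IsIntegral)
    (hψ : (mzrh_alC (ResidueField ↥A) M ℓ).toRingHom.IsIntegral)
    (hT : s35pe_normAlong (heckeAlphaBar Qb (M * p) ℓ)
      (heckeBetaBar Qb (M * p) ℓ (m59yhu_U p (M * p) (m59yhu_dvd rfl h2))) =
        (m59yhu_U p (M * p) (m59yhu_dvd rfl h2)) ^ (ℓ + 1))
    (hne : ∀ Q : Place (ResidueField ↥A) ↥(modularFunctionFieldFullC (ResidueField ↥A) M),
      s44e_IsSS A M p hp.out hpM Q → m59ye_ordU A M p Q ≠ 0)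
    (hoff : ∀ Q : Place (ResidueField ↥A) ↥(modularFunctionFieldFullC (ResidueField ↥A) M),
      jcr_j (k := ResidueField ↥A) M ∈ Q.toValuationSubring → ¬ s44e_IsSS A M p hp.out hpM Q →
        (p : ℤ) ∣ Q.ord (m59ye_ubar A M p)) :
    s44he_B (mzrh_beC (ResidueField ↥A) M ℓ) (mzrh_alC (ResidueField ↥A) M ℓ) hφ hψ p
        {Q | s44e_IsSS A M p hp.out hpM Q}
        (fun i => (m59ye_k2 A M p hp.out hpM i)⁻¹) =
      (((ℓ : ℕ) : ZMod p) + 1) • fun i => (m59ye_k2 A M p hp.out hpM i)⁻¹ :=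
  m59yhu_BEis_gen A hA M hpM h2 ℓ hℓ hℓN hφ hψ hT {Q | s44e_IsSS A M p hp.out hpM Q}
    (fun Q hQ => hQ.1) hne hoff (fun i => m59ye_k2 A M p hp.out hpM i) (fun i => rfl)

end Eis

end Fermat.Agent.M59
end
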