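import Fermat.Agent.S44.HeckeRes.EisFinal
import Mathlib
import Fermat.Agent.M59.TTwin.EisInst
import Fermat.Agent.M59.TTwin.UnitDef

/-!
M59 / TTwin / EisFinal (helper11, ruling #48): class (T) twin for Sink A.
Generated from `Fermat/Agent/S44/HeckeRes/EisFinal.lean` on main: the weight-12 unit `Δ(z)/Δ(pz)` is replaced by the
weight-4 level-2 unit `u_F = F(z)/F(pz)`, `F = E₄(z) - E₄(2z)`; the constant `12` becomes `4`;
`5 ≤ p` becomes `p ≠ 2` together with `2 ∣ M`.  Prefix `m59y…_`.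
-/

set_option autoImplicit false
set_option linter.unusedSectionVars false
set_option linter.unusedVariables false
set_option linter.style.haveILetI false
set_option synthInstance.maxHeartbeats 400000
set_option maxHeartbeats 1000000

noncomputable section

namespace Fermat.Agent.M59

open Fermat.Agent.S44

open ModularCurve AlgebraicCurve IntermediateField IsLocalRing Module
open Fermat.Agent.JT3 Fermat.Agent.SS Fermat.Agent.S35 Fermat.Agent.S24 Fermat.Agent.S28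
open Fermat.Agent.MZ

local notation "Qb" => AlgebraicClosure ℚ

section EisFinal

variable (A : ValuationSubring Qb) {p : ℕ} [hp : Fact p.Prime] (hA : A.LiesOverPrime p)
  (M : ℕ) [NeZero M] [NeZero p] [NeZero (M * p)] (hpM : ¬ p ∣ M) (h2 : 2 ∣ M) (ℓ : ℕ) [NeZero ℓ]

include hA h2 in
/-- **(E3-EIS)** for `Sg = s44e_Sg`, `k = m59ye_k2`; (U-T) plugged in. -/
theorem m59yhu_BEis_final (hℓ : ℓ.Prime) (hℓN : ¬ ℓ ∣ M * p)
    [HasPrincipalDivisors (ResidueField ↥A) ↥(modularFunctionFieldFullC (ResidueField ↥A) (M * ℓ))]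
    (hφ : (mzrh_beC (ResidueField ↥A) M ℓ).toRingHom.IsIntegral)
    (hψ : (mzrh_alC (ResidueField ↥A) M ℓ).toRingHom.IsIntegral)
    (hne : ∀ Q : Place (ResidueField ↥A) ↥(modularFunctionFieldFullC (ResidueField ↥A) M),
      s44e_IsSS A M p hp.out hpM Q → m59ye_ordU A M p Q ≠ 0)
    (hoff : ∀ Q : Place (ResidueField ↥A) ↥(modularFunctionFieldFullC (ResidueField ↥A) M),
      jcr_j (k := ResidueField ↥A) M ∈ Q.toValuationSubring → ¬ s44e_IsSS A M p hp.out hpM Q →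
        (p : ℤ) ∣ Q.ord (m59ye_ubar A M p)) :
    s44he_B (mzrh_beC (ResidueField ↥A) M ℓ) (mzrh_alC (ResidueField ↥A) M ℓ) hφ hψ p
        {Q | s44e_IsSS A M p hp.out hpM Q}
        (fun i => (m59ye_k2 A M p hp.out hpM i)⁻¹) =
      (((ℓ : ℕ) : ZMod p) + 1) • fun i => (m59ye_k2 A M p hp.out hpM i)⁻¹ :=
  m59yhu_BEis A hA M hpM h2 ℓ hℓ hℓN hφ hψ
    (m59yhu_unit_hecke p (M * p) (m59yhu_dvd rfl h2) ℓ hℓ hℓN) hne hoff

include hA h2 in
/-- **(E3-EIS)** from the exact divisor of `ū` at the non-cuspidal places, `p ≥ 5`. -/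
theorem m59yhu_BEis_of_div (hp2 : p ≠ 2) (hℓ : ℓ.Prime) (hℓN : ¬ ℓ ∣ M * p)
    [HasPrincipalDivisors (ResidueField ↥A) ↥(modularFunctionFieldFullC (ResidueField ↥A) (M * ℓ))]
    (hφ : (mzrh_beC (ResidueField ↥A) M ℓ).toRingHom.IsIntegral)
    (hψ : (mzrh_alC (ResidueField ↥A) M ℓ).toRingHom.IsIntegral)
    (ha : ∀ Q : Place (ResidueField ↥A) ↥(modularFunctionFieldFullC (ResidueField ↥A) M),
      s44e_IsSS A M p hp.out hpM Q → ∃ T : ℤ, T * Q.ord (m59ye_ubar A M p) = 4)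
    (hb : ∀ Q : Place (ResidueField ↥A) ↥(modularFunctionFieldFullC (ResidueField ↥A) M),
      jcr_j (k := ResidueField ↥A) M ∈ Q.toValuationSubring → ¬ s44e_IsSS A M p hp.out hpM Q →
        Q.ord (m59ye_ubar A M p) = 0) :
    s44he_B (mzrh_beC (ResidueField ↥A) M ℓ) (mzrh_alC (ResidueField ↥A) M ℓ) hφ hψ p
        {Q | s44e_IsSS A M p hp.out hpM Q}
        (fun i => (m59ye_k2 A M p hp.out hpM i)⁻¹) =
      (((ℓ : ℕ) : ZMod p) + 1) • fun i => (m59ye_k2 A M p hp.out hpM i)⁻¹ := by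
  have h12 : ¬ (p : ℤ) ∣ 4 := by
    intro h
    have h1 : p ∣ 2 ^ 2 := by exact_mod_cast h
    have h3 : p ∣ 2 := hp.out.dvd_of_dvd_pow h1
    exact hp2 ((Nat.prime_dvd_prime_iff_eq hp.out Nat.prime_two).mp h3)
  refine m59yhu_BEis_final A hA M hpM h2 ℓ hℓ hℓN hφ hψ (fun Q hQ => ?_) (fun Q hj hQ => ?_)
  · obtain ⟨T, hT⟩ := ha Q hQ
    exact m59ye_ordU_ne_zero A M p hp.out Q h12 hT
  · rw [hb Q hj hQ]
    exact dvd_zero _

/-- `k_ne` for `m59ye_k2` from `(a')`, `p ≥ 5`. -/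
theorem m59yhu_k2_ne (hp2 : p ≠ 2)
    (ha : ∀ Q : Place (ResidueField ↥A) ↥(modularFunctionFieldFullC (ResidueField ↥A) M),
      s44e_IsSS A M p hp.out hpM Q → ∃ T : ℤ, T * Q.ord (m59ye_ubar A M p) = 4)
    (i : s44e_Sg A M p hp.out hpM) : m59ye_k2 A M p hp.out hpM i ≠ 0 := by
  have h12 : ¬ (p : ℤ) ∣ 4 := by
    intro h
    have h1 : p ∣ 2 ^ 2 := by exact_mod_cast h
    have h3 : p ∣ 2 := hp.out.dvd_of_dvd_pow h1
    exact hp2 ((Nat.prime_dvd_prime_iff_eq hp.out Nat.prime_two).mp h3)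
  obtain ⟨T, hT⟩ := ha i.1 i.2
  exact m59ye_k2_ne_zero A M p hp.out hpM i (m59ye_ordU_ne_zero A M p hp.out i.1 h12 hT)

end EisFinal

end Fermat.Agent.M59

end
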