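import Fermat.Agent.S44.HeckeRes.Final
import Mathlib
import Fermat.Agent.M59.TTwin.EisFinal
import Fermat.Agent.S44.Res.Main
import Fermat.Agent.S44.Big.Seams

/-!
M59 / TTwin / Final (helper11, ruling #48): class (T) twin for Sink A.
Generated from `Fermat/Agent/S44/HeckeRes/Final.lean` on main: the weight-12 unit `Δ(z)/Δ(pz)` is replaced by the
weight-4 level-2 unit `u_F = F(z)/F(pz)`, `F = E₄(z) - E₄(2z)`; the constant `12` becomes `4`;
`5 ≤ p` becomes `p ≠ 2` together with `2 ∣ M`.  Prefix `m59y…_`.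
-/

set_option autoImplicit false
set_option synthInstance.maxHeartbeats 400000
set_option maxHeartbeats 3200000
set_option linter.unusedSectionVars false
set_option linter.unusedVariables false
set_option linter.style.haveILetI false
set_option synthInstance.maxHeartbeats 400000
set_option maxHeartbeats 1000000

noncomputable section

namespace Fermat.Agent.M59

open Fermat.Agent.S44

open ModularCurve AlgebraicCurve IntermediateField IsLocalRing Module
open Fermat.Agent.JT3 Fermat.Agent.SS Fermat.Agent.S35 Fermat.Agent.S24 Fermat.Agent.S28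
open Fermat.Agent.MZ

local notation "Qb" => AlgebraicClosure ℚ

section General

variable (A : ValuationSubring Qb) {p : ℕ} [hp : Fact p.Prime] (hA : A.LiesOverPrime p)
  (M : ℕ) [NeZero M] [NeZero p] [NeZero (M * p)] (hpM : ¬ p ∣ M)

/-- **[E3] (R3) B-EIS** for `k = m59ye_k2`, `B = s44hz_B`, from the exact divisor of `ū` at the
non-cuspidal places ((U-DIV), new form), `p ≥ 5`. -/
theorem m59yhz_BEis (hp2 : p ≠ 2) (hev : 2 ∣ M)
    (ha : ∀ Q : Place (ResidueField ↥A) ↥(modularFunctionFieldFullC (ResidueField ↥A) M),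
      s44e_IsSS A M p hp.out hpM Q → ∃ T : ℤ, T * Q.ord (m59ye_ubar A M p) = 4)
    (hb : ∀ Q : Place (ResidueField ↥A) ↥(modularFunctionFieldFullC (ResidueField ↥A) M),
      jcr_j (k := ResidueField ↥A) M ∈ Q.toValuationSubring → ¬ s44e_IsSS A M p hp.out hpM Q →
        Q.ord (m59ye_ubar A M p) = 0)
    (ℓ : Nat.Primes) (hℓN : ¬ (ℓ : ℕ) ∣ M * p) :
    s44hz_B A hA M hpM ℓ (fun i => (m59ye_k2 A M p hp.out hpM i)⁻¹) =
      (((ℓ : ℕ) : ZMod p) + 1) • fun i => (m59ye_k2 A M p hp.out hpM i)⁻¹ := by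
  haveI : NeZero (ℓ : ℕ) := ⟨ℓ.2.ne_zero⟩
  have hpℓ : ¬ p ∣ (ℓ : ℕ) := s44hz_not_dvd M ℓ.2 hℓN
  haveI hPD' := s44hd_hasPrincipalDivisorsC A hA M (ℓ : ℕ) hpM hpℓ
  rw [s44hz_B_eq A hA M hpM ℓ hℓN]
  exact m59yhu_BEis_of_div A hA M hpM hev (ℓ : ℕ) hp2 ℓ.2 hℓN _ _ ha hb

end General

end Fermat.Agent.M59
end
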