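import Fermat.Agent.S44.Mono.MainSlope
import Mathlib
import Fermat.Agent.M59.TTwin.UDivDich
import Fermat.Agent.S44.Res.Glue
import Fermat.Agent.S44.Big.Seams

/-!
M59 / TTwin / MainSlope (helper11, ruling #48): class (T) twin for Sink A.
Generated from `Fermat/Agent/S44/Mono/MainSlope.lean` on main: the weight-12 unit `Δ(z)/Δ(pz)` is replaced by the
weight-4 level-2 unit `u_F = F(z)/F(pz)`, `F = E₄(z) - E₄(2z)`; the constant `12` becomes `4`;
`5 ≤ p` becomes `p ≠ 2` together with `2 ∣ M`.  Prefix `m59y…_`.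
-/

set_option autoImplicit false
set_option synthInstance.maxHeartbeats 400000
set_option maxHeartbeats 3200000
set_option linter.unusedSectionVars false
set_option linter.style.haveILetI false
set_option linter.unusedVariables false

noncomputable section

namespace Fermat.Agent.M59

open Fermat.Agent.S44

open Polynomial ModularCurve AlgebraicCurve IntermediateField IsLocalRing
open Fermat.Agent.JT3 Fermat.Agent.SS Fermat.Agent.S35 Fermat.Agent.S24

/-! ### the slope step at two supersingular places -/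

section Pair

set_option synthInstance.maxHeartbeats 400000

variable (A : ValuationSubring s44_Qb) {p : ℕ} [hp : Fact p.Prime] (hA : A.LiesOverPrime p)
  (M : ℕ) [NeZero M] [NeZero p] [NeZero (M * p)] (hpM : ¬ p ∣ M)
  (L1 : IntermediateField ℚ s44_Qb)
  [IsDiscreteValuationRing ↥(A.comap (algebraMap L1 s44_Qb))]
  [CharP (ResidueField ↥(A.comap (algebraMap L1 s44_Qb))) p]
  {π : ↥(A.comap (algebraMap L1 s44_Qb))} (hπ : Irreducible π)

set_option hygiene false in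
local notation "O1" => ValuationSubring.comap A (algebraMap L1 s44_Qb)

variable (red : ↥(s44mz_VF O1 hπ M p) →+* ↥(s44e_FF A M))
  (hred : ∀ (x : ↥(s44mz_VF O1 hπ M p))
    (hb : ssm_al_iotaF L1 (M * p) (x : ↥(lg_F L1 (M * p))) ∈ s44pg_W A hA hp.out.ne_zero (M * p)),
      red x = s44rd_red A hA M hpM ⟨ssm_al_iotaF L1 (M * p) (x : ↥(lg_F L1 (M * p))), hb⟩)

include hred in
/-- `red U1 = ū` for every model `U1` of the modular unit. -/
theorem m59ymm_red_ubar (hev : 2 ∣ M) (U1 : ↥(s44mz_VF O1 hπ M p))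
    (hU1 : ssm_al_iotaF L1 (M * p) (U1 : ↥(lg_F L1 (M * p))) =
      m59yhu_U p (M * p) (m59yhu_dvd (rfl : M * p = M * p) hev)) :
    red U1 = m59ye_ubar A M p := by
  rw [hred U1 (m59yeu_model_mem A hA M hev L1 hU1)]
  exact m59yeu_red_model A hA M hpM hev L1 hU1 _

include hred in
/-- **the slope step at ONE supersingular place**: from the node dictionary
`ν (φ b) = T · ord_Q (red b)` on Gauss units and `ν (φ U1) = 12`:
`k2_Q · ν_Q(z) = ν (φ f1) / 12` in `ZMod p`. -/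
theorem m59ymm_k2_one (hp2 : p ≠ 2) (hev : 2 ∣ M) (i : s44e_Sg A M p hp.out hpM)
    (U1 : ↥(s44mz_VF O1 hπ M p))
    (hU1 : ssm_al_iotaF L1 (M * p) (U1 : ↥(lg_F L1 (M * p))) =
      m59yhu_U p (M * p) (m59yhu_dvd (rfl : M * p = M * p) hev))
    (hU1u : IsUnit U1)
    {z : JZero (M * p)} {f1 : ↥(s44mz_VF O1 hπ M p)} (hf1 : IsUnit f1)
    (hrep : s44f_Rep (M * p) p z (ssm_al_iotaF L1 (M * p) (f1 : ↥(lg_F L1 (M * p)))))
    {T : ℤ} {ν : ↥(lg_E L1 (M * p)) → ℤ}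
    (hν : ∀ b : ↥(s44mz_VF O1 hπ M p), IsUnit b →
      ν (lg_phiE (L := L1) (N := M * p) (b : ↥(lg_F L1 (M * p)))) = T * Place.ord i.1 (red b))
    (h12 : ν (lg_phiE (L := L1) (N := M * p) (U1 : ↥(lg_F L1 (M * p)))) = 4) :
    m59ye_k2 A M p hp.out hpM i * s44e_nu A M p hp.out hpM z i =
      ((ν (lg_phiE (L := L1) (N := M * p) (f1 : ↥(lg_F L1 (M * p)))) : ℤ) : ZMod p) *
        (((4 : ℤ) : ZMod p))⁻¹ := by
  have hmem : ∀ (b : modularFunctionFieldBar (M * p))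
      (h : gq_IsBdd ↥A s44_Qb (b : LaurentSeries s44_Qb)),
      gq_res ↥A s44_Qb ⟨(b : LaurentSeries s44_Qb), h⟩ ∈ lg_F (s44e_kA A) M :=
    fun b h => s44rd_res_mem A hA M hpM b.2 h
  have hFb := s44mm_fbar A hA M hpM L1 hπ red hred hf1 hrep
  have hUb := m59ymm_red_ubar A hA M hpM L1 hπ red hred hev U1 hU1
  have hc₀ : ¬ (p : ℤ) ∣ (4 : ℤ) := m59ye_not_dvd_twelve p hp.out hp2
  have hu : T * Place.ord i.1 (m59ye_ubar A M p) = 4 := by
    rw [← hUb, ← hν U1 hU1u, h12]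
  -- `ord_Q f̄_z ≡ ord_Q (red f1)`
  have hnu : s44e_nuAll A M p z i.1 = ((Place.ord i.1 (red f1) : ℤ) : ZMod p) :=
    s44e_nuAll_eq A hp.out hA M hmem hFb i.1
  have hV : T * Place.ord i.1 (s44e_fbar A M p z) ≡
      ν (lg_phiE (L := L1) (N := M * p) (f1 : ↥(lg_F L1 (M * p)))) [ZMOD (p : ℤ)] := by
    rw [hν f1 hf1]
    have h1 : ((Place.ord i.1 (s44e_fbar A M p z) : ℤ) : ZMod p) =
        ((Place.ord i.1 (red f1) : ℤ) : ZMod p) := by
      rw [← hnu, s44e_nuAll_def]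
    have h2 := (ZMod.intCast_eq_intCast_iff _ _ p).1 h1
    exact h2.mul_left T
  exact m59ye_k2_mul_of_slope A M p hp.out hpM i z hc₀ hu hV

include hred in
/-- **the slope step at TWO supersingular places** (`m59ye_k2_mul_of_slope ∘ (ND-main) ∘ (U-NODE)`):
`k2 i * ν_i(z) = k2 j * ν_j(z)` from the two node dictionaries, `ν (φ U1) = 12 = ν' (φ U1)` and the
two-node congruence `ν (φ f1) ≡ ν' (φ f1) mod p`. -/
theorem m59ymm_k2_pair (hp2 : p ≠ 2) (hev : 2 ∣ M) (i j : s44e_Sg A M p hp.out hpM)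
    (U1 : ↥(s44mz_VF O1 hπ M p))
    (hU1 : ssm_al_iotaF L1 (M * p) (U1 : ↥(lg_F L1 (M * p))) =
      m59yhu_U p (M * p) (m59yhu_dvd (rfl : M * p = M * p) hev))
    (hU1u : IsUnit U1)
    {z : JZero (M * p)} {f1 : ↥(s44mz_VF O1 hπ M p)} (hf1 : IsUnit f1)
    (hrep : s44f_Rep (M * p) p z (ssm_al_iotaF L1 (M * p) (f1 : ↥(lg_F L1 (M * p)))))
    {T T' : ℤ} {ν ν' : ↥(lg_E L1 (M * p)) → ℤ}
    (hν : ∀ b : ↥(s44mz_VF O1 hπ M p), IsUnit b →
      ν (lg_phiE (L := L1) (N := M * p) (b : ↥(lg_F L1 (M * p)))) = T * Place.ord i.1 (red b))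
    (hν' : ∀ b : ↥(s44mz_VF O1 hπ M p), IsUnit b →
      ν' (lg_phiE (L := L1) (N := M * p) (b : ↥(lg_F L1 (M * p)))) = T' * Place.ord j.1 (red b))
    (h12 : ν (lg_phiE (L := L1) (N := M * p) (U1 : ↥(lg_F L1 (M * p)))) = 4)
    (h12' : ν' (lg_phiE (L := L1) (N := M * p) (U1 : ↥(lg_F L1 (M * p)))) = 4)
    (hpair : ν (lg_phiE (L := L1) (N := M * p) (f1 : ↥(lg_F L1 (M * p)))) ≡
      ν' (lg_phiE (L := L1) (N := M * p) (f1 : ↥(lg_F L1 (M * p)))) [ZMOD (p : ℤ)]) :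
    m59ye_k2 A M p hp.out hpM i * s44e_nu A M p hp.out hpM z i =
      m59ye_k2 A M p hp.out hpM j * s44e_nu A M p hp.out hpM z j := by
  rw [m59ymm_k2_one A hA M hpM L1 hπ red hred hp2 hev i U1 hU1 hU1u hf1 hrep hν h12,
    m59ymm_k2_one A hA M hpM L1 hπ red hred hp2 hev j U1 hU1 hU1u hf1 hrep hν' h12',
    (ZMod.intCast_eq_intCast_iff _ _ p).2 hpair]

end Pair

end Fermat.Agent.M59
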