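import Fermat.Agent.S44.Mono.MonoEnd
import Mathlib
import Fermat.Agent.S44.Res.Main
import Fermat.Agent.M59.TTwin.UDiv
import Fermat.Agent.S44.Big.Seams

/-!
M59 / TTwin / MonoEnd (helper11, ruling #48): class (T) twin for Sink A.
Generated from `Fermat/Agent/S44/Mono/MonoEnd.lean` on main: the weight-12 unit `Δ(z)/Δ(pz)` is replaced by the
weight-4 level-2 unit `u_F = F(z)/F(pz)`, `F = E₄(z) - E₄(2z)`; the constant `12` becomes `4`;
`5 ≤ p` becomes `p ≠ 2` together with `2 ∣ M`.  Prefix `m59y…_`.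
-/

set_option autoImplicit false
set_option synthInstance.maxHeartbeats 400000
set_option maxHeartbeats 3200000
set_option linter.unusedSectionVars false
set_option linter.style.haveILetI false

noncomputable section

namespace Fermat.Agent.M59

open Fermat.Agent.S44

open ModularCurve AlgebraicCurve IsLocalRing Fermat.Agent.JT3 Fermat.Agent.S35 Fermat.Agent.SS
  Fermat.Agent.S24 Fermat.Agent.SS2

local notation "Qb" => AlgebraicClosure ℚ

section General

variable (A : ValuationSubring Qb) {p : ℕ} [hp : Fact p.Prime] (hA : A.LiesOverPrime p)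
  (M : ℕ) [NeZero M] [NeZero p] [NeZero (M * p)] (hpM : ¬ p ∣ M)

include hA hpM in
/-- **the pairwise form of mono.** -/
theorem m59ymend_pair (hp2 : p ≠ 2) {z : JZero (M * p)} (hz : p • z = 0)
    (i i' : s44e_Sg A M p hp.out hpM) {fb : s44e_FF A M} (h : s44e_Fbar A M p z fb)
    {T T' cV cV' : ℤ}
    (hu : T * Place.ord i.1 (m59ye_ubar A M p) = 4)
    (hu' : T' * Place.ord i'.1 (m59ye_ubar A M p) = 4)
    (hV : T * Place.ord i.1 fb ≡ cV [ZMOD (p : ℤ)])
    (hV' : T' * Place.ord i'.1 fb ≡ cV' [ZMOD (p : ℤ)])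
    (hc : cV ≡ cV' [ZMOD (p : ℤ)]) :
    m59ye_k2 A M p hp.out hpM i * s44e_nu A M p hp.out hpM z i =
      m59ye_k2 A M p hp.out hpM i' * s44e_nu A M p hp.out hpM z i' := by
  have h12 : ¬ (p : ℤ) ∣ 4 := m59ye_not_dvd_twelve p hp.out hp2
  have e1 := m59ye_k2_mul_of_slope A M p hp.out hpM i z h12 hu
    ((s44mend_ord_congr A hA M hpM hz h i.1 T).trans hV)
  have e2 := m59ye_k2_mul_of_slope A M p hp.out hpM i' z h12 hu'
    ((s44mend_ord_congr A hA M hpM hz h i'.1 T').trans hV')
  rw [e1, e2, (ZMod.intCast_eq_intCast_iff _ _ p).2 hc]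

end General

end Fermat.Agent.M59
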