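import Fermat.Agent.M59.DTwin.S44.KummerUnif
import Mathlib
import Fermat.Agent.S44.Mono.LegPair
import Fermat.Agent.S44.Mono.LegPairTriv
import Fermat.Agent.M59.TTwin.MainND
import Fermat.Agent.S44.Mono.MainAux
import Fermat.Agent.S44.Mono.MainNorm
import Fermat.Agent.M59.TTwin.MainSlope
import Fermat.Agent.M59.TTwin.MonoEnd
import Fermat.Agent.S44.Mono.InertGlue
import Fermat.Agent.S44.Mono.CIInst
import Fermat.Agent.S44.Mono.CIDiv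
import Fermat.Agent.S44.Mono.DataGlue
import Fermat.Agent.S44.Mono.KummerUnif
import Fermat.Agent.S44.Tor.NF

/-!
M59 / TTwin / MainPair (helper11, ruling #48): class (T) twin for Sink A.
Generated from `Fermat/Agent/S44/Mono/MainPair.lean` on main: the weight-12 unit `Δ(z)/Δ(pz)` is replaced by the
weight-4 level-2 unit `u_F = F(z)/F(pz)`, `F = E₄(z) - E₄(2z)`; the constant `12` becomes `4`;
`5 ≤ p` becomes `p ≠ 2` together with `2 ∣ M`.  Prefix `m59y…_`.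
-/

set_option autoImplicit false
set_option synthInstance.maxHeartbeats 400000
set_option maxHeartbeats 3200000
set_option linter.unusedSectionVars false
set_option linter.style.haveILetI false
set_option linter.unusedVariables false

noncomputable section

namespace Fermat.Agent.M59

open Fermat.Agent.S44

open Polynomial ModularCurve AlgebraicCurve IntermediateField IsLocalRing
open Fermat.Agent.JT3 Fermat.Agent.SS Fermat.Agent.S35 Fermat.Agent.S24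

local notation "Qb" => AlgebraicClosure ℚ

section Pair

set_option synthInstance.maxHeartbeats 400000

variable (A : ValuationSubring Qb) {p : ℕ} [hp : Fact p.Prime] (hA : A.LiesOverPrime p)
  (M : ℕ) [NeZero M] [NeZero p] [NeZero (M * p)] (hpM : ¬ p ∣ M) (hp2 : ¬ 2 ∣ p) (hpn2 : p ≠ 2) (hev : 2 ∣ M)
  (L' : IntermediateField ℚ Qb) [Normal ℚ L'] [NumberField ↥L']
  [IsDiscreteValuationRing ↥(A.comap (algebraMap ↥L' Qb))]
  [CharP (ResidueField ↥(A.comap (algebraMap ↥L' Qb))) p]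
  {π : ↥(A.comap (algebraMap ↥L' Qb))} (hπ : Irreducible π)

attribute [local instance] s44kq_lsAction

include hpn2 hev in
set_option maxHeartbeats 3200000 in
/-- **the pairwise slope equality at one number field, `X ≠ 0`.** -/
theorem m59yh2_pair_nf (ζM : ↥L') (hζM : IsPrimitiveRoot ζM M)
    {X V : JZero (M * p)} (hV : p • V = 0) (hX0 : X ≠ 0)
    {ζ1 β1 : ↥L'} (hζ1 : IsPrimitiveRoot ζ1 p)
    (hβ1 : algebraMap ↥L' Qb β1 ∈ A) (hβ1i : (algebraMap ↥L' Qb β1)⁻¹ ∈ A) (hβ10 : β1 ≠ 0)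
    {fx1 fv1 : ↥(lg_F ↥L' (M * p))}
    (hrepX : s44f_Rep (M * p) p X (ssm_al_iotaF ↥L' (M * p) fx1))
    (hrepV : s44f_Rep (M * p) p V (ssm_al_iotaF ↥L' (M * p) fv1))
    {y c : LaurentSeries ↥L'} {Lb : Subfield (LaurentSeries ↥L')} {τ : ↥Lb ≃+* ↥Lb}
    {g Φ h : ↥Lb}
    (hy : y ^ p = lg_phi ↥L' (fx1 : LaurentSeries ↥L'))
    (Pk : s44kq_Pack (G := ↥(s44mn_G (A.inertiaSubgroupIn ℚ) L'))
      (lg_E ↥L' (M * p)).toSubfield p
      (algebraMap ↥L' (LaurentSeries ↥L') ζ1) y (lg_phi ↥L' (fv1 : LaurentSeries ↥L'))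
      (algebraMap ↥L' (LaurentSeries ↥L') β1) (s44kq_lc ↥L') Lb τ c g Φ h)
    (hratX : ∀ v : Place ↥L' ↥(lg_E ↥L' (M * p)),
      v.ord (lg_phiE (L := ↥L') (N := M * p) fx1) ≠ 0 → ss_RatPlace v)
    (hglobX : ∀ (σ0 : ↥(A.comap (algebraMap ↥L' Qb)) ≃+* ↥(A.comap (algebraMap ↥L' Qb)))
      (e k : ℕ) (ζ : ↥(A.comap (algebraMap ↥L' Qb))) (_D : s44t_PData π σ0 p e k ζ),
      s44t_GlobForm π (lg_lamE (L := ↥L') (M * p)) p (p * e + 1)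
        (lg_phiE (L := ↥L') (N := M * p) fx1))
    (hR : ∀ [Algebra ↥L' ↥Lb],
      (∀ c' : ↥L', ((algebraMap ↥L' ↥Lb c' : ↥Lb) : LaurentSeries ↥L') =
        algebraMap ↥L' (LaurentSeries ↥L') c') →
      (∀ v : Place ↥L' ↥Lb, v.ord Φ ≠ 0 → ss_RatPlace v) ∧
      ∀ (j : ℕ) (v : Place ↥L' ↥Lb), v.ord ((⇑τ)^[j] h) ≠ 0 → ss_RatPlace v)
    (i i' : s44e_Sg A M p hp.out hpM)
    (hND : m59yh2_NDAt A hA M hpM hp2 i.1 L' hπ)
    (hND' : m59yh2_NDAt A hA M hpM hp2 i'.1 L' hπ) :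
    m59ye_k2 A M p hp.out hpM i * s44e_nu A M p hp.out hpM V i =
      m59ye_k2 A M p hp.out hpM i' * s44e_nu A M p hp.out hpM V i' := by
  classical
  obtain ⟨𝔫, h𝔫, u, v, T, ν, h1, hU, hσu, ⟨huS, hν⟩, hdict, h12⟩ := hND
  obtain ⟨𝔫', h𝔫', u', v', T', ν', h1', hU', hσu', ⟨huS', hν'⟩, hdict', h12'⟩ := hND'
  haveI := h𝔫
  haveI := h𝔫'
  have hpp := hp.out
  -- the arithmetic data at `p`
  have hmem := lg_natCast_mem_maximalIdeal A hA ↥L'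
  have hpO : ((p : ℕ) : ↥L') ∈ (A.comap (algebraMap ↥L' Qb)).nonunits := by
    have h2 := ValuationSubring.coe_mem_nonunits_iff.2 hmem
    simpa using h2
  obtain ⟨e, D⟩ := s44t_pdata (A.comap (algebraMap ↥L' Qb)) hπ hp2 hpO (RingEquiv.refl ↥L')
    (fun z hz => hz) (fun z hz => hz) (ζ := ζ1) (k := 1) hζ1.pow_eq_one
    (hζ1.ne_one hpp.one_lt) (by simp)
  obtain ⟨w, hw⟩ := D.p_eq
  -- the inertia group
  have hin : ∀ γ : ↥(s44mn_G (A.inertiaSubgroupIn ℚ) L'),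
      ss_Inert (A.comap (algebraMap ↥L' Qb))
        (MulSemiringAction.toRingEquiv ↥(s44mn_G (A.inertiaSubgroupIn ℚ) L') ↥L' γ) :=
    fun γ x hx => s44mi_inert A L' γ.2 x hx
  have hbase : ∀ c : ↥L', c ≠ 0 →
      (∀ γ : ↥(s44mn_G (A.inertiaSubgroupIn ℚ) L'), γ • c = c) →
      ∃ (n : ℤ) (ω : (↥(A.comap (algebraMap ↥L' Qb)))ˣ),
        c = (π : ↥L') ^ ((((p - 1) * e : ℕ) : ℤ) * n) * (ω : ↥L') :=
    fun c hc hfix => s44mi_base p A hA L' hπ w.isUnit hw c hc (fun γ hγ => hfix ⟨γ, hγ⟩)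
  -- `hirr`
  have hirr : ∀ b ∈ lg_E ↥L' (M * p), b ^ p ≠
      ((lg_phiE (L := ↥L') (N := M * p) fx1 : ↥(lg_E ↥L' (M * p))) : LaurentSeries ↥L') :=
    m59kv_not_pth_power_E (M * p) two_ne_zero hpp (Dvd.dvd.mul_right hev p) hpn2
      (s44mn_not_pth_power (M * p) hpp.ne_zero hX0 L' hrepX)
  -- the divisors of `φ fx1`, `φ fv1`
  obtain ⟨hfx0, hordX⟩ := s44mci_ord_rep ↥L' (M * p) hrepX fx1 rfl
  obtain ⟨hfv0, hordV⟩ := s44mci_ord_rep ↥L' (M * p) hrepV fv1 rfl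
  letI := s44kz_algK Pk
  obtain ⟨hRΦ, hRh⟩ := hR (s44kz_algK_coe Pk)
  have hpair : ν (lg_phiE (L := ↥L') (N := M * p) fv1) ≡
      ν' (lg_phiE (L := ↥L') (N := M * p) fv1) [ZMOD (p : ℤ)] :=
    s44gl_pair ↥L' (A.comap (algebraMap ↥L' Qb)) hπ M p hp2 hpM ζM hζM hin D hbase
      (fx := lg_phiE (L := ↥L') (N := M * p) fx1) (fv := lg_phiE (L := ↥L') (N := M * p) fv1)
      hy Pk hirr hβ1 hβ1i hβ10 hfx0 hordX hratX (hglobX _ _ _ _ D) hfv0 hordV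
      (s44kz_algK_coe Pk) hRΦ hRh 𝔫 𝔫' h1 h1' hU hU' hσu hσu' ν ν' huS huS' hν hν'
  -- Gauss normalisation of `fv1`
  have hfv10 : fv1 ≠ 0 := by
    rintro rfl
    exact hfv0 (map_zero _)
  obtain ⟨n, hmemW, hunit⟩ := s44mm_exists_norm A M L' hπ fv1 hfv10
  have hrep := s44mm_rep_norm A M L' hπ n hrepV
  haveI := s44mci_leg_isAlg ↥L' (A.comap (algebraMap ↥L' Qb)) (M * p)
  haveI := s44mci_leg_noeth ↥L' (A.comap (algebraMap ↥L' Qb)) (M * p)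
  haveI := s44mci_leg_ic ↥L' (A.comap (algebraMap ↥L' Qb)) (M * p)
  haveI := ssl_loc_isNoetherianRing (F0 := ↥(lg_E ↥L' (M * p))) 𝔫
  haveI := ssl_loc_isLocalRing (F0 := ↥(lg_E ↥L' (M * p))) 𝔫
  haveI := ssl_loc_isNoetherianRing (F0 := ↥(lg_E ↥L' (M * p))) 𝔫'
  haveI := ssl_loc_isLocalRing (F0 := ↥(lg_E ↥L' (M * p))) 𝔫'
  have e1 := s44mm_nu_phi_norm A M L' hπ hν rfl hfv10 n
  have e1' := s44mm_nu_phi_norm A M L' hπ hν' rfl hfv10 n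
  have hFb := s44mm_fbar A hA M hpM L' hπ (s44nlr_red A hA M hpM L' hπ) (fun x hb => rfl)
    hunit hrep
  refine m59ymend_pair A hA M hpM hpn2 hV i i' hFb h12 h12'
    (cV := ν (lg_phiE (L := ↥L') (N := M * p)
      (algebraMap ↥L' ↥(lg_F ↥L' (M * p)) ((π : ↥(A.comap (algebraMap ↥L' Qb))) : ↥L') ^ n * fv1)))
    (cV' := ν' (lg_phiE (L := ↥L') (N := M * p)
      (algebraMap ↥L' ↥(lg_F ↥L' (M * p)) ((π : ↥(A.comap (algebraMap ↥L' Qb))) : ↥L') ^ n * fv1)))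
    ?_ ?_ ?_
  · rw [hdict _ hunit]
  · rw [hdict' _ hunit]
  · rw [e1, e1']
    exact hpair

include hpn2 hev in
set_option maxHeartbeats 3200000 in
/-- **the pairwise slope equality at one number field, `X = 0`.** -/
theorem m59yh2_pair_nf_triv (ζM : ↥L') (hζM : IsPrimitiveRoot ζM M)
    {V : JZero (M * p)} (hV : p • V = 0)
    {fv1 : ↥(lg_F ↥L' (M * p))}
    (hrepV : s44f_Rep (M * p) p V (ssm_al_iotaF ↥L' (M * p) fv1))
    {c : ↥L'} {g Φ : ↥(lg_E ↥L' (M * p))} (hc0 : c ≠ 0) (hg : g ≠ 0)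
    (hΦ : (Φ : LaurentSeries ↥L') = algebraMap ↥L' (LaurentSeries ↥L') c *
      lg_phi ↥L' (fv1 : LaurentSeries ↥L') * (g : LaurentSeries ↥L') ^ p)
    (hσΦ : ∀ σ : ↥(s44mn_G (A.inertiaSubgroupIn ℚ) L'),
      coeffMap (((σ : ↥L' ≃ₐ[ℚ] ↥L') : ↥L' ≃ₐ[ℚ] ↥L') : ↥L' →+* ↥L')
        (Φ : LaurentSeries ↥L') = (Φ : LaurentSeries ↥L'))
    (hRΦ : ∀ v : Place ↥L' ↥(lg_E ↥L' (M * p)), v.ord Φ ≠ 0 → ss_RatPlace v)
    (i i' : s44e_Sg A M p hp.out hpM)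
    (hND : m59yh2_NDAt A hA M hpM hp2 i.1 L' hπ)
    (hND' : m59yh2_NDAt A hA M hpM hp2 i'.1 L' hπ) :
    m59ye_k2 A M p hp.out hpM i * s44e_nu A M p hp.out hpM V i =
      m59ye_k2 A M p hp.out hpM i' * s44e_nu A M p hp.out hpM V i' := by
  classical
  obtain ⟨𝔫, h𝔫, u, v, T, ν, h1, hU, hσu, ⟨huS, hν⟩, hdict, h12⟩ := hND
  obtain ⟨𝔫', h𝔫', u', v', T', ν', h1', hU', hσu', ⟨huS', hν'⟩, hdict', h12'⟩ := hND'
  haveI := h𝔫
  haveI := h𝔫'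
  have hpp := hp.out
  -- `p = π ^ e' · unit`
  have hp0 : ((p : ℕ) : ↥(A.comap (algebraMap ↥L' Qb))) ≠ 0 := by
    intro h0
    have h2 := congrArg (fun z : ↥(A.comap (algebraMap ↥L' Qb)) => (z : ↥L')) h0
    simp only [ZeroMemClass.coe_zero] at h2
    have h3 : ((p : ℕ) : ↥L') = 0 := by
      rw [← h2]
      push_cast
      rfl
    exact hpp.ne_zero (by exact_mod_cast h3)
  obtain ⟨e', w, hw⟩ := IsDiscreteValuationRing.eq_unit_mul_pow_irreducible hp0 hπ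
  have hqe : ((p : ℕ) : ↥(A.comap (algebraMap ↥L' Qb))) = π ^ e' * (w : _) := by
    rw [hw, mul_comm]
  -- the inertia group
  have hin : ∀ γ : ↥(s44mn_G (A.inertiaSubgroupIn ℚ) L'),
      ss_Inert (A.comap (algebraMap ↥L' Qb))
        (MulSemiringAction.toRingEquiv ↥(s44mn_G (A.inertiaSubgroupIn ℚ) L') ↥L' γ) :=
    fun γ x hx => s44mi_inert A L' γ.2 x hx
  have hbase : ∀ c : ↥L', c ≠ 0 →
      (∀ γ : ↥(s44mn_G (A.inertiaSubgroupIn ℚ) L'), γ • c = c) →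
      ∃ (n : ℤ) (ω : (↥(A.comap (algebraMap ↥L' Qb)))ˣ),
        c = (π : ↥L') ^ ((e' : ℤ) * n) * (ω : ↥L') :=
    fun c hc hfix => s44mi_base p A hA L' hπ w.isUnit hqe c hc (fun γ hγ => hfix ⟨γ, hγ⟩)
  obtain ⟨hfv0, hordV⟩ := s44mci_ord_rep ↥L' (M * p) hrepV fv1 rfl
  have hΦ' : Φ = algebraMap ↥L' ↥(lg_E ↥L' (M * p)) c *
      lg_phiE (L := ↥L') (N := M * p) fv1 * g ^ p := Subtype.ext hΦ
  have hpair : ν (lg_phiE (L := ↥L') (N := M * p) fv1) ≡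
      ν' (lg_phiE (L := ↥L') (N := M * p) fv1) [ZMOD (p : ℤ)] :=
    s44gl_pair_triv ↥L' (A.comap (algebraMap ↥L' Qb)) hπ M p hp2 hpM ζM hζM hin hqe hbase
      hc0 hg hΦ' hσΦ hfv0 hordV hRΦ 𝔫 𝔫' h1 h1' hU hU' hσu hσu' ν ν' huS huS' hν hν'
  -- Gauss normalisation of `fv1`
  have hfv10 : fv1 ≠ 0 := by
    rintro rfl
    exact hfv0 (map_zero _)
  obtain ⟨n, hmemW, hunit⟩ := s44mm_exists_norm A M L' hπ fv1 hfv10
  have hrep := s44mm_rep_norm A M L' hπ n hrepV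
  haveI := s44mci_leg_isAlg ↥L' (A.comap (algebraMap ↥L' Qb)) (M * p)
  haveI := s44mci_leg_noeth ↥L' (A.comap (algebraMap ↥L' Qb)) (M * p)
  haveI := s44mci_leg_ic ↥L' (A.comap (algebraMap ↥L' Qb)) (M * p)
  haveI := ssl_loc_isNoetherianRing (F0 := ↥(lg_E ↥L' (M * p))) 𝔫
  haveI := ssl_loc_isLocalRing (F0 := ↥(lg_E ↥L' (M * p))) 𝔫
  haveI := ssl_loc_isNoetherianRing (F0 := ↥(lg_E ↥L' (M * p))) 𝔫'
  haveI := ssl_loc_isLocalRing (F0 := ↥(lg_E ↥L' (M * p))) 𝔫'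
  have e1 := s44mm_nu_phi_norm A M L' hπ hν rfl hfv10 n
  have e1' := s44mm_nu_phi_norm A M L' hπ hν' rfl hfv10 n
  have hFb := s44mm_fbar A hA M hpM L' hπ (s44nlr_red A hA M hpM L' hπ) (fun x hb => rfl)
    hunit hrep
  refine m59ymend_pair A hA M hpM hpn2 hV i i' hFb h12 h12'
    (cV := ν (lg_phiE (L := ↥L') (N := M * p)
      (algebraMap ↥L' ↥(lg_F ↥L' (M * p)) ((π : ↥(A.comap (algebraMap ↥L' Qb))) : ↥L') ^ n * fv1)))
    (cV' := ν' (lg_phiE (L := ↥L') (N := M * p)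
      (algebraMap ↥L' ↥(lg_F ↥L' (M * p)) ((π : ↥(A.comap (algebraMap ↥L' Qb))) : ↥L') ^ n * fv1)))
    ?_ ?_ ?_
  · rw [hdict _ hunit]
  · rw [hdict' _ hunit]
  · rw [e1, e1']
    exact hpair

end Pair

end Fermat.Agent.M59
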