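import Fermat.Agent.S44.Mono.UnitNodeInst
import Mathlib
import Fermat.Agent.S44.Mono.UnitNodeChart
import Fermat.Agent.S44.Mono.UNode
import Fermat.Agent.M59.TTwin.UNodeVert
import Fermat.Agent.M59.TTwin.UnitVal

/-!
M59 / TTwin / UnitNodeInst (helper11, ruling #48): class (T) twin for Sink A.
Generated from `Fermat/Agent/S44/Mono/UnitNodeInst.lean` on main: the weight-12 unit `Δ(z)/Δ(pz)` is replaced by the
weight-4 level-2 unit `u_F = F(z)/F(pz)`, `F = E₄(z) - E₄(2z)`; the constant `12` becomes `4`;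
`5 ≤ p` becomes `p ≠ 2` together with `2 ∣ M`.  Prefix `m59y…_`.
-/

set_option autoImplicit false
set_option synthInstance.maxHeartbeats 400000
set_option maxHeartbeats 3200000
set_option linter.unusedSectionVars false
set_option linter.unusedVariables false
set_option linter.style.haveILetI false

noncomputable section

open ModularCurve IntermediateField IsLocalRing Polynomial
open Fermat.Agent.JT3 Fermat.Agent.SS Fermat.Agent.MZ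

namespace Fermat.Agent.M59

open Fermat.Agent.S44

universe v

section Abs

variable {A0 : Type*} [CommRing A0] {F0 : Type v} [Field F0] [Algebra A0 F0]

end Abs

section NF

variable (L : Type) [Field L] [NumberField L] [Algebra L (AlgebraicClosure ℚ)]
  (O : ValuationSubring L) [IsDiscreteValuationRing O] {π : O} (hπ : Irreducible π)
variable (N' q : ℕ) [NeZero N'] [NeZero q] [hq : Fact q.Prime] [CharP (ResidueField O) q]
  (hq2 : ¬ 2 ∣ q) (hqN' : ¬ q ∣ N') (ζ : L) (hζ : IsPrimitiveRoot ζ N')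

include hζ in
/-- **no horizontal divisor**: the modular unit is a unit at every horizontal prime of `B_𝔫`, `𝔫` a
crossing point of the Legendre chart. -/
theorem m59yun_hor
    [IsFractionRing (fc_chart ↥O ({lg_lamE (N' * q)} : Set ↥(lg_E L (N' * q)))) ↥(lg_E L (N' * q))]
    [IsNoetherianRing (fc_chart ↥O ({lg_lamE (N' * q)} : Set ↥(lg_E L (N' * q))))]
    [IsIntegrallyClosed (fc_chart ↥O ({lg_lamE (N' * q)} : Set ↥(lg_E L (N' * q))))]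
    (U1 : ↥(lg_F L (N' * q))) (hU1 : (U1 : LaurentSeries L) = m59yqi_U L q) (hev : 2 ∣ N')
    (𝔫 : Ideal (fc_chart ↥O ({lg_lamE (N' * q)} : Set ↥(lg_E L (N' * q))))) [h𝔫 : 𝔫.IsPrime]
    (h1 : ssm_tp_P (fc_chart ↥O ({lg_lamE (N' * q)} : Set ↥(lg_E L (N' * q))))
      (ssm_gl_V1 O hπ N' q) ≤ 𝔫)
    (h2 : ssm_tp_P (fc_chart ↥O ({lg_lamE (N' * q)} : Set ↥(lg_E L (N' * q))))
      (ssm_gl_V2 O hπ N' q hq2 hqN') ≤ 𝔫)
    (𝔮 : Ideal (ssl_locSub ↥(lg_E L (N' * q)) 𝔫))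
    (h𝔮 : ssl_Horiz (algebraMap (fc_chart ↥O ({lg_lamE (N' * q)} : Set ↥(lg_E L (N' * q))))
      (ssl_locSub ↥(lg_E L (N' * q)) 𝔫)
      (algebraMap ↥O (fc_chart ↥O ({lg_lamE (N' * q)} : Set ↥(lg_E L (N' * q)))) π)) 𝔮) :
    ssl_UnitAt (R := ↥(ssl_locSub ↥(lg_E L (N' * q)) 𝔫)) ↥(lg_E L (N' * q)) 𝔮
      (lg_phiE (L := L) (N := N' * q) U1) := by
  haveI := ssm_go_isScalarTower O (lg_E L (N' * q))
  haveI := ssl_loc_isNoetherianRing (F0 := ↥(lg_E L (N' * q))) 𝔫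
  haveI := ssl_loc_isIntegrallyClosed (F0 := ↥(lg_E L (N' * q))) 𝔫
  have hj := s44un_j_mem_loc L O hπ N' q hq2 hqN' ζ hζ 𝔫 h1 h2
  exact m59yuv_unitAt_horiz L q (N' * q) (m59yhw_dvd N' q hev) (A0 := ↥O)
    (R := ↥(ssl_locSub ↥(lg_E L (N' * q)) 𝔫)) hπ 𝔮 h𝔮
    (⟨s44uv_j2E L (N' * q), hj⟩ : ↥(ssl_locSub ↥(lg_E L (N' * q)) 𝔫)) rfl U1 hU1

include hζ in
set_option synthInstance.maxHeartbeats 400000 in
set_option maxHeartbeats 3200000 in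
/-- **(U-NODE), THE NODE VALUE OF THE MODULAR UNIT.**  `𝔫` a crossing point of the `λ`-chart of the
Legendre cover over `(L, O, π)`, `(u, v)` the coordinates of a uniform node at `𝔫` (`u v = q`:
helper29's `s44mu_node`), `U1` a model over `L` of the modular unit `Δ(τ)/Δ(qτ)`.  Then EVERY
normalised order `ν` of `B_𝔫` along the branch of `P1` (the `∞`-component) with respect to the
coordinate `u` takes the value `12` at `lg_phiE U1`. -/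
theorem m59yun_node
    [IsFractionRing (fc_chart ↥O ({lg_lamE (N' * q)} : Set ↥(lg_E L (N' * q)))) ↥(lg_E L (N' * q))]
    [IsNoetherianRing (fc_chart ↥O ({lg_lamE (N' * q)} : Set ↥(lg_E L (N' * q))))]
    [IsIntegrallyClosed (fc_chart ↥O ({lg_lamE (N' * q)} : Set ↥(lg_E L (N' * q))))]
    (U1 : ↥(lg_F L (N' * q))) (hU1 : (U1 : LaurentSeries L) = m59yqi_U L q) (hev : 2 ∣ N')
    (𝔫 : Ideal (fc_chart ↥O ({lg_lamE (N' * q)} : Set ↥(lg_E L (N' * q))))) [h𝔫 : 𝔫.IsPrime]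
    (h1 : ssm_tp_P (fc_chart ↥O ({lg_lamE (N' * q)} : Set ↥(lg_E L (N' * q))))
      (ssm_gl_V1 O hπ N' q) ≤ 𝔫)
    (h2 : ssm_tp_P (fc_chart ↥O ({lg_lamE (N' * q)} : Set ↥(lg_E L (N' * q))))
      (ssm_gl_V2 O hπ N' q hq2 hqN') ≤ 𝔫)
    {u v : ↥(lg_E L (N' * q))}
    (h : s44mu_NodeAtU π (fc_chart1_le (lg_lamE (N' * q) : ↥(lg_E L (N' * q))))
      (ssm_tp_P (fc_chart ↥O ({lg_lamE (N' * q), (lg_lamE (N' * q))⁻¹} :
        Set ↥(lg_E L (N' * q)))) (ssm_gl_V1 O hπ N' q))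
      (ssm_tp_P (fc_chart ↥O ({lg_lamE (N' * q), (lg_lamE (N' * q))⁻¹} :
        Set ↥(lg_E L (N' * q)))) (ssm_gl_V2 O hπ N' q hq2 hqN')) 𝔫 u v ((q : ℕ) : ↥O))
    (huS : u ∈ ssl_locSub ↥(lg_E L (N' * q)) 𝔫) :
    haveI := ssl_loc_isLocalRing (F0 := ↥(lg_E L (N' * q))) 𝔫
    haveI := ssl_loc_isNoetherianRing (F0 := ↥(lg_E L (N' * q))) 𝔫
    ∀ ν : ↥(lg_E L (N' * q)) → ℤ,
      s44nu_IsNu (algebraMap (fc_chart ↥O ({lg_lamE (N' * q)} : Set ↥(lg_E L (N' * q))))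
          (ssl_locSub ↥(lg_E L (N' * q)) 𝔫)
          (algebraMap ↥O (fc_chart ↥O ({lg_lamE (N' * q)} : Set ↥(lg_E L (N' * q)))) π))
        (⟨u, huS⟩ : ssl_locSub ↥(lg_E L (N' * q)) 𝔫)
        (s44tl_br 𝔫 (fc_chart1_le (lg_lamE (N' * q) : ↥(lg_E L (N' * q))))
          (ssm_tp_P (fc_chart ↥O ({lg_lamE (N' * q), (lg_lamE (N' * q))⁻¹} :
            Set ↥(lg_E L (N' * q)))) (ssm_gl_V1 O hπ N' q))) ν →
      ν (lg_phiE (L := L) (N := N' * q) U1) = 4 := by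
  intro ν hν
  haveI := ssl_loc_isLocalRing (F0 := ↥(lg_E L (N' * q))) 𝔫
  haveI := ssl_loc_isNoetherianRing (F0 := ↥(lg_E L (N' * q))) 𝔫
  haveI := ssm_go_isScalarTower O (lg_E L (N' * q))
  have hqO : ((q : ℕ) : O) ∈ maximalIdeal O := ssm_fln_q_mem L O q
  have hq2' : q ≠ 2 := ssm_fl_ne_two q hq2
  have hp := ssm_ll_prime L N' hπ q hqO hq2' hqN' ζ hζ
  have H := ssm_gl_hyp O hπ N' q hq2 hqN' hp.1
  have hx : Transcendental L (lg_lamE (L := L) (N' * q)) :=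
    lgf_lam_transcendental L (N' * q) two_ne_zero
  have hx0 : (lg_lamE (L := L) (N' * q)) ≠ 0 := fun h0 => hx (h0 ▸ isAlgebraic_zero)
  have hC := ssm_tp_ff_chart (L := L) hπ hx
  have hC12 := ssm_tp_ff_chart12 (L := L) hπ hx
  haveI : IsIntegrallyClosed (Algebra.adjoin ↥O ({lg_lamE (N' * q)} : Set ↥(lg_E L (N' * q)))) :=
    fc_ff_isIntegrallyClosed (fc_ff_transcendental (L := L) hx)
  haveI : FaithfulSMul (Algebra.adjoin ↥O ({lg_lamE (N' * q)} : Set ↥(lg_E L (N' * q))))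
      ↥(lg_E L (N' * q)) :=
    (faithfulSMul_iff_algebraMap_injective _ _).2 Subtype.val_injective
  obtain ⟨hP1, hP2, hrad, -, -⟩ := ssm_gl_model O hπ N' q hq2 hqN' hp.1
  haveI := hP1
  haveI := hP2
  have hBV1 : ∀ b ∈ fc_chart ↥O ({lg_lamE (N' * q)} : Set ↥(lg_E L (N' * q))),
      b ∈ ssm_gl_V1 O hπ N' q := fun b hb => hC.le H.over1 hb
  have hB12V1 : ∀ b ∈ fc_chart ↥O ({lg_lamE (N' * q), (lg_lamE (N' * q))⁻¹} :
      Set ↥(lg_E L (N' * q))), b ∈ ssm_gl_V1 O hπ N' q := fun b hb => hC12.le H.over1 hb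
  have hB12V2 : ∀ b ∈ fc_chart ↥O ({lg_lamE (N' * q), (lg_lamE (N' * q))⁻¹} :
      Set ↥(lg_E L (N' * q))), b ∈ ssm_gl_V2 O hπ N' q hq2 hqN' := fun b hb => hC12.le H.over2 hb
  -- `π ∈ 𝔫`
  have hϖ0 : algebraMap ↥O ↥(lg_E L (N' * q)) π ≠ 0 := H.algebraMap_ne_zero
  have hπ𝔫 : algebraMap ↥O (fc_chart ↥O ({lg_lamE (N' * q)} : Set ↥(lg_E L (N' * q)))) π ∈ 𝔫 :=
    h1 ((ssm_tp_mem_P hBV1).2 H.over1.pi_mem)
  obtain ⟨huv, hu, hv, hgen, hu1, hv2⟩ := h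
  -- `v ∈ B_𝔫`
  have hvS : v ∈ ssl_locSub ↥(lg_E L (N' * q)) 𝔫 := by
    obtain ⟨s, t, hs, -, hst⟩ := hv
    rw [ssl_mem_locSub]
    exact ⟨t, s, hs, (mul_comm _ _).trans hst⟩
  -- the two vertical values
  have hG1 := m59yun_V1 O hπ N' q hev U1 hU1
  have hG2 := m59yun_V2 O hπ N' q hq2 hqN' hev U1 hU1
  have hcast : algebraMap L ↥(lg_E L (N' * q)) ((q : L) ^ 4) =
      algebraMap ↥O ↥(lg_E L (N' * q)) ((q : ℕ) : ↥O) ^ (4 : ℤ) := by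
    rw [map_natCast, map_pow, map_natCast]
    norm_cast
  rw [hcast] at hG2
  exact s44un_chart_node (hle := fc_chart1_le (lg_lamE (N' * q) : ↥(lg_E L (N' * q)))) hπ hϖ0 hπ𝔫
    hrad (sfc_ff_mem_S (L := L) hπ hx) (fun z hz => fc_clear1 hx0 hz) huv hu hv hgen hu1 hv2 huS hvS
    (ssm_gl_V1 O hπ N' q) (ssm_gl_V2 O hπ N' q hq2 hqN')
    (fun b => hB12V1 b b.2) (fun b => hB12V2 b b.2)
    (fun b => ssm_tp_mem_P hB12V1) (fun b => ssm_tp_mem_P hB12V2)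
    (fun 𝔮 h𝔮 => m59yun_hor L O hπ N' q hq2 hqN' ζ hζ U1 hU1 hev 𝔫 h1 h2 𝔮 h𝔮) 4 hG1 hG2 hν

include hζ in
set_option synthInstance.maxHeartbeats 400000 in
set_option maxHeartbeats 3200000 in
/-- **(U-NODE) = `s44mu_node` + `m59yun_node`**: at every maximal crossing point `𝔫` of the
`λ`-chart there is a uniform node `(u, v)`, `u v = q`, fixed by all inert automorphisms, such that
every normalised order of `B_𝔫` along the branch of `P1` w.r.t. `u` takes the value `12` at the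
modular unit. -/
theorem m59yun_node_exists
    [IsFractionRing (fc_chart ↥O ({lg_lamE (N' * q)} : Set ↥(lg_E L (N' * q)))) ↥(lg_E L (N' * q))]
    [IsNoetherianRing (fc_chart ↥O ({lg_lamE (N' * q)} : Set ↥(lg_E L (N' * q))))]
    [IsIntegrallyClosed (fc_chart ↥O ({lg_lamE (N' * q)} : Set ↥(lg_E L (N' * q))))]
    (U1 : ↥(lg_F L (N' * q))) (hU1 : (U1 : LaurentSeries L) = m59yqi_U L q) (hev : 2 ∣ N')
    (𝔫 : Ideal (fc_chart ↥O ({lg_lamE (N' * q)} : Set ↥(lg_E L (N' * q))))) (h𝔫 : 𝔫.IsMaximal)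
    (h1 : ssm_tp_P (fc_chart ↥O ({lg_lamE (N' * q)} : Set ↥(lg_E L (N' * q))))
      (ssm_gl_V1 O hπ N' q) ≤ 𝔫)
    (h2 : ssm_tp_P (fc_chart ↥O ({lg_lamE (N' * q)} : Set ↥(lg_E L (N' * q))))
      (ssm_gl_V2 O hπ N' q hq2 hqN') ≤ 𝔫) :
    haveI := h𝔫.isPrime
    haveI := ssl_loc_isLocalRing (F0 := ↥(lg_E L (N' * q))) 𝔫
    haveI := ssl_loc_isNoetherianRing (F0 := ↥(lg_E L (N' * q))) 𝔫
    ∃ u v : ↥(lg_E L (N' * q)),
      s44mu_NodeAtU π (fc_chart1_le (lg_lamE (N' * q) : ↥(lg_E L (N' * q))))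
        (ssm_tp_P (fc_chart ↥O ({lg_lamE (N' * q), (lg_lamE (N' * q))⁻¹} :
          Set ↥(lg_E L (N' * q)))) (ssm_gl_V1 O hπ N' q))
        (ssm_tp_P (fc_chart ↥O ({lg_lamE (N' * q), (lg_lamE (N' * q))⁻¹} :
          Set ↥(lg_E L (N' * q)))) (ssm_gl_V2 O hπ N' q hq2 hqN')) 𝔫 u v ((q : ℕ) : ↥O) ∧
      (∀ (σ : L ≃+* L), ss_Inert O σ →
        ssm_sg_aut (N' * q) σ u = u ∧ ssm_sg_aut (N' * q) σ v = v) ∧
      ∀ (huS : u ∈ ssl_locSub ↥(lg_E L (N' * q)) 𝔫) (ν : ↥(lg_E L (N' * q)) → ℤ),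
        s44nu_IsNu (algebraMap (fc_chart ↥O ({lg_lamE (N' * q)} : Set ↥(lg_E L (N' * q))))
            (ssl_locSub ↥(lg_E L (N' * q)) 𝔫)
            (algebraMap ↥O (fc_chart ↥O ({lg_lamE (N' * q)} : Set ↥(lg_E L (N' * q)))) π))
          (⟨u, huS⟩ : ssl_locSub ↥(lg_E L (N' * q)) 𝔫)
          (s44tl_br 𝔫 (fc_chart1_le (lg_lamE (N' * q) : ↥(lg_E L (N' * q))))
            (ssm_tp_P (fc_chart ↥O ({lg_lamE (N' * q), (lg_lamE (N' * q))⁻¹} :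
              Set ↥(lg_E L (N' * q)))) (ssm_gl_V1 O hπ N' q))) ν →
        ν (lg_phiE (L := L) (N := N' * q) U1) = 4 := by
  haveI := h𝔫.isPrime
  obtain ⟨u, v, huv, hfix⟩ := s44mu_node L O hπ N' q hq2 hqN' ζ hζ 𝔫 h𝔫 h1 h2
  exact ⟨u, v, huv, hfix, fun huS ν hν =>
    m59yun_node L O hπ N' q hq2 hqN' ζ hζ U1 hU1 hev 𝔫 h1 h2 huv huS ν hν⟩

end NF

end Fermat.Agent.M59
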