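import Fermat.Agent.S44.Mono.NodeDictSS
import Mathlib
import Fermat.Agent.S44.Mono.NodeDictLeg
import Fermat.Agent.M59.TTwin.UnitNodeInst
import Fermat.Agent.S44.Mono.MainNorm
import Fermat.Agent.M59.TTwin.UbarNF
import Fermat.Agent.M59.TTwin.UDivSmoothOut

/-!
M59 / TTwin / NodeDictSS (helper11, ruling #48): class (T) twin for Sink A.
Generated from `Fermat/Agent/S44/Mono/NodeDictSS.lean` on main: the weight-12 unit `Δ(z)/Δ(pz)` is replaced by the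
weight-4 level-2 unit `u_F = F(z)/F(pz)`, `F = E₄(z) - E₄(2z)`; the constant `12` becomes `4`;
`5 ≤ p` becomes `p ≠ 2` together with `2 ∣ M`.  Prefix `m59y…_`.
-/

set_option autoImplicit false
set_option synthInstance.maxHeartbeats 400000
set_option maxHeartbeats 3200000
set_option linter.unusedSectionVars false
set_option linter.style.haveILetI false
set_option linter.unusedVariables false
set_option synthInstance.maxHeartbeats 400000
set_option maxHeartbeats 1600000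

noncomputable section

namespace Fermat.Agent.M59

open Fermat.Agent.S44

open Polynomial ModularCurve AlgebraicCurve IntermediateField IsLocalRing
open Fermat.Agent.JT3 Fermat.Agent.SS Fermat.Agent.S35 Fermat.Agent.S24 Fermat.Agent.S28
  Fermat.Agent.MZ

section SS

local notation "Qb" => AlgebraicClosure ℚ

variable (A : ValuationSubring Qb) {p : ℕ} [hp : Fact p.Prime] (hA : A.LiesOverPrime p)
  (M : ℕ) [NeZero M] [NeZero p] [NeZero (M * p)] (hpM : ¬ p ∣ M) (hp2 : ¬ 2 ∣ p) (hev : 2 ∣ M)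

include hA hev in
/-- **(ND-SS) over a given number field `L1`**, from a model `U1` of the modular unit over `L1`. -/
theorem m59yndss_at (L1 : IntermediateField ℚ Qb) [NumberField ↥L1]
    [IsDiscreteValuationRing ↥(A.comap (algebraMap L1 Qb))]
    [CharP (ResidueField ↥(A.comap (algebraMap L1 Qb))) p]
    {π : ↥(A.comap (algebraMap L1 Qb))} (hπ : Irreducible π)
    (ζ : ↥L1) (hζ : IsPrimitiveRoot ζ M)
    (Q : Place (s44e_kA A) ↥(s44e_FF A M)) (hQ : s44e_IsSS A M p hp.out hpM Q)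
    (U1 : ↥(lg_F L1 (M * p)))
    (hU1 : ssm_al_iotaF L1 (M * p) U1 = m59yhu_U p (M * p) (m59yhu_dvd (rfl : M * p = M * p) hev)) :
    ∃ (𝔫 : Ideal ↥(fc_chart ↥(A.comap (algebraMap L1 Qb))
          ({lg_lamE (M * p)} : Set ↥(lg_E L1 (M * p)))))
      (h𝔫 : 𝔫.IsMaximal) (u v : ↥(lg_E L1 (M * p))) (T : ℕ) (ν : ↥(lg_E L1 (M * p)) → ℤ),
      haveI := (s44ndl_chart_inst (A.comap (algebraMap L1 Qb)) M p (L := L1)).1
      haveI := (s44ndl_chart_inst (A.comap (algebraMap L1 Qb)) M p (L := L1)).2.1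
      haveI := (s44ndl_chart_inst (A.comap (algebraMap L1 Qb)) M p (L := L1)).2.2
      haveI := h𝔫.isPrime
      haveI := ssl_loc_isLocalRing (F0 := ↥(lg_E L1 (M * p))) 𝔫
      haveI := ssl_loc_isNoetherianRing (F0 := ↥(lg_E L1 (M * p))) 𝔫
      ssm_tp_P (fc_chart ↥(A.comap (algebraMap L1 Qb))
          ({lg_lamE (M * p)} : Set ↥(lg_E L1 (M * p))))
          (ssm_gl_V1 (A.comap (algebraMap L1 Qb)) hπ M p) ≤ 𝔫 ∧
      ssm_tp_P (fc_chart ↥(A.comap (algebraMap L1 Qb))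
          ({lg_lamE (M * p)} : Set ↥(lg_E L1 (M * p))))
          (ssm_gl_V2 (A.comap (algebraMap L1 Qb)) hπ M p hp2 hpM) ≤ 𝔫 ∧
      s44mu_NodeAtU π (fc_chart1_le (lg_lamE (M * p) : ↥(lg_E L1 (M * p))))
        (ssm_tp_P (fc_chart ↥(A.comap (algebraMap L1 Qb))
          ({lg_lamE (M * p), (lg_lamE (M * p))⁻¹} : Set ↥(lg_E L1 (M * p))))
          (ssm_gl_V1 (A.comap (algebraMap L1 Qb)) hπ M p))
        (ssm_tp_P (fc_chart ↥(A.comap (algebraMap L1 Qb))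
          ({lg_lamE (M * p), (lg_lamE (M * p))⁻¹} : Set ↥(lg_E L1 (M * p))))
          (ssm_gl_V2 (A.comap (algebraMap L1 Qb)) hπ M p hp2 hpM))
        𝔫 u v ((p : ℕ) : ↥(A.comap (algebraMap L1 Qb))) ∧
      (∀ (σ : ↥L1 ≃+* ↥L1), ss_Inert (A.comap (algebraMap L1 Qb)) σ →
        ssm_sg_aut (M * p) σ u = u ∧ ssm_sg_aut (M * p) σ v = v) ∧
      0 < T ∧
      (∃ huS : u ∈ ssl_locSub ↥(lg_E L1 (M * p)) 𝔫,
        s44nu_IsNu
          (algebraMap ↥(fc_chart ↥(A.comap (algebraMap L1 Qb))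
              ({lg_lamE (M * p)} : Set ↥(lg_E L1 (M * p))))
            ↥(ssl_locSub ↥(lg_E L1 (M * p)) 𝔫)
            (algebraMap ↥(A.comap (algebraMap L1 Qb))
              ↥(fc_chart ↥(A.comap (algebraMap L1 Qb))
                ({lg_lamE (M * p)} : Set ↥(lg_E L1 (M * p)))) π))
          (⟨u, huS⟩ : ↥(ssl_locSub ↥(lg_E L1 (M * p)) 𝔫))
          (s44tl_br 𝔫 (fc_chart1_le (lg_lamE (M * p) : ↥(lg_E L1 (M * p))))
            (ssm_tp_P (fc_chart ↥(A.comap (algebraMap L1 Qb))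
              ({lg_lamE (M * p), (lg_lamE (M * p))⁻¹} : Set ↥(lg_E L1 (M * p))))
              (ssm_gl_V1 (A.comap (algebraMap L1 Qb)) hπ M p))) ν) ∧
      (∀ b : ↥(s44mz_VF (A.comap (algebraMap L1 Qb)) hπ M p), IsUnit b →
        ν (lg_phiE (L := ↥L1) (N := M * p) (b : ↥(lg_F L1 (M * p)))) =
          (T : ℤ) * Q.ord (s44nlr_red A hA M hpM L1 hπ b : ↥(s44e_FF A M))) ∧
      (T : ℤ) * Q.ord (m59ye_ubar A M p) = 4 := by
  obtain ⟨𝒲, hext⟩ := s44ndl_exists_ext A hA M hp2 hpM L1 hπ Q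
  have hc := s44ndl_centre_A A hA M hp2 hpM L1 hπ ζ hζ Q 𝒲 hext hQ.1
  have h𝔫 : (s44ndl_n L1 (A.comap (algebraMap L1 Qb)) hπ M p hp2 hpM 𝒲).IsMaximal :=
    hc.2.2.2.2.1
  have hP1 := hc.2.2.2.2.2.2.2
  haveI := (s44ndl_chart_inst (A.comap (algebraMap L1 Qb)) M p (L := L1)).1
  haveI := (s44ndl_chart_inst (A.comap (algebraMap L1 Qb)) M p (L := L1)).2.1
  haveI := (s44ndl_chart_inst (A.comap (algebraMap L1 Qb)) M p (L := L1)).2.2
  haveI := h𝔫.isPrime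
  haveI := ssl_loc_isLocalRing (F0 := ↥(lg_E L1 (M * p)))
    (s44ndl_n L1 (A.comap (algebraMap L1 Qb)) hπ M p hp2 hpM 𝒲)
  haveI := ssl_loc_isNoetherianRing (F0 := ↥(lg_E L1 (M * p)))
    (s44ndl_n L1 (A.comap (algebraMap L1 Qb)) hπ M p hp2 hpM 𝒲)
  obtain ⟨hP2, u, v, hU, hfix, huS, T, ν, hT, hν, hunit⟩ :=
    s44ndl_node_A A hA M hp2 hpM L1 hπ ζ hζ Q 𝒲 hext hQ h𝔫
  refine ⟨s44ndl_n L1 (A.comap (algebraMap L1 Qb)) hπ M p hp2 hpM 𝒲, h𝔫, u, v, T, ν, hP1, hP2, hU,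
    hfix, hT, ⟨huS, hν⟩, hunit, ?_⟩
  -- the modular unit
  have hU1' : ((U1 : ↥(lg_F L1 (M * p))) : LaurentSeries L1) = m59yqi_U L1 p :=
    m59yeu_model_coe L1 p (M * p) (m59yhu_dvd (rfl : M * p = M * p) hev) hU1
  have hmem : U1 ∈ s44mz_VF (A.comap (algebraMap L1 Qb)) hπ M p :=
    (s44mm_mem_VF_iff A hA M L1 hπ U1).2 (m59yeu_model_mem A hA M hev L1 hU1)
  have hu1 : IsUnit (⟨U1, hmem⟩ : ↥(s44mz_VF (A.comap (algebraMap L1 Qb)) hπ M p)) :=
    m59yus_model_isUnit A M L1 hπ hev ⟨U1, hmem⟩ hU1'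
  have h12 := m59yun_node ↥L1 (A.comap (algebraMap L1 Qb)) hπ M p hp2 hpM ζ hζ U1 hU1' hev
    (s44ndl_n L1 (A.comap (algebraMap L1 Qb)) hπ M p hp2 hpM 𝒲) hP1 hP2 hU huS ν hν
  have hred : s44nlr_red A hA M hpM L1 hπ ⟨U1, hmem⟩ = m59ye_ubar A M p := by
    rw [s44nlr_red_apply]
    exact m59yeu_red_model A hA M hpM hev L1 hU1 _
  rw [← hred, ← hunit _ hu1]
  exact h12

include hA hev in
/-- **(ND-SS)**, the form of request #4222: `Q` supersingular; over every number field `L1 ⊇ T₀`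
(with `O1 = A ∩ L1` a DVR, `π` a uniformiser, `ζ ∈ L1` a primitive `M`-th root of unity) the
supersingular node package `(𝔫, u, v, T, ν)`. -/
theorem m59yndss_main (Q : Place (s44e_kA A) ↥(s44e_FF A M))
    (hQ : s44e_IsSS A M p hp.out hpM Q) :
    ∃ T₀ : Finset Qb, ∀ (L1 : IntermediateField ℚ Qb) [FiniteDimensional ℚ L1],
      (↑T₀ : Set Qb) ⊆ L1 →
      ∀ [IsDiscreteValuationRing ↥(A.comap (algebraMap L1 Qb))]
        [CharP (ResidueField ↥(A.comap (algebraMap L1 Qb))) p]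
        {π : ↥(A.comap (algebraMap L1 Qb))} (hπ : Irreducible π)
        (ζ : ↥L1) (hζ : IsPrimitiveRoot ζ M),
      ∃ (𝔫 : Ideal ↥(fc_chart ↥(A.comap (algebraMap L1 Qb))
            ({lg_lamE (M * p)} : Set ↥(lg_E L1 (M * p)))))
        (h𝔫 : 𝔫.IsMaximal) (u v : ↥(lg_E L1 (M * p))) (T : ℕ) (ν : ↥(lg_E L1 (M * p)) → ℤ),
        haveI := (s44ndl_chart_inst (A.comap (algebraMap L1 Qb)) M p (L := L1)).1
        haveI := (s44ndl_chart_inst (A.comap (algebraMap L1 Qb)) M p (L := L1)).2.1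
        haveI := (s44ndl_chart_inst (A.comap (algebraMap L1 Qb)) M p (L := L1)).2.2
        haveI := h𝔫.isPrime
        haveI := ssl_loc_isLocalRing (F0 := ↥(lg_E L1 (M * p))) 𝔫
        haveI := ssl_loc_isNoetherianRing (F0 := ↥(lg_E L1 (M * p))) 𝔫
        ssm_tp_P (fc_chart ↥(A.comap (algebraMap L1 Qb))
            ({lg_lamE (M * p)} : Set ↥(lg_E L1 (M * p))))
            (ssm_gl_V1 (A.comap (algebraMap L1 Qb)) hπ M p) ≤ 𝔫 ∧
        ssm_tp_P (fc_chart ↥(A.comap (algebraMap L1 Qb))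
            ({lg_lamE (M * p)} : Set ↥(lg_E L1 (M * p))))
            (ssm_gl_V2 (A.comap (algebraMap L1 Qb)) hπ M p hp2 hpM) ≤ 𝔫 ∧
        s44mu_NodeAtU π (fc_chart1_le (lg_lamE (M * p) : ↥(lg_E L1 (M * p))))
          (ssm_tp_P (fc_chart ↥(A.comap (algebraMap L1 Qb))
            ({lg_lamE (M * p), (lg_lamE (M * p))⁻¹} : Set ↥(lg_E L1 (M * p))))
            (ssm_gl_V1 (A.comap (algebraMap L1 Qb)) hπ M p))
          (ssm_tp_P (fc_chart ↥(A.comap (algebraMap L1 Qb))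
            ({lg_lamE (M * p), (lg_lamE (M * p))⁻¹} : Set ↥(lg_E L1 (M * p))))
            (ssm_gl_V2 (A.comap (algebraMap L1 Qb)) hπ M p hp2 hpM))
          𝔫 u v ((p : ℕ) : ↥(A.comap (algebraMap L1 Qb))) ∧
        (∀ (σ : ↥L1 ≃+* ↥L1), ss_Inert (A.comap (algebraMap L1 Qb)) σ →
          ssm_sg_aut (M * p) σ u = u ∧ ssm_sg_aut (M * p) σ v = v) ∧
        0 < T ∧
        (∃ huS : u ∈ ssl_locSub ↥(lg_E L1 (M * p)) 𝔫,
          s44nu_IsNu
            (algebraMap ↥(fc_chart ↥(A.comap (algebraMap L1 Qb))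
                ({lg_lamE (M * p)} : Set ↥(lg_E L1 (M * p))))
              ↥(ssl_locSub ↥(lg_E L1 (M * p)) 𝔫)
              (algebraMap ↥(A.comap (algebraMap L1 Qb))
                ↥(fc_chart ↥(A.comap (algebraMap L1 Qb))
                  ({lg_lamE (M * p)} : Set ↥(lg_E L1 (M * p)))) π))
            (⟨u, huS⟩ : ↥(ssl_locSub ↥(lg_E L1 (M * p)) 𝔫))
            (s44tl_br 𝔫 (fc_chart1_le (lg_lamE (M * p) : ↥(lg_E L1 (M * p))))
              (ssm_tp_P (fc_chart ↥(A.comap (algebraMap L1 Qb))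
                ({lg_lamE (M * p), (lg_lamE (M * p))⁻¹} : Set ↥(lg_E L1 (M * p))))
                (ssm_gl_V1 (A.comap (algebraMap L1 Qb)) hπ M p))) ν) ∧
        (∀ b : ↥(s44mz_VF (A.comap (algebraMap L1 Qb)) hπ M p), IsUnit b →
          ν (lg_phiE (L := ↥L1) (N := M * p) (b : ↥(lg_F L1 (M * p)))) =
            (T : ℤ) * Q.ord (s44nlr_red A hA M hpM L1 hπ b : ↥(s44e_FF A M))) ∧
        (T : ℤ) * Q.ord (m59ye_ubar A M p) = 4 := by
  obtain ⟨T₀, hT₀⟩ := m59yeu_exists_model p (M * p) (m59yhu_dvd (rfl : M * p = M * p) hev)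
  refine ⟨T₀, fun L1 _ hT _ _ π hπ ζ hζ => ?_⟩
  haveI : NumberField ↥L1 := { to_charZero := inferInstance, to_finiteDimensional := inferInstance }
  obtain ⟨U1, hU1⟩ := hT₀ L1 hT
  exact m59yndss_at A hA M hpM hp2 hev L1 hπ ζ hζ Q hQ U1 hU1

end SS

end Fermat.Agent.M59
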