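import Mathlib
import Fermat.Agent.M59.TTwin.MainND
import Fermat.Agent.M59.TTwin.NodeDictSS

/-!
M59 / TTwin / NodeDictSSDef (helper11, ruling #48): class (T) twin for Sink A.
Generated from `Fermat/Agent/S44/Mono/NodeDictSSDef.lean` on main: the weight-12 unit `Δ(z)/Δ(pz)` is replaced by the
weight-4 level-2 unit `u_F = F(z)/F(pz)`, `F = E₄(z) - E₄(2z)`; the constant `12` becomes `4`;
`5 ≤ p` becomes `p ≠ 2` together with `2 ∣ M`.  Prefix `m59y…_`.
-/

set_option autoImplicit false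
set_option synthInstance.maxHeartbeats 400000
set_option maxHeartbeats 3200000
set_option linter.unusedSectionVars false
set_option linter.style.haveILetI false
set_option linter.unusedVariables false
set_option synthInstance.maxHeartbeats 400000
set_option maxHeartbeats 1600000

noncomputable section

namespace Fermat.Agent.M59

open Fermat.Agent.S44

open Polynomial ModularCurve AlgebraicCurve IntermediateField IsLocalRing
open Fermat.Agent.JT3 Fermat.Agent.SS Fermat.Agent.S35 Fermat.Agent.S24 Fermat.Agent.S28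
  Fermat.Agent.MZ

section SSDef

local notation "Qb" => AlgebraicClosure ℚ

variable (A : ValuationSubring Qb) {p : ℕ} [hp : Fact p.Prime] (hA : A.LiesOverPrime p)
  (M : ℕ) [NeZero M] [NeZero p] [NeZero (M * p)] (hpM : ¬ p ∣ M) (hp2 : ¬ 2 ∣ p) (hev : 2 ∣ M)

include hA hev in
/-- **(ND-SS) at one number field**, in the shape `m59yh2_NDAt`. -/
theorem m59yndss_ndAt (L1 : IntermediateField ℚ Qb) [NumberField ↥L1]
    [IsDiscreteValuationRing ↥(A.comap (algebraMap L1 Qb))]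
    [CharP (ResidueField ↥(A.comap (algebraMap L1 Qb))) p]
    {π : ↥(A.comap (algebraMap L1 Qb))} (hπ : Irreducible π)
    (ζ : ↥L1) (hζ : IsPrimitiveRoot ζ M)
    (Q : Place (s44e_kA A) ↥(s44e_FF A M)) (hQ : s44e_IsSS A M p hp.out hpM Q)
    (U1 : ↥(lg_F L1 (M * p)))
    (hU1 : ssm_al_iotaF L1 (M * p) U1 = m59yhu_U p (M * p) (m59yhu_dvd (rfl : M * p = M * p) hev)) :
    m59yh2_NDAt A hA M hpM hp2 Q L1 hπ := by
  obtain ⟨𝔫, h𝔫, u, v, T, ν, hP1, hP2, hU, hfix, hT, ⟨huS, hν⟩, hunit, h12⟩ :=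
    m59yndss_at A hA M hpM hp2 hev L1 hπ ζ hζ Q hQ U1 hU1
  exact ⟨𝔫, h𝔫, u, v, (T : ℤ), ν, hP1, hU, fun σ hσ => (hfix σ hσ).1, ⟨huS, hν⟩, hunit, h12⟩

include hA hev in
/-- **(ND-SS)** in the interface shape of `Mono/MainND.lean`. -/
theorem m59yndss_ndss (Q : Place (s44e_kA A) ↥(s44e_FF A M))
    (hQ : s44e_IsSS A M p hp.out hpM Q) : m59yh2_NDSS A hA M hpM hp2 Q := by
  classical
  obtain ⟨T₀, hT₀⟩ := m59yeu_exists_model p (M * p) (m59yhu_dvd (rfl : M * p = M * p) hev)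
  obtain ⟨ζ0, hζ0⟩ := HasEnoughRootsOfUnity.exists_primitiveRoot Qb M
  refine ⟨insert ζ0 T₀, fun L1 _ _ _ hT π hπ => ?_⟩
  have hζmem : ζ0 ∈ L1 := hT (by simp)
  have hTsub : (↑T₀ : Set Qb) ⊆ L1 := fun x hx => hT (by simp [hx])
  obtain ⟨U1, hU1⟩ := hT₀ L1 hTsub
  have hζ : IsPrimitiveRoot (⟨ζ0, hζmem⟩ : ↥L1) M :=
    IsPrimitiveRoot.coe_submonoidClass_iff.1 hζ0
  exact m59yndss_ndAt A hA M hpM hp2 hev L1 hπ ⟨ζ0, hζmem⟩ hζ Q hQ U1 hU1

end SSDef

end Fermat.Agent.M59
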